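import Fermat.Agent.ErdosDiscrepancy.Rough
import Fermat.Agent.LogChowla.Main
import Mathlib.Analysis.SpecialFunctions.Complex.CircleAddChar

/-!
# Tao's logarithmic two-point Elliott theorem, uniformly

If no `g χ`, `χ` of modulus at most `W`, pretends to be `n ^ (iu)`, `|u| ≤ N ^ 3`, at the scale
`log N`, then `∑_{n ≤ N} g n conj (g (n + h)) / n` is at most `ε log N`. The values are rounded
to roots of unity of a fixed order for the entropy decrement.
-/

set_option autoImplicit false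

noncomputable section

namespace FA.ErdosDisc

open Filter Topology Complex Finset FA.LogChowla
open FA.ShortExpSums (winSum norm_winSum_le)
open scoped ComplexConjugate

/-- No `g χ`, `χ` of modulus at most `W`, is `δ`-pretentious at the scale `log N`. -/
def NonPretentious (g : ℕ →*₀ ℂ) (δ : ℝ) (W N : ℕ) : Prop :=
  ∀ b : ℕ, 1 ≤ b → b ≤ W → ∀ χ : DirichletCharacter ℂ b, ∀ u : ℝ, |u| ≤ (N : ℝ) ^ 3 →
    mass (twistHom g χ) (Real.log N) u ≤ δ

theorem NonPretentious.mono {g : ℕ →*₀ ℂ} {δ δ' : ℝ} {W W' N : ℕ}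
    (h : NonPretentious g δ W N) (hδ : δ ≤ δ') (hW : W' ≤ W) : NonPretentious g δ' W' N :=
  fun b hb hbW χ u hu => (h b hb (hbW.trans hW) χ u hu).trans hδ

/-- The mass at a scale up to `2 ^ r` times smaller. -/
theorem exists_mass_le_of_ratio : ∀ r : ℕ, ∃ C : ℝ, 0 < C ∧ ∀ᶠ L : ℝ in atTop, ∀ L',
    L / 2 ^ r ≤ L' → L' ≤ L → ∀ a : ℕ →*₀ ℂ, (∀ n, ‖a n‖ ≤ 1) → ∀ t : ℝ,
      mass a L' t ≤ C * mass a L t
  | 0 => ⟨1, one_pos, Eventually.of_forall fun L L' h h' a _ t => by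
      rw [pow_zero, div_one] at h
      rw [le_antisymm h' h, one_mul]⟩
  | r + 1 => by
    obtain ⟨C₁, hC₁, h₁⟩ := exists_mass_comparable
    obtain ⟨C, hC, h⟩ := exists_mass_le_of_ratio r
    obtain ⟨L₀, hL₀⟩ := eventually_atTop.1 h₁
    refine ⟨max C₁ (C₁ * C), lt_max_of_lt_left hC₁, ?_⟩
    filter_upwards [h, h₁, eventually_ge_atTop (L₀ * 2 ^ r), eventually_gt_atTop (0 : ℝ)]
      with L hr hcomp hLL hL L' hlo hhi a ha t
    rcases le_total (L / 2) L' with h' | h'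
    · exact (hcomp L' h' (by linarith) a ha t).trans
        (mul_le_mul_of_nonneg_right (le_max_left _ _) (mass_nonneg a hL.le t))
    have hlo' : L / 2 ^ r ≤ 2 * L' := by
      rw [pow_succ, ← div_div] at hlo
      linarith
    have h2 : L₀ ≤ 2 * L' := ((le_div_iff₀ (by positivity)).2 hLL).trans hlo'
    have hL' : 0 < 2 * L' := lt_of_lt_of_le (by positivity) hlo'
    refine ((hL₀ (2 * L') h2) L' (by linarith) (by linarith) a ha t).trans ?_
    refine (mul_le_mul_of_nonneg_left (hr (2 * L') hlo' (by linarith) a ha t) hC₁.le).trans ?_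
    rw [← mul_assoc]
    exact mul_le_mul_of_nonneg_right (le_max_right _ _) (mass_nonneg a hL.le t)

/-- **Short exponential sums of non-pretentious functions, in the logarithmic mean.** -/
theorem exists_logMean_winSum_le_of_mass {η : ℝ} (hη : 0 < η) : ∃ (δ : ℝ) (W H₀ : ℕ), 0 < δ ∧
    ∀ K : ℕ, H₀ ≤ K → ∀ᶠ N : ℕ in atTop, ∀ g : ℕ →*₀ ℂ, (∀ n, ‖g n‖ ≤ 1) →
      NonPretentious g δ W N → ∀ θ : ℝ,
        logMean N (fun n => ‖winSum g θ K n‖ ^ 2) ≤ η * (K : ℝ) ^ 2 := by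
  obtain ⟨ηm, W, H₀, X₀, hηm, hwin⟩ := exists_winSum_le_of_mass (show 0 < η / 4 by positivity)
  obtain ⟨r, hr⟩ := exists_pow_lt_of_lt_one (show 0 < η / 8 by positivity)
    (show (1 / 2 : ℝ) < 1 by norm_num)
  obtain ⟨c, hc⟩ : ∃ c : ℝ, c = (1 / 2) ^ r := ⟨_, rfl⟩
  rw [← hc] at hr
  have hc0 : 0 < c := hc ▸ by positivity
  have hc1 : c ≤ 1 := hc ▸ pow_le_one₀ (by norm_num) (by norm_num)
  obtain ⟨C, hC, hratio⟩ := exists_mass_le_of_ratio r
  refine ⟨ηm / C, W, H₀, div_pos hηm hC, fun K hK => ?_⟩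
  rcases Nat.eq_zero_or_pos K with rfl | hK0
  · exact Eventually.of_forall fun N g _ _ θ => by simp [logMean, winSum]
  have hlog : Tendsto (fun N : ℕ => Real.log N) atTop atTop :=
    Real.tendsto_log_atTop.comp tendsto_natCast_atTop_atTop
  filter_upwards [hlog.eventually hratio, eventually_ge_atTop 3,
    ((tendsto_rpow_atTop hc0).comp tendsto_natCast_atTop_atTop).eventually_ge_atTop
      ((X₀ + K + 1 : ℕ) : ℝ),
    eventually_div_harm_le (2 * (K : ℝ) ^ 2 + η / 4 * (K : ℝ) ^ 2)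
      (show 0 < η / 8 * (K : ℝ) ^ 2 by positivity)]
    with N hmass hN3 hNc herr g hg hnp θ
  simp only [Function.comp_apply] at hNc
  have hN1 : (1 : ℝ) ≤ N := Nat.one_le_cast.2 (by omega)
  obtain ⟨T₀, hT₀⟩ : ∃ T₀, T₀ = ⌈(N : ℝ) ^ c⌉₊ := ⟨_, rfl⟩
  have hNT : (N : ℝ) ^ c ≤ T₀ := hT₀ ▸ Nat.le_ceil _
  have hT1 : X₀ + K + 1 ≤ T₀ := Nat.cast_le.1 (hNc.trans hNT)
  have hblocks : ∀ X, T₀ ≤ X → X < N →
      ∑ n ∈ Ioc X (2 * X), ‖winSum g θ K n‖ ^ 2 ≤ η / 4 * (K : ℝ) ^ 2 * X := fun X hX hXN => by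
    refine le_of_le_of_eq (hwin g hg X K θ (by omega) hK (by omega)
      fun b hb hbW χ u hu => ?_) (by ring)
    have hXN' : (X : ℝ) ≤ N := Nat.cast_le.2 hXN.le
    have hX0 : (0 : ℝ) < X := Nat.cast_pos.2 (by omega)
    have h1 : Real.log N / 2 ^ r ≤ Real.log X := by
      have h2 : (N : ℝ) ^ c ≤ X := hNT.trans (Nat.cast_le.2 hX)
      have h3 := Real.log_le_log (by positivity) h2
      rw [Real.log_rpow (by linarith), hc, div_pow, one_pow, one_div_mul_eq_div] at h3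
      exact h3
    refine (hmass (Real.log X) h1 (Real.log_le_log hX0 hXN') _ (norm_twistHom_le hg χ) u).trans ?_
    refine (mul_le_mul_of_nonneg_left (hnp b hb hbW χ u (hu.trans ?_)) hC.le).trans
      (le_of_eq (mul_div_cancel₀ _ hC.ne'))
    have h4 : (3 : ℝ) ≤ N := Nat.ofNat_le_cast.2 hN3
    rw [pow_succ]
    exact mul_le_mul (by nlinarith) hXN' hX0.le (sq_nonneg _)
  refine (logMean_le_dyadic (A := η / 4 * (K : ℝ) ^ 2) (fun n => sq_nonneg _) (by positivity)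
    (show 1 ≤ T₀ by omega) (by omega)
    (fun n => pow_le_pow_left₀ (norm_nonneg _) (norm_winSum_le hg θ K n) 2) hblocks).trans ?_
  have hharm : harm T₀ ≤ 2 + c * harm N := by
    refine (harm_le_one_add_log T₀).trans ?_
    have h1 : (T₀ : ℝ) ≤ 2 * (N : ℝ) ^ c := by
      have := Nat.ceil_lt_add_one (show 0 ≤ (N : ℝ) ^ c by positivity)
      rw [← hT₀] at this
      linarith [Real.one_le_rpow hN1 hc0.le]
    have h2 := Real.log_le_log (Nat.cast_pos.2 (by omega)) h1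
    rw [Real.log_mul two_ne_zero (by positivity), Real.log_rpow (by linarith)] at h2
    linarith [Real.log_two_lt_d9, mul_le_mul_of_nonneg_left (log_le_harm (show 1 ≤ N by omega))
      hc0.le]
  have hpos := harm_pos (show 1 ≤ N by omega)
  have h5 : ((K : ℝ) ^ 2 * harm T₀ + η / 4 * (K : ℝ) ^ 2) / harm N ≤
      (2 * (K : ℝ) ^ 2 + η / 4 * (K : ℝ) ^ 2) / harm N + (K : ℝ) ^ 2 * c := by
    rw [div_add' _ _ _ hpos.ne']
    refine div_le_div_of_nonneg_right ?_ hpos.le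
    nlinarith [sq_nonneg (K : ℝ)]
  have h6 := mul_le_mul_of_nonneg_left hr.le (sq_nonneg (K : ℝ))
  linarith [show (0 : ℝ) ≤ η * (K : ℝ) ^ 2 by positivity]

/-- The index of the root of unity of order `m` just below `z`. -/
def circIdx (m : ℕ) (z : ℂ) : ZMod m := (⌊arg z / (2 * Real.pi) * m⌋ : ℤ)

theorem norm_sub_circIdx_le (m : ℕ) [NeZero m] {z : ℂ} (hz : ‖z‖ = 1) :
    ‖z - ZMod.stdAddChar (circIdx m z)‖ ≤ 7 / m := by
  obtain ⟨k, hk⟩ : ∃ k : ℤ, k = ⌊arg z / (2 * Real.pi) * m⌋ := ⟨_, rfl⟩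
  have hm : (0 : ℝ) < m := Nat.cast_pos.2 (NeZero.pos m)
  obtain ⟨φ, hφ⟩ : ∃ φ : ℝ, φ = 2 * Real.pi * k / m := ⟨_, rfl⟩
  have h1 : |arg z - φ| ≤ 2 * Real.pi / m := by
    have hlo := Int.floor_le (arg z / (2 * Real.pi) * m)
    have hhi := Int.lt_floor_add_one (arg z / (2 * Real.pi) * m)
    rw [← hk] at hlo hhi
    have e : arg z - φ = 2 * Real.pi / m * (arg z / (2 * Real.pi) * m - k) := by
      rw [hφ]
      field_simp [Real.pi_ne_zero]
    rw [e, abs_mul, abs_of_pos (by positivity)]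
    exact mul_le_of_le_one_right (by positivity) (abs_le.2 ⟨by linarith, by linarith⟩)
  rw [circIdx, ← hk, ZMod.stdAddChar_coe]
  nth_rewrite 1 [← norm_mul_exp_arg_mul_I z]
  rw [hz, ofReal_one, one_mul,
    show cexp (2 * Real.pi * I * k / m) = cexp ((φ : ℂ) * I) by rw [hφ]; push_cast; ring_nf,
    show cexp ((arg z : ℂ) * I) - cexp ((φ : ℂ) * I) =
      cexp ((φ : ℂ) * I) * (cexp (I * ((arg z - φ : ℝ) : ℂ)) - 1) by
        rw [mul_sub, mul_one, ← Complex.exp_add]; push_cast; ring_nf,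
    norm_mul, norm_exp_ofReal_mul_I, one_mul]
  refine Real.norm_exp_I_mul_ofReal_sub_one_le.trans ?_
  rw [Real.norm_eq_abs]
  exact h1.trans (div_le_div_of_nonneg_right (by linarith [Real.pi_lt_d2]) hm.le)

/-- The two-point correlation of `g` at the distance `h`, in the logarithmic mean. -/
def corrMean (g : ℕ → ℂ) (N h : ℕ) : ℂ :=
  ∑ n ∈ Icc 1 N, (logW N n : ℂ) * (g n * conj (g (n + h)))

theorem exists_corrMean_le {h : ℕ} (hh : 1 ≤ h) {ε : ℝ} (hε : 0 < ε) : ∃ (δ : ℝ) (W : ℕ), 0 < δ ∧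
    ∀ᶠ N : ℕ in atTop, ∀ g : ℕ →*₀ ℂ, (∀ n, n ≠ 0 → ‖g n‖ = 1) → NonPretentious g δ W N →
      ‖corrMean g N h‖ ≤ 4 * ε := by
  obtain ⟨η, hη, M₀, hcorr⟩ := exists_logMean_norm_corr_le hh hε
  obtain ⟨δ, W, H₀, hδ, hwin⟩ := exists_logMean_winSum_le_of_mass hη
  obtain ⟨m, hm⟩ : ∃ m : ℕ, m = ⌈(8 * h + 4) * 14 / ε⌉₊ + 1 := ⟨_, rfl⟩
  have : NeZero m := ⟨by omega⟩
  have hm0 : (0 : ℝ) < m := Nat.cast_pos.2 (by omega)
  have hσ : (8 * h + 4) * (14 / (m : ℝ)) ≤ ε := by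
    rw [← mul_div_assoc, div_le_iff₀ hm0, ← div_le_iff₀' hε]
    exact (Nat.le_ceil _).trans (Nat.cast_le.2 (by omega))
  obtain ⟨S, hS, hscale⟩ := exists_scales_pair (ZMod m) hh hε (M₀ + H₀)
  refine ⟨δ, W, hδ, ?_⟩
  filter_upwards [hscale,
    (eventually_all_finset S).2 fun M hM => hcorr M (by have := hS M hM; omega),
    (eventually_all_finset S).2 fun M hM => hwin (2 * h * M) (by
      have := hS M hM
      have := Nat.le_mul_of_pos_left M (show 0 < 2 * h by omega)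
      omega),
    (eventually_all_finset S).2 fun M hM => hwin (4 * h * M) (by
      have := hS M hM
      have := Nat.le_mul_of_pos_left M (show 0 < 4 * h by omega)
      omega)] with N hN hco h2 h4 g hg hnp
  have hg1 := norm_le_one_of_unimodular hg
  obtain ⟨E, hE⟩ : ∃ E, E = corrMean g N h := ⟨_, rfl⟩
  rw [← hE]
  rcases eq_or_ne E 0 with h0 | h0
  · rw [h0, norm_zero]
    linarith
  obtain ⟨ω, hω⟩ : ∃ ω : ℂ, ω = conj E / (‖E‖ : ℂ) := ⟨_, rfl⟩
  have hω1 : ‖ω‖ = 1 := by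
    rw [hω, norm_div, Complex.norm_conj, Complex.norm_real, norm_norm,
      div_self (norm_ne_zero_iff.2 h0)]
  have hb : ∀ m m' : ℕ, ‖ω * (g m * conj (g m'))‖ ≤ 1 := fun m m' => by
    rw [norm_mul, norm_mul, Complex.norm_conj, hω1, one_mul]
    exact mul_le_one₀ (hg1 m) (norm_nonneg _) (hg1 m')
  refine le_of_eq_of_le ?_ ((le_abs_self _).trans (hN (fun m m' => (ω * (g m * conj (g m'))).re)
    (fun n => circIdx m (g n))
    (fun x y => (ω * (ZMod.stdAddChar x * conj (ZMod.stdAddChar y))).re) (14 / m)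
    (fun m m' => (abs_re_le_norm _).trans (hb m m')) (fun p hp m m' => ?_) (fun x y => ?_)
    (by positivity) hσ (fun k k' hk hk' => ?_) fun M hM => ?_))
  · have e : (ω * E).re = ‖E‖ := by
      rw [hω, div_mul_eq_mul_div, Complex.conj_mul', ← ofReal_pow, ← ofReal_div, ofReal_re, sq,
        mul_self_div_self]
    rw [← e, hE, corrMean, mul_sum, Complex.re_sum, logMean]
    refine sum_congr rfl fun n _ => ?_
    rw [mul_left_comm, re_ofReal_mul]
  · have h1 : g p * conj (g p) = 1 := by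
      rw [mul_conj', hg p hp.ne_zero]
      simp
    rw [map_mul, map_mul, map_mul]
    congr 2
    linear_combination (g m * conj (g m')) * h1
  · refine (abs_re_le_norm _).trans (le_of_eq ?_)
    rw [norm_mul, norm_mul, Complex.norm_conj, hω1, AddChar.norm_apply, AddChar.norm_apply,
      one_mul, one_mul]
  · rw [← sub_re, ← mul_sub]
    refine (abs_re_le_norm _).trans ?_
    rw [norm_mul, hω1, one_mul]
    obtain ⟨v, hv⟩ : ∃ v : ZMod m → ℂ, v = fun x => ZMod.stdAddChar x := ⟨_, rfl⟩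
    have e : g k * conj (g k') -
        ZMod.stdAddChar (circIdx m (g k)) * conj (ZMod.stdAddChar (circIdx m (g k'))) =
        (g k - ZMod.stdAddChar (circIdx m (g k))) * conj (g k') +
          ZMod.stdAddChar (circIdx m (g k)) *
            conj (g k' - ZMod.stdAddChar (circIdx m (g k'))) := by
      rw [map_sub]
      ring
    rw [e]
    refine (norm_add_le _ _).trans ?_
    rw [norm_mul, norm_mul, Complex.norm_conj, Complex.norm_conj, AddChar.norm_apply, one_mul,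
      hg k' (by omega), mul_one]
    have := norm_sub_circIdx_le m (hg k (by omega))
    have := norm_sub_circIdx_le m (hg k' (by omega))
    linarith [show 14 / (m : ℝ) = 7 / m + 7 / m by ring]
  · refine (abs_logMean_le _ _).trans ((logMean_mono fun n _ => ?_).trans
      (hco M hM g hg1 ?_))
    · refine le_of_eq_of_le (congrArg abs ?_) ((abs_re_le_norm (ω *
        corr M h fun j => g (n + j))).trans_eq (by rw [norm_mul, hω1, one_mul]))
      rw [corr, mul_sum, Complex.re_sum]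
      refine sum_congr rfl fun p _ => ?_
      rw [mul_sum, Complex.re_sum]
      exact sum_congr rfl fun j _ => by rw [add_assoc]
    · rintro K (rfl | rfl)
      exacts [h2 M hM g hg1 hnp, h4 M hM g hg1 hnp]

/-- **Tao's logarithmic two-point Elliott theorem**, uniformly in the function. -/
theorem exists_elliott_le (H : ℕ) {ε : ℝ} (hε : 0 < ε) : ∃ (δ : ℝ) (W : ℕ), 0 < δ ∧
    ∀ᶠ N : ℕ in atTop, ∀ g : ℕ →*₀ ℂ, (∀ n, n ≠ 0 → ‖g n‖ = 1) → NonPretentious g δ W N →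
      ∀ h : ℕ, 1 ≤ h → h ≤ H → ‖corrMean g N h‖ ≤ ε := by
  induction H with
  | zero => exact ⟨1, 0, one_pos, Eventually.of_forall fun N g _ _ h h1 h2 => absurd h2 (by omega)⟩
  | succ H ih =>
    obtain ⟨δ₁, W₁, hδ₁, h₁⟩ := ih
    obtain ⟨δ₂, W₂, hδ₂, h₂⟩ :=
      exists_corrMean_le (Nat.succ_pos H) (show 0 < ε / 4 by positivity)
    refine ⟨min δ₁ δ₂, max W₁ W₂, lt_min hδ₁ hδ₂, ?_⟩
    filter_upwards [h₁, h₂] with N e₁ e₂ g hg hnp h h1 hH
    rcases hH.lt_or_eq with hH | rfl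
    · exact e₁ g hg (hnp.mono (min_le_left _ _) (le_max_left _ _)) h h1 (by omega)
    · exact (e₂ g hg (hnp.mono (min_le_right _ _) (le_max_right _ _))).trans_eq (by ring)

end FA.ErdosDisc

end
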