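import Fermat.Agent.ErdosDiscrepancy.TwistedMean

/-!
# Pretentious functions have large windows

If a unimodular completely multiplicative `g` pretends at the scale `L` to be a character of
conductor `q` times `n ^ (it)`, `|t| ≤ exp (L ^ (6/7))`, then its windows of length
`1 + q + … + q ^ (k - 1)` have mean square at least a constant times `k`. The height `t` is
under control as soon as `g` pretends at the two scales `L` and `L ^ (4/5)`.
-/

set_option autoImplicit false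

noncomputable section

namespace FA.ErdosDisc

open Filter Topology Complex Finset DirichletCharacter

variable {q : ℕ}

/-- `1 + q + … + q ^ (k - 1)`. -/
def blockLen (q k : ℕ) : ℕ := ∑ j ∈ range k, q ^ j

/-- The weighted mean square of the windows of length `H`. -/
def windowSq (g : ℕ → ℂ) (L : ℝ) (H : ℕ) : ℝ :=
  ∑' n, wt L n * ‖∑ j ∈ Ioc n (n + H), g j‖ ^ 2

theorem ef_geom (ξ : ℝ) (H : ℕ) :
    (∑ j ∈ Icc 1 H, ef ξ j) * (ef ξ 1 - 1) = ef ξ 1 * (ef ξ H - 1) := by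
  induction H with
  | zero => simp [ef_zero]
  | succ H ih =>
    rw [sum_Icc_succ_top (Nat.le_add_left 1 H), add_mul, ih, ef_add]
    ring

theorem blockLen_sum_ge (hq : 3 ≤ q) {i k : ℕ} (hi : i < k) :
    (q : ℝ) ^ i / 2 ≤ ‖∑ j ∈ Icc 1 (blockLen q k), ef (1 / ((q ^ (i + 1) : ℕ) : ℝ)) j‖ := by
  obtain ⟨Q, hQ⟩ : ∃ Q, Q = q ^ (i + 1) := ⟨_, rfl⟩
  obtain ⟨m, hm⟩ : ∃ m, m = blockLen q (i + 1) := ⟨_, rfl⟩
  obtain ⟨M, hM⟩ : ∃ M, M = blockLen q (k - (i + 1)) := ⟨_, rfl⟩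
  have hH : blockLen q k = m + Q * M := by
    rw [hm, hM, hQ, blockLen, blockLen, blockLen, mul_sum]
    conv_lhs => rw [← Nat.add_sub_cancel' hi, sum_range_add]
    exact congrArg _ (sum_congr rfl fun j _ => pow_add q (i + 1) j)
  have hqi : q ^ i ≤ m := by
    rw [hm, blockLen]
    exact single_le_sum_of_canonicallyOrdered (mem_range.2 (Nat.lt_succ_self i))
  have h2m : 2 * m ≤ Q := by
    rw [hm, hQ]
    clear hH hqi hm hQ hM hi
    induction i with
    | zero => simp [blockLen]; omega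
    | succ i ih =>
      rw [blockLen, sum_range_succ, pow_succ q (i + 1)]
      rw [blockLen] at ih
      nlinarith [Nat.mul_le_mul_left (q ^ (i + 1)) hq]
  have hQR : (0 : ℝ) < Q := by
    rw [hQ]
    exact_mod_cast pow_pos (by omega : 0 < q) (i + 1)
  have hQq : (Q : ℝ) = (q : ℝ) ^ i * q := by rw [hQ]; push_cast; ring
  have hper : ef (1 / (Q : ℝ)) (blockLen q k) = ef (1 / (Q : ℝ)) m := by
    have h1 : ef (1 / (Q : ℝ)) (Q * M) = 1 := by
      rw [ef, show ((2 * Real.pi * (1 / (Q : ℝ)) * ((Q * M : ℕ) : ℝ) : ℝ)) =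
        2 * Real.pi * (M : ℝ) by push_cast; field_simp]
      rw [show (((2 * Real.pi * (M : ℝ) : ℝ)) : ℂ) * I = (M : ℕ) * (2 * Real.pi * I) by
        push_cast; ring, exp_nat_mul, exp_two_pi_mul_I, one_pow]
    rw [hH, ef_add, h1, mul_one]
  obtain ⟨θ, hθ⟩ : ∃ θ, θ = 2 * Real.pi * (1 / (Q : ℝ)) * m := ⟨_, rfl⟩
  have hθ0 : 0 ≤ θ := hθ ▸ by positivity
  have hθπ : θ ≤ Real.pi := by
    have : 2 * (m : ℝ) ≤ Q := by exact_mod_cast h2m
    rw [hθ, mul_one_div, div_mul_eq_mul_div, div_le_iff₀ hQR]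
    nlinarith [Real.pi_pos]
  have hnum : 4 / (q : ℝ) ≤ ‖ef (1 / (Q : ℝ)) (blockLen q k) - 1‖ := by
    rw [hper, ef, ← hθ, mul_comm (θ : ℂ) I, norm_exp_I_mul_ofReal_sub_one, Real.norm_eq_abs]
    refine le_trans ?_ (le_abs_self _)
    have hs := Real.mul_le_sin (show 0 ≤ θ / 2 by linarith) (by linarith)
    have hm1 : (q : ℝ) ^ i ≤ m := by exact_mod_cast hqi
    have e : 4 / (q : ℝ) = 2 * (2 / Real.pi * ((2 * Real.pi * (1 / (Q : ℝ)) * (q : ℝ) ^ i) / 2)) :=
      by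
        rw [hQq]
        have : (0 : ℝ) < q := by exact_mod_cast (by omega : 0 < q)
        field_simp
        ring
    rw [e]
    refine mul_le_mul_of_nonneg_left (le_trans ?_ hs) zero_le_two
    refine mul_le_mul_of_nonneg_left ?_ (by positivity)
    rw [hθ]
    gcongr
  have hden : ‖ef (1 / (Q : ℝ)) 1 - 1‖ ≤ 2 * Real.pi / Q := by
    rw [ef, mul_comm (_ : ℂ) I]
    refine Real.norm_exp_I_mul_ofReal_sub_one_le.trans (le_of_eq ?_)
    rw [Real.norm_eq_abs, abs_of_nonneg (by positivity)]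
    push_cast
    ring
  have h := congrArg norm (ef_geom (1 / (Q : ℝ)) (blockLen q k))
  rw [norm_mul, norm_mul, norm_ef, one_mul] at h
  rw [← hQ]
  by_contra hc
  rw [not_le] at hc
  have h3 : ‖∑ j ∈ Icc 1 (blockLen q k), ef (1 / (Q : ℝ)) j‖ * ‖ef (1 / (Q : ℝ)) 1 - 1‖ ≤
      (q : ℝ) ^ i / 2 * (2 * Real.pi / Q) :=
    mul_le_mul hc.le hden (norm_nonneg _) (by positivity)
  have h4 : (q : ℝ) ^ i / 2 * (2 * Real.pi / Q) = Real.pi / q := by
    rw [hQq]
    have : (0 : ℝ) < q := by exact_mod_cast (by omega : 0 < q)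
    field_simp
  have h5 : Real.pi / (q : ℝ) < 4 / q :=
    div_lt_div_of_pos_right Real.pi_lt_four (by exact_mod_cast (by omega : 0 < q))
  linarith

theorem ef_one_ne_one {η : ℝ} (h : η ≠ 0) (h1 : |η| < 1) : ef η 1 ≠ 1 := by
  intro he
  rw [ef, exp_eq_one_iff] at he
  obtain ⟨n, hn⟩ := he
  have hn' : η = n := by
    have h2 := congrArg Complex.im hn
    simp at h2
    nlinarith [Real.pi_pos]
  rw [hn', ← Int.cast_abs] at h1
  have : |n| < 1 := by exact_mod_cast h1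
  exact h (by rw [hn', Int.abs_lt_one_iff.1 this, Int.cast_zero])

/-- The endgame, for a set of frequencies with long geometric sums. -/
theorem eventually_windowSq_ge_of [NeZero q] {χ : DirichletCharacter ℂ q} (hχ : χ.IsPrimitive)
    {δ r : ℝ} (hδ : 0 < δ) (hr : 0 < r) (s : Finset ℕ) (hs : 2 ≤ q ∨ s.card ≤ 1) (H : ℕ)
    (hgeom : ∀ i ∈ s, r * (q : ℝ) ^ i ≤
      ‖∑ j ∈ Icc 1 H, ef (1 / ((q ^ (i + 1) : ℕ) : ℝ)) j‖) :
    ∀ᶠ L : ℝ in atTop, ∀ g : ℕ →*₀ ℂ, (∀ n, n ≠ 0 → ‖g n‖ = 1) → ∀ t : ℝ,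
      |t| ≤ Real.exp (L ^ (6 / 7 : ℝ)) → δ ≤ mass (twistHom g χ) L t →
        (s.card : ℝ) * (r * ‖tcoef χ‖ * δ / 4) ^ 2 / 4 ≤ windowSq g L H := by
  classical
  obtain ⟨c, hc⟩ : ∃ c, c = r * ‖tcoef χ‖ * δ / 4 := ⟨_, rfl⟩
  have hc0 : 0 < c := by
    have := norm_pos_iff.2 (tcoef_ne_zero hχ)
    rw [hc]
    positivity
  obtain ⟨ξ, hξ⟩ : ∃ ξ : ℕ → ℝ, ξ = fun i => 1 / ((q ^ (i + 1) : ℕ) : ℝ) := ⟨_, rfl⟩
  have hmean : ∀ᶠ L : ℝ in atTop, ∀ i ∈ s, ∀ g : ℕ →*₀ ℂ, (∀ n, n ≠ 0 → ‖g n‖ = 1) → ∀ t : ℝ,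
      δ ≤ mass (twistHom g χ) L t → ‖tcoef χ‖ * δ / 2 / (q : ℝ) ^ i ≤
          ‖∑' n, (wt L n : ℂ) * (g n * osc t n * ef (-(1 / ((q ^ (i + 1) : ℕ) : ℝ))) n)‖ :=
    (eventually_all_finset s).2 fun i _ => eventually_twistedMean_ge hχ hδ i
  have hgram : ∀ᶠ L : ℝ in atTop, ∀ i ∈ s, ∀ l ∈ s, i ≠ l →
      ‖∑' n, (wt L n : ℂ) * ef (ξ i - ξ l) n‖ ≤ 1 / (s.card + 1) := by
    refine (eventually_all_finset s).2 fun i hi => (eventually_all_finset s).2 fun l hl => ?_
    rcases eq_or_ne i l with rfl | hne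
    · exact Eventually.of_forall fun L h => absurd rfl h
    have hq2 : 2 ≤ q := hs.resolve_right fun h => hne (card_le_one.1 h i hi l hl)
    have hne0 : ξ i - ξ l ≠ 0 := by
      rw [sub_ne_zero, hξ]
      simp only [ne_eq, one_div, inv_inj, Nat.cast_inj]
      exact fun h => hne (by simpa using Nat.pow_right_injective hq2 h)
    have hlt : |ξ i - ξ l| < 1 := by
      have hb : ∀ j, 0 < ξ j ∧ ξ j < 1 := fun j => by
        rw [hξ]
        have : (1 : ℝ) < ((q ^ (j + 1) : ℕ) : ℝ) := by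
          exact_mod_cast Nat.one_lt_pow (Nat.succ_ne_zero j) (by omega)
        exact ⟨by positivity, (div_lt_one (by linarith)).2 this⟩
      rw [abs_lt]
      obtain ⟨⟨a, b⟩, c, d⟩ := hb i, hb l
      constructor <;> linarith
    have hE : 0 < ‖ef (ξ i - ξ l) 1 - 1‖ :=
      norm_pos_iff.2 (sub_ne_zero.2 (ef_one_ne_one hne0 hlt))
    have h0 : Tendsto (fun L : ℝ => 2 / L / ‖ef (ξ i - ξ l) 1 - 1‖) atTop (𝓝 0) := by
      simpa [div_eq_mul_inv] using ((tendsto_inv_atTop_zero (𝕜 := ℝ)).const_mul 2).div_const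
        ‖ef (ξ i - ξ l) 1 - 1‖
    filter_upwards [h0.eventually (ge_mem_nhds (show (0 : ℝ) < 1 / (s.card + 1) by positivity)),
      eventually_gt_atTop (0 : ℝ)] with L hL hL0 _
    refine le_trans ?_ hL
    rw [le_div_iff₀ hE]
    exact norm_ef_sum_le hL0 _
  have herr : ∀ᶠ L : ℝ in atTop, ∀ t : ℝ, |t| ≤ Real.exp (L ^ (6 / 7 : ℝ)) →
      (H : ℝ) * (2 * (1 + Real.log (⌈Real.exp (L ^ (9 / 10 : ℝ))⌉₊ : ℕ)) / L +
        (∑' n, wt L n) * (|t| * ((H : ℝ) / (⌈Real.exp (L ^ (9 / 10 : ℝ))⌉₊ : ℕ))) +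
          (H : ℝ) * (2 / L)) ≤ c := by
    have h0 : Tendsto (fun L : ℝ => (H : ℝ) * (6 * L⁻¹ + 2 * L ^ (-(1 / 10) : ℝ) +
        2 * (H : ℝ) * Real.exp (-(L ^ (6 / 7 : ℝ))) + (H : ℝ) * (2 * L⁻¹))) atTop (𝓝 0) := by
      have a1 := tendsto_inv_atTop_zero (𝕜 := ℝ)
      have a2 := tendsto_rpow_neg_atTop (show (0 : ℝ) < 1 / 10 by norm_num)
      have a3 : Tendsto (fun L : ℝ => Real.exp (-(L ^ (6 / 7 : ℝ)))) atTop (𝓝 0) :=
        Real.tendsto_exp_neg_atTop_nhds_zero.comp (tendsto_rpow_atTop (by norm_num))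
      simpa using ((((a1.const_mul 6).add (a2.const_mul 2)).add (a3.const_mul (2 * (H : ℝ)))).add
        ((a1.const_mul 2).const_mul (H : ℝ))).const_mul (H : ℝ)
    filter_upwards [h0.eventually (ge_mem_nhds hc0), eventually_tsum_wt_le,
      eventually_gt_atTop (1 : ℝ),
      (tendsto_rpow_atTop (show (0 : ℝ) < 3 / 70 by norm_num)).eventually_ge_atTop 2]
      with L hL hW hL1 hpow t ht
    refine le_trans (mul_le_mul_of_nonneg_left (add_le_add (add_le_add ?_ ?_) ?_)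
      (Nat.cast_nonneg H)) hL
    · have hx : 0 ≤ L ^ (9 / 10 : ℝ) := by positivity
      have h1 : Real.log (⌈Real.exp (L ^ (9 / 10 : ℝ))⌉₊ : ℕ) ≤ L ^ (9 / 10 : ℝ) + 1 := by
        refine (Real.log_le_log (Nat.cast_pos.2 (Nat.ceil_pos.2 (Real.exp_pos _)))
          (Nat.ceil_lt_add_one (Real.exp_pos _).le).le).trans ?_
        refine (Real.log_le_log (by positivity)
          (show Real.exp (L ^ (9 / 10 : ℝ)) + 1 ≤ 2 * Real.exp (L ^ (9 / 10 : ℝ)) by
            linarith [Real.one_le_exp hx])).trans ?_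
        rw [Real.log_mul two_ne_zero (Real.exp_pos _).ne', Real.log_exp]
        linarith [Real.log_two_lt_d9]
      have e : L ^ (-(1 / 10) : ℝ) = L ^ (9 / 10 : ℝ) / L := by
        rw [← Real.rpow_sub_one (by linarith)]
        norm_num
      rw [e, div_le_iff₀ (by linarith)]
      field_simp
      linarith
    · have hsum : (0 : ℝ) ≤ ∑' n, wt L n := tsum_nonneg fun n => wt_nonneg (by linarith) n
      rw [show (2 : ℝ) * H * Real.exp (-(L ^ (6 / 7 : ℝ))) =
        2 * ((H : ℝ) * Real.exp (-(L ^ (6 / 7 : ℝ)))) by ring]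
      refine mul_le_mul hW ?_ (by positivity) zero_le_two
      have h2 : |t| / (⌈Real.exp (L ^ (9 / 10 : ℝ))⌉₊ : ℕ) ≤ Real.exp (-(L ^ (6 / 7 : ℝ))) := by
        refine (div_le_div₀ (Real.exp_pos _).le ht (Real.exp_pos _) (Nat.le_ceil _)).trans ?_
        rw [← Real.exp_sub, Real.exp_le_exp]
        have e : L ^ (9 / 10 : ℝ) = L ^ (6 / 7 : ℝ) * L ^ (3 / 70 : ℝ) := by
          rw [← Real.rpow_add (by linarith)]
          norm_num
        nlinarith [Real.rpow_nonneg (show (0 : ℝ) ≤ L by linarith) (6 / 7 : ℝ)]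
      calc |t| * ((H : ℝ) / (⌈Real.exp (L ^ (9 / 10 : ℝ))⌉₊ : ℕ))
          = H * (|t| / (⌈Real.exp (L ^ (9 / 10 : ℝ))⌉₊ : ℕ)) := by ring
        _ ≤ _ := mul_le_mul_of_nonneg_left h2 (Nat.cast_nonneg H)
    · rw [div_eq_mul_inv]
  filter_upwards [hmean, hgram, herr, eventually_tsum_wt_le, eventually_gt_atTop (0 : ℝ)]
    with L hm hG he hW hL g hg t ht hδt
  have hg1 := norm_le_one_of_unimodular hg
  obtain ⟨X, hX⟩ : ∃ X : ℕ → ℂ, X = fun n => (∑ j ∈ Ioc n (n + H), g j) * osc t n := ⟨_, rfl⟩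
  have hXb : ∀ n, ‖X n‖ ≤ ‖∑ j ∈ Ioc n (n + H), g j‖ := fun n => by
    rw [hX, norm_mul]
    exact mul_le_of_le_one_right (norm_nonneg _) (norm_osc_le t n)
  have hXH : ∀ n, ‖X n‖ ≤ H := fun n => (hXb n).trans (norm_window_le hg1 n H)
  have hW4 : (∑' n, wt L n) + (Fintype.card s : ℝ) * (1 / (s.card + 1)) ≤ 4 := by
    rw [Fintype.card_coe, mul_one_div]
    have : (s.card : ℝ) / (s.card + 1) ≤ 1 := (div_le_one (by positivity)).2 (by linarith)
    linarith
  have hb := bessel hL (ι := s) (X := X) (e := fun i => ef (ξ i))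
    (a := fun i => ∑' n, (wt L n : ℂ) * (X n * starRingEnd ℂ (ef (ξ i) n))) hXH
    (fun i n => (norm_ef _ _).le) (fun i => rfl) (by positivity)
    (fun i l hil => by
      simp only [conj_ef, ef_mul_ef, ← sub_eq_add_neg]
      exact hG i i.2 l l.2 fun h => hil (Subtype.ext h)) hW4
  have ha : ∀ i : s, c ≤ ‖∑' n, (wt L n : ℂ) * (X n * starRingEnd ℂ (ef (ξ i) n))‖ := by
    intro i
    have h1 := norm_window_sub_le hL hg1 t (ξ i) H ⌈Real.exp (L ^ (9 / 10 : ℝ))⌉₊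
      (Nat.ceil_pos.2 (Real.exp_pos _))
    simp only [hX, conj_ef]
    have h2 := norm_sub_norm_le ((∑ j ∈ Icc 1 H, ef (ξ i) j) *
      ∑' n, (wt L n : ℂ) * (g n * osc t n * ef (-ξ i) n))
      (∑' n, (wt L n : ℂ) * ((∑ j ∈ Ioc n (n + H), g j) * osc t n * ef (-ξ i) n))
    rw [norm_sub_rev, norm_mul] at h2
    have h3 : 2 * c ≤ ‖∑ j ∈ Icc 1 H, ef (ξ i) j‖ *
        ‖∑' n, (wt L n : ℂ) * (g n * osc t n * ef (-ξ i) n)‖ := by
      have hA := hgeom i i.2
      have hB := hm i i.2 g hg t hδt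
      simp only [hξ]
      refine le_trans (le_of_eq ?_) (mul_le_mul hA hB (by positivity) (norm_nonneg _))
      have : (0 : ℝ) < (q : ℝ) ^ (i : ℕ) := pow_pos (Nat.cast_pos.2 (NeZero.pos q)) _
      rw [hc]
      field_simp
      ring
    linarith [h1.trans (he t ht)]
  refine le_trans ?_ (hb.trans (hasSum_le (L := SummationFilter.unconditional ℕ)
    (f := fun n => wt L n * ‖X n‖ ^ 2)
    (g := fun n => wt L n * ‖∑ j ∈ Ioc n (n + H), g j‖ ^ 2) (fun n => ?_) ?_ ?_))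
  · refine div_le_div_of_nonneg_right ?_ (by norm_num)
    rw [← hc, ← nsmul_eq_mul, ← Fintype.card_coe s, ← card_univ, ← sum_const]
    exact sum_le_sum fun i _ => pow_le_pow_left₀ hc0.le (ha i) 2
  · exact mul_le_mul_of_nonneg_left (pow_le_pow_left₀ (norm_nonneg _) (hXb n) 2)
      (wt_nonneg hL.le n)
  · exact (((summable_wt hL).mul_right ((H : ℝ) ^ 2)).of_nonneg_of_le
      (fun n => mul_nonneg (wt_nonneg hL.le n) (sq_nonneg _))
      fun n => mul_le_mul_of_nonneg_left (pow_le_pow_left₀ (norm_nonneg _) (hXH n) 2)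
        (wt_nonneg hL.le n)).hasSum
  · exact (((summable_wt hL).mul_right ((H : ℝ) ^ 2)).of_nonneg_of_le
      (fun n => mul_nonneg (wt_nonneg hL.le n) (sq_nonneg _))
      fun n => mul_le_mul_of_nonneg_left
        (pow_le_pow_left₀ (norm_nonneg _) (norm_window_le hg1 n H) 2)
        (wt_nonneg hL.le n)).hasSum

theorem not_isPrimitive_two (χ : DirichletCharacter ℂ 2) : ¬χ.IsPrimitive := by
  intro h
  have h1 : χ = 1 := MulChar.ext fun a => by
    rw [Subsingleton.elim a 1, Units.val_one, map_one, map_one]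
  rw [isPrimitive_def, h1, conductor_one] at h
  omega

/-- **Windows of pretentious functions are large.** -/
theorem exists_windowSq_ge (q : ℕ) [NeZero q] {δ : ℝ} (hδ : 0 < δ) : ∃ c, 0 < c ∧
    ∀ k : ℕ, ∀ᶠ L : ℝ in atTop, ∀ g : ℕ →*₀ ℂ, (∀ n, n ≠ 0 → ‖g n‖ = 1) →
      ∀ χ : DirichletCharacter ℂ q, χ.IsPrimitive → ∀ t : ℝ,
        |t| ≤ Real.exp (L ^ (6 / 7 : ℝ)) → δ ≤ mass (twistHom g χ) L t →
          c * k ≤ windowSq g L (blockLen q k) := by
  classical
  let _ : Fintype (DirichletCharacter ℂ q) := Fintype.ofFinite _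
  have h : ∀ χ : DirichletCharacter ℂ q, ∃ c, 0 < c ∧ (χ.IsPrimitive → ∀ k : ℕ,
      ∀ᶠ L : ℝ in atTop, ∀ g : ℕ →*₀ ℂ, (∀ n, n ≠ 0 → ‖g n‖ = 1) → ∀ t : ℝ,
        |t| ≤ Real.exp (L ^ (6 / 7 : ℝ)) → δ ≤ mass (twistHom g χ) L t →
          c * k ≤ windowSq g L (blockLen q k)) := by
    intro χ
    by_cases hχ : χ.IsPrimitive
    swap
    · exact ⟨1, one_pos, fun h => absurd h hχ⟩
    have hpos := norm_pos_iff.2 (tcoef_ne_zero hχ)
    refine ⟨(‖tcoef χ‖ * δ) ^ 2 / 256, by positivity, fun _ k => ?_⟩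
    rcases Nat.eq_zero_or_pos k with rfl | hk
    · refine (eventually_gt_atTop (0 : ℝ)).mono fun L hL g _ t _ _ => ?_
      simp only [Nat.cast_zero, mul_zero]
      exact tsum_nonneg fun n => mul_nonneg (wt_nonneg hL.le n) (sq_nonneg _)
    rcases (show q = 1 ∨ q = 2 ∨ 3 ≤ q by have := NeZero.pos q; omega) with rfl | rfl | hq
    · have hk0 : (0 : ℝ) < k := Nat.cast_pos.2 hk
      refine (eventually_windowSq_ge_of hχ hδ hk0 {0} (Or.inr le_rfl) (blockLen 1 k)
        fun i hi => ?_).mono fun L hL g hg t ht hm => le_trans ?_ (hL g hg t ht hm)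
      · rw [mem_singleton.1 hi]
        have e : ∀ j, ef 1 j = 1 := fun j => by
          rw [ef]
          simp only [mul_one]
          rw [show (((2 * Real.pi * j : ℝ)) : ℂ) * I = (j : ℕ) * (2 * Real.pi * I) by
            push_cast; ring, exp_nat_mul, exp_two_pi_mul_I, one_pow]
        simp [e, blockLen]
      · have hk1 : (1 : ℝ) ≤ k := by exact_mod_cast hk
        rw [card_singleton, Nat.cast_one, one_mul,
          show ((k : ℝ) * ‖tcoef χ‖ * δ / 4) ^ 2 / 4 =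
            (‖tcoef χ‖ * δ) ^ 2 / 64 * ((k : ℝ) * k) by ring]
        refine mul_le_mul ?_ (le_mul_of_one_le_left hk0.le hk1) hk0.le (by positivity)
        linarith [sq_nonneg (‖tcoef χ‖ * δ)]
    · exact absurd hχ (not_isPrimitive_two χ)
    · refine (eventually_windowSq_ge_of hχ hδ one_half_pos (range k) (Or.inl (by omega))
        (blockLen q k) fun i hi => ?_).mono fun L hL g hg t ht hm =>
          le_trans (le_of_eq ?_) (hL g hg t ht hm)
      · rw [one_div_mul_eq_div]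
        exact blockLen_sum_ge hq (mem_range.1 hi)
      · rw [card_range]
        ring
  choose c hc hc' using h
  obtain ⟨χ₀, -, hmin⟩ := exists_min_image univ c (univ_nonempty (α := DirichletCharacter ℂ q))
  refine ⟨c χ₀, hc χ₀, fun k => ?_⟩
  have h2 : ∀ᶠ L : ℝ in atTop, ∀ χ : DirichletCharacter ℂ q, χ.IsPrimitive →
      ∀ g : ℕ →*₀ ℂ, (∀ n, n ≠ 0 → ‖g n‖ = 1) → ∀ t : ℝ, |t| ≤ Real.exp (L ^ (6 / 7 : ℝ)) →
        δ ≤ mass (twistHom g χ) L t → c χ * k ≤ windowSq g L (blockLen q k) := by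
    refine eventually_all.2 fun χ => ?_
    by_cases hχ : χ.IsPrimitive
    · exact (hc' χ hχ k).mono fun L hL _ => hL
    · exact Eventually.of_forall fun L h => absurd h hχ
  exact h2.mono fun L hL g hg χ hχ t ht hm => le_trans
    (mul_le_mul_of_nonneg_right (hmin χ (mem_univ χ)) (Nat.cast_nonneg k)) (hL χ hχ g hg t ht hm)

/-- **The height is under control.** Pretentiousness at `L` and at `L ^ (4/5)` forces
`|t| ≤ exp (L ^ (6/7))`. -/
theorem eventually_height_le (q q' : ℕ) [NeZero q] [NeZero q'] {δ : ℝ} (hδ : 0 < δ) (K : ℝ) :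
    ∀ᶠ L : ℝ in atTop, ∀ g : ℕ →*₀ ℂ, (∀ n, n ≠ 0 → ‖g n‖ = 1) →
      ∀ (χ : DirichletCharacter ℂ q) (χ' : DirichletCharacter ℂ q') (t t' : ℝ),
        |t| ≤ Real.exp (K * L) → |t'| ≤ Real.exp (K * L ^ (4 / 5 : ℝ)) →
          δ ≤ mass (twistHom g χ) L t → δ ≤ mass (twistHom g χ') (L ^ (4 / 5 : ℝ)) t' →
            |t| ≤ Real.exp (L ^ (6 / 7 : ℝ)) := by
  have : NeZero (q * q') := ⟨mul_ne_zero (NeZero.ne q) (NeZero.ne q')⟩
  have hp : Tendsto (fun L : ℝ => L ^ (4 / 5 : ℝ)) atTop atTop :=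
    tendsto_rpow_atTop (by norm_num)
  obtain ⟨ε, hε⟩ : ∃ ε, ε = δ ^ 4 / (2 * massConst ^ 9) := ⟨_, rfl⟩
  have hM := massConst_pos
  have hε0 : 0 < ε := hε ▸ by positivity
  filter_upwards [hp.eventually (eventually_mass_char_le (q * q') hε0),
    hp.eventually eventually_mass_mul_conj, hp.eventually eventually_mass_mono,
    eventually_ge_atTop (1 : ℝ),
    (tendsto_rpow_atTop (show (0 : ℝ) < 1 / 15 by norm_num)).eventually_ge_atTop (|K| + 1),
    (tendsto_rpow_atTop (show (0 : ℝ) < 2 / 35 by norm_num)).eventually_ge_atTop (|K| + 17),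
    hp.eventually_ge_atTop 1]
    with L hsmall htri hmono hL hb1 hb2 hL' g hg χ χ' t t' ht ht' hm hm'
  obtain ⟨L', hL'e⟩ : ∃ L', L' = L ^ (4 / 5 : ℝ) := ⟨_, rfl⟩
  rw [← hL'e] at hsmall htri hmono hL' ht' hm'
  have hLL : L' ≤ L := hL'e ▸ (Real.rpow_le_rpow_of_exponent_le hL (by norm_num :
    (4 / 5 : ℝ) ≤ 1)).trans_eq (Real.rpow_one L)
  have hg1 := norm_le_one_of_unimodular hg
  by_contra hc
  rw [not_le] at hc
  obtain ⟨Ψ, hΨ⟩ : ∃ Ψ : DirichletCharacter ℂ (q * q'),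
      Ψ = changeLevel (dvd_mul_right q q') χ * changeLevel (dvd_mul_left q' q) χ'⁻¹ := ⟨_, rfl⟩
  have heq : mass (twistHom g χ * conjHom (twistHom g χ')) L' (t - t') =
      mass (charHom Ψ) L' (t - t') := by
    refine mass_congr (fun n hn => ?_) L' _
    rw [mul_hom_apply, conjHom_apply, twistHom_apply g χ hn, twistHom_apply g χ' hn,
      charHom_apply Ψ hn, map_mul, hΨ, MulChar.mul_apply, changeLevel_eval, changeLevel_eval,
      show starRingEnd ℂ (χ' (n : ZMod q')) = χ'⁻¹ (n : ZMod q') from MulChar.star_apply' χ' _]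
    have h1 : g n * starRingEnd ℂ (g n) = 1 := by
      rw [mul_conj', hg n hn]
      simp
    split_ifs with hcop
    · linear_combination (χ (n : ZMod q) * χ'⁻¹ (n : ZMod q')) * h1
    · rw [mul_zero]
      rw [Nat.coprime_mul_iff_right, not_and_or] at hcop
      rcases hcop with hcop | hcop
      · rw [MulChar.map_nonunit χ fun hu => hcop ((ZMod.isUnit_iff_coprime n q).1 hu)]
        ring
      · rw [MulChar.map_nonunit χ'⁻¹ fun hu => hcop ((ZMod.isUnit_iff_coprime n q').1 hu)]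
        ring
  have htb : |t'| + 16 ≤ |t| := by
    refine le_trans ?_ hc.le
    have e : L ^ (6 / 7 : ℝ) = L' * L ^ (2 / 35 : ℝ) := by
      rw [hL'e, ← Real.rpow_add (by linarith)]
      norm_num
    have h1 : K * L' + 16 ≤ L ^ (6 / 7 : ℝ) := by
      rw [e]
      nlinarith [mul_le_mul_of_nonneg_left hb2 (show 0 ≤ L' by linarith), le_abs_self K]
    have h2 : Real.exp (K * L') + 16 ≤ Real.exp (K * L' + 16) ∨
        Real.exp (K * L') + 16 ≤ Real.exp (L ^ (6 / 7 : ℝ)) := by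
      rcases le_total 1 (Real.exp (K * L')) with h | h
      · left
        rw [Real.exp_add]
        nlinarith [Real.add_one_le_exp (16 : ℝ)]
      · right
        have h3 : (17 : ℝ) ≤ L ^ (6 / 7 : ℝ) := by
          rw [e]
          nlinarith [abs_nonneg K]
        linarith [Real.add_one_le_exp (L ^ (6 / 7 : ℝ))]
    rcases h2 with h2 | h2
    · linarith [Real.exp_le_exp.2 h1]
    · linarith
  have hu16 : 16 ≤ |t - t'| := by
    have := abs_sub_abs_le_abs_sub t t'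
    linarith
  have huL : |t - t'| ≤ Real.exp (L' ^ (4 / 3 : ℝ)) := by
    have e : L' ^ (4 / 3 : ℝ) = L * L ^ (1 / 15 : ℝ) := by
      rw [hL'e, ← Real.rpow_mul (by linarith)]
      nth_rewrite 2 [← Real.rpow_one L]
      rw [← Real.rpow_add (by linarith)]
      norm_num
    refine (abs_sub t t').trans (le_trans (add_le_add ht ht') ?_)
    have h1 : K * L ≤ |K| * L := mul_le_mul_of_nonneg_right (le_abs_self K) (by linarith)
    have h2 : K * L' ≤ |K| * L := mul_le_mul (le_abs_self K) hLL (by linarith) (abs_nonneg K)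
    calc Real.exp (K * L) + Real.exp (K * L') ≤ 2 * Real.exp (|K| * L) := by
          linarith [Real.exp_le_exp.2 h1, Real.exp_le_exp.2 h2]
      _ ≤ Real.exp 1 * Real.exp (|K| * L) :=
          mul_le_mul_of_nonneg_right (by linarith [Real.add_one_le_exp (1 : ℝ)])
            (Real.exp_pos _).le
      _ = Real.exp (1 + |K| * L) := (Real.exp_add _ _).symm
      _ ≤ _ := Real.exp_le_exp.2 (by
          rw [e]
          nlinarith [mul_le_mul_of_nonneg_left hb1 (show (0 : ℝ) ≤ L by linarith)])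
  have h1 : δ ≤ massConst ^ 2 * mass (twistHom g χ) L' t :=
    hm.trans (hmono L hLL _ (norm_twistHom_le hg1 χ) t)
  have h2 := htri (twistHom g χ) (twistHom g χ') (norm_twistHom_le hg1 χ)
    (norm_twistHom_le hg1 χ') t t'
  rw [heq] at h2
  have h3 := hsmall Ψ (t - t') huL (Or.inr hu16)
  have h4 : δ ^ 2 * δ ^ 2 ≤ massConst ^ 4 * (massConst ^ 5 * ε) := by
    calc δ ^ 2 * δ ^ 2
        ≤ (massConst ^ 2 * mass (twistHom g χ) L' t) ^ 2 * mass (twistHom g χ') L' t' ^ 2 :=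
          mul_le_mul (pow_le_pow_left₀ hδ.le h1 2) (pow_le_pow_left₀ hδ.le hm' 2) (by positivity)
            (by positivity)
      _ = massConst ^ 4 * (mass (twistHom g χ) L' t ^ 2 * mass (twistHom g χ') L' t' ^ 2) := by
          ring
      _ ≤ _ := mul_le_mul_of_nonneg_left (h2.trans (mul_le_mul_of_nonneg_left h3 (by positivity)))
          (by positivity)
  have h5 : massConst ^ 4 * (massConst ^ 5 * ε) = δ ^ 4 / 2 := by
    rw [hε]
    field_simp
  nlinarith [pow_pos hδ 4]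

/-- Passing to the primitive character costs a constant. -/
theorem eventually_mass_primitive (q : ℕ) [NeZero q] : ∀ᶠ L : ℝ in atTop, ∀ g : ℕ →*₀ ℂ,
    (∀ n, ‖g n‖ ≤ 1) → ∀ (χ : DirichletCharacter ℂ q) (t : ℝ),
      mass (twistHom g χ) L t ≤
        massConst ^ 2 * Real.exp (2 * q) * mass (twistHom g χ.primitiveCharacter) L t := by
  filter_upwards [eventually_mass_gap, eventually_gt_atTop (0 : ℝ)] with L h hL g hg χ t
  obtain ⟨h1, -⟩ := h _ (norm_twistHom_le hg χ.primitiveCharacter) t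
  obtain ⟨-, h2⟩ := h _ (norm_twistHom_le hg χ) t
  have h3 : gap (twistHom g χ.primitiveCharacter) L t ≤ gap (twistHom g χ) L t + 2 * q := by
    refine gap_le_add (norm_twistHom_le hg _) (norm_twistHom_le hg _) (NeZero.ne q)
      (fun p hp hpq => ?_) hL t
    rw [twistHom_apply g _ hp.ne_zero, twistHom_apply g _ hp.ne_zero]
    congr 1
    conv_rhs => rw [← changeLevel_primitiveCharacter χ]
    rw [changeLevel_eval, if_pos (hp.coprime_iff_not_dvd.2 hpq)]
  have h4 : Real.exp (-gap (twistHom g χ) L t) ≤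
      Real.exp (2 * q) * Real.exp (-gap (twistHom g χ.primitiveCharacter) L t) := by
    rw [← Real.exp_add, Real.exp_le_exp]
    linarith
  refine h2.trans ((mul_le_mul_of_nonneg_left (h4.trans
    (mul_le_mul_of_nonneg_left h1 (Real.exp_pos _).le)) massConst_pos.le).trans_eq ?_)
  ring

/-- **A pretentious unimodular completely multiplicative function has unbounded partial sums.** -/
theorem unbounded_partialSums_of_pretentious {q : ℕ} [NeZero q] {g : ℕ →*₀ ℂ}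
    (hg : ∀ n, n ≠ 0 → ‖g n‖ = 1) (χ : DirichletCharacter ℂ q) (t : ℝ)
    (hS : Summable fun p : Nat.Primes =>
      (1 - (g p * χ (p : ℕ) * ((p : ℕ) : ℂ) ^ (-(t : ℂ) * I)).re) / (p : ℕ)) (B : ℝ) :
    ∃ N : ℕ, B < ‖∑ n ∈ Icc 1 N, g n‖ := by
  by_contra! hB
  have hg1 := norm_le_one_of_unimodular hg
  have : NeZero χ.conductor := ⟨conductor_ne_zero χ⟩
  obtain ⟨S, hSdef⟩ : ∃ S, S = ∑' p : Nat.Primes,
      (1 - (g p * χ (p : ℕ) * ((p : ℕ) : ℂ) ^ (-(t : ℂ) * I)).re) / (p : ℕ) := ⟨_, rfl⟩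
  have hgap : ∀ L : ℝ, 0 < L → gap (twistHom g χ) L t ≤ S := by
    intro L hL
    refine hasSum_le (fun p => ?_) (hasSum_gap (norm_twistHom_le hg1 χ) hL t) (hSdef ▸ hS.hasSum)
    refine le_of_le_of_eq (le_of_le_of_eq ?_ (dev_eq (twistHom g χ) p 1 t).symm) ?_
    · rw [dev_eq]
      exact mul_le_mul_of_nonneg_right (Real.rpow_le_rpow_of_exponent_le
        (by exact_mod_cast p.2.one_le) (by linarith [one_lt_scale hL]))
        (sub_nonneg.2 ((re_le_norm _).trans (norm_mul_cpow_le (norm_twistHom_le hg1 χ) p t)))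
    · rw [Halasz.dev_one, twistHom_apply g χ p.2.ne_zero]
  obtain ⟨δ, hδ⟩ : ∃ δ, δ = Real.exp (-S) / (massConst ^ 3 * Real.exp (2 * q)) := ⟨_, rfl⟩
  have hM := massConst_pos
  have hδ0 : 0 < δ := hδ ▸ by positivity
  obtain ⟨c, hc, hwin⟩ := exists_windowSq_ge χ.conductor hδ0
  obtain ⟨k, hk⟩ := exists_nat_gt (8 * B ^ 2 / c)
  obtain ⟨L, hL1, hL2, hL3, hL4, hL5, hL0⟩ := ((hwin k).and (eventually_mass_gap.and
    ((eventually_mass_primitive q).and (eventually_tsum_wt_le.and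
      (((Real.tendsto_exp_atTop.comp (tendsto_rpow_atTop (show (0 : ℝ) < 6 / 7 by norm_num))
        ).eventually_ge_atTop |t|).and (eventually_gt_atTop (0 : ℝ))))))).exists
  have hm : δ ≤ mass (twistHom g χ.primitiveCharacter) L t := by
    have h1 := (hL2 _ (norm_twistHom_le hg1 χ) t).1
    have h2 := hL3 g hg1 χ t
    rw [hδ, div_le_iff₀ (by positivity)]
    refine (Real.exp_le_exp.2 (neg_le_neg (hgap L hL0))).trans (h1.trans
      ((mul_le_mul_of_nonneg_left h2 hM.le).trans_eq ?_))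
    ring
  have hV := hL1 g hg χ.primitiveCharacter χ.primitiveCharacter_isPrimitive t hL5 hm
  have hU : windowSq g L (blockLen χ.conductor k) ≤ 2 * (2 * B) ^ 2 := by
    refine le_trans (hasSum_le (f := fun n =>
      wt L n * ‖∑ j ∈ Ioc n (n + blockLen χ.conductor k), g j‖ ^ 2) (fun n => ?_) ?_
        ((summable_wt hL0).hasSum.mul_right ((2 * B) ^ 2)))
      (mul_le_mul_of_nonneg_right hL4 (sq_nonneg _))
    · refine mul_le_mul_of_nonneg_left (pow_le_pow_left₀ (norm_nonneg _) ?_ 2)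
        (wt_nonneg hL0.le n)
      obtain ⟨H, hH⟩ : ∃ H, H = blockLen χ.conductor k := ⟨_, rfl⟩
      have e : ∑ j ∈ Ioc n (n + blockLen χ.conductor k), g j =
          ∑ j ∈ Icc 1 (n + blockLen χ.conductor k), g j - ∑ j ∈ Icc 1 n, g j := by
        rw [← hH, eq_sub_iff_add_eq, add_comm, ← zero_add 1, Icc_add_one_left_eq_Ioc,
          Icc_add_one_left_eq_Ioc, sum_Ioc_consecutive _ (Nat.zero_le n) (Nat.le_add_right n H)]
      rw [e, two_mul]
      exact (norm_sub_le _ _).trans (add_le_add (hB _) (hB _))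
    · exact (((summable_wt hL0).mul_right ((blockLen χ.conductor k : ℝ) ^ 2)).of_nonneg_of_le
        (fun n => mul_nonneg (wt_nonneg hL0.le n) (sq_nonneg _))
        fun n => mul_le_mul_of_nonneg_left
          (pow_le_pow_left₀ (norm_nonneg _) (norm_window_le hg1 n _) 2)
          (wt_nonneg hL0.le n)).hasSum
  rw [div_lt_iff₀ hc] at hk
  linarith

end FA.ErdosDisc
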