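import Fermat.Agent.ErdosDiscrepancy.Mass
import Fermat.Agent.Korobov.CharacterRegion

/-!
# `L (s, ψ)` to the right of `1` at large height

Landau's lemma on the discs of the region of Vinogradov and Korobov bounds `- re L'/L` by a
multiple of `gauge u`, hence `L (σ + iu, ψ) = O (gauge u)` down to `σ = 1 + 1 / ell u ^ 2`. So
`mass ψ L u` is small for `|u| ≤ exp (L ^ (4/3))`, away from the pole.
-/

set_option autoImplicit false

noncomputable section

namespace FA.ErdosDisc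

open Complex Filter Topology FA.ZeroFree DirichletCharacter
open scoped ArithmeticFunction.vonMangoldt

variable {q : ℕ} [NeZero q]

/-- **`L (σ + iu, ψ) = O (gauge u)`** for `σ ≥ 1 + 1 / ell u ^ 2`. -/
theorem exists_lfunction_gauge_le (ψ : DirichletCharacter ℂ q) : ∃ C, 0 ≤ C ∧ ∀ u σ : ℝ,
    16 ≤ |u| → 1 / ell u ^ 2 ≤ σ - 1 → σ ≤ 2 →
      ‖LFunction ψ ((σ : ℂ) + u * I)‖ ≤ C * Korobov.gauge u := by
  obtain ⟨D, hD, hbound⟩ := Korobov.exists_lfunction_bound q
  obtain ⟨K, m, hK, hc⟩ := Korobov.exists_circle_bound_of hD (hbound ψ)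
  obtain ⟨E, hE⟩ : ∃ E, E = Real.log (4 * K) + m + 2 := ⟨_, rfl⟩
  have hK4 : 0 ≤ Real.log (4 * K) := Real.log_nonneg (by linarith)
  have hE2 : 2 ≤ E := by linarith [(Nat.cast_nonneg m : (0 : ℝ) ≤ m)]
  refine ⟨8 * Real.exp (6 * E), by positivity, fun u σ hu hσ hσ2 => ?_⟩
  obtain ⟨hg2, hgL, hlg⟩ := Korobov.gauge_bounds u
  obtain ⟨hr0, hr12, hrg, -⟩ := Korobov.radius_facts u
  have hl1 := Korobov.one_le_log_ell u
  have hL4 := four_le_ell u
  obtain ⟨g, hg⟩ : ∃ g, g = Korobov.gauge u := ⟨_, rfl⟩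
  rw [← hg] at hg2 hgL hlg hrg ⊢
  have hσ1 : 1 < σ := by linarith [show 0 < 1 / ell u ^ 2 by positivity]
  have hexp : 1 ≤ Real.exp (6 * E) := Real.one_le_exp (by linarith)
  rcases le_total (1 / (2 * g)) (σ - 1) with hcase | hcase
  · refine (SiegelWalfisz.norm_LFunction_le_div ψ (w := (σ : ℂ) + u * I) (by simpa using hσ1)
      (by simpa using hσ2)).trans ?_
    rw [show ((σ : ℂ) + u * I).re = σ by simp, div_le_iff₀ (by linarith)]
    rw [div_le_iff₀ (by positivity)] at hcase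
    nlinarith
  obtain ⟨σ₀, hσ₀⟩ : ∃ σ₀, σ₀ = 1 + 1 / (2 * g) := ⟨_, rfl⟩
  have hσσ₀ : σ ≤ σ₀ := by linarith
  have hg1 : 1 / (2 * g) ≤ 1 / 4 := one_div_le_one_div_of_le (by norm_num) (by linarith)
  have hderiv : ∀ x ∈ Set.Icc σ σ₀, LFunction ψ ((x : ℂ) + u * I) ≠ 0 ∧
      -(12 * E * g) ≤ (deriv (LFunction ψ) ((x : ℂ) + u * I) /
        LFunction ψ ((x : ℂ) + u * I)).re := by
    intro x hx
    obtain ⟨δ, hδ⟩ : ∃ δ, δ = x - 1 := ⟨_, rfl⟩
    have hδ0 : 0 < δ := by linarith [hx.1]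
    have hx1 : x = 1 + δ := by linarith
    have hδr : δ ≤ Korobov.radius u := by
      refine le_trans (show δ ≤ 1 / (2 * g) by linarith [hx.2]) ?_
      rw [div_le_iff₀ (by positivity)]
      linarith
    have hne : LFunction ψ ((x : ℂ) + u * I) ≠ 0 :=
      LFunction_ne_zero_of_one_le_re ψ (Or.inr fun h => by
        have h1 := congrArg Complex.im h
        simp at h1
        rw [h1, abs_zero] at hu
        linarith) (by simp; linarith)
    refine ⟨hne, ?_⟩
    obtain ⟨B, hB⟩ : ∃ B, B = 4 * K * ell u ^ m / δ := ⟨_, rfl⟩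
    have hB0 : 0 < B := by
      rw [hB]
      positivity
    have h := (Korobov.landau_char_disc ψ hδ0 hδr hr12 (t := u) (by linarith) hB0.le
      fun z hz => (hc u u z δ (by linarith) (Or.inl rfl) hδ0.le (by linarith) hz).trans
        (le_of_eq (by rw [hB]; field_simp))).1
    rw [← hx1, SiegelWalfisz.twist_eq ψ (by simp; linarith), neg_div, neg_re] at h
    have hlogB : Real.log B ≤ E * Real.log (ell u) := by
      have h2 : B ≤ 4 * K * ell u ^ (m + 2) := by
        rw [hB, div_le_iff₀ hδ0, pow_add, ← mul_assoc (4 * K), mul_assoc _ (ell u ^ 2) δ]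
        refine le_mul_of_one_le_right (by positivity) ?_
        have h3 : 1 / ell u ^ 2 ≤ δ := by linarith [hx.1]
        rw [div_le_iff₀ (by positivity)] at h3
        linarith
      refine (Real.log_le_log hB0 h2).trans ?_
      rw [Real.log_mul (by positivity) (by positivity), Real.log_pow, hE, Nat.cast_add,
        Nat.cast_ofNat]
      nlinarith
    have h4 : 6 * Real.log B / Korobov.radius u ≤ 12 * E * g := by
      rw [div_le_iff₀ hr0]
      nlinarith
    linarith
  obtain ⟨G, hG⟩ : ∃ G : ℝ → ℝ, G = fun x : ℝ =>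
      ‖LFunction ψ ((x : ℂ) + u * I)‖ ^ 2 * Real.exp (24 * E * g * x) := ⟨_, rfl⟩
  obtain ⟨G', hG'⟩ : ∃ G' : ℝ → ℝ, G' = fun x : ℝ =>
      2 * inner ℝ (LFunction ψ ((x : ℂ) + u * I)) (deriv (LFunction ψ) ((x : ℂ) + u * I)) *
          Real.exp (24 * E * g * x) +
        ‖LFunction ψ ((x : ℂ) + u * I)‖ ^ 2 *
          (Real.exp (24 * E * g * x) * (24 * E * g)) := ⟨_, rfl⟩
  have hhd : ∀ x ∈ Set.Icc σ σ₀, HasDerivAt G (G' x) x := by
    intro x _
    have hne1 : (x : ℂ) + u * I ≠ 1 := fun h => by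
      have h1 := congrArg Complex.im h
      simp at h1
      rw [h1, abs_zero] at hu
      linarith
    have h1 : HasDerivAt (fun z : ℂ => LFunction ψ (z + u * I))
        (deriv (LFunction ψ) ((x : ℂ) + u * I)) (x : ℂ) :=
      (differentiableAt_LFunction ψ _ (Or.inl hne1)).hasDerivAt.comp_add_const _ _
    rw [hG, hG']
    exact h1.comp_ofReal.norm_sq.mul (((hasDerivAt_id x).const_mul (24 * E * g)).exp.congr_deriv
      (by simp))
  have hmono : MonotoneOn G (Set.Icc σ σ₀) := by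
    refine monotoneOn_of_hasDerivWithinAt_nonneg (convex_Icc _ _)
      (fun x hx => (hhd x hx).continuousAt.continuousWithinAt) (f' := G')
      (fun x hx => (hhd x (interior_subset hx)).hasDerivWithinAt) fun x hx => ?_
    obtain ⟨hne, hd⟩ := hderiv x (interior_subset hx)
    obtain ⟨w, hw⟩ : ∃ w, w = LFunction ψ ((x : ℂ) + u * I) := ⟨_, rfl⟩
    obtain ⟨v, hv⟩ : ∃ v, v = deriv (LFunction ψ) ((x : ℂ) + u * I) := ⟨_, rfl⟩
    rw [hG']
    simp only
    rw [← hw, ← hv] at hd ⊢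
    have e : inner ℝ w v = ‖w‖ ^ 2 * (v / w).re := by
      have hw0 : w ≠ 0 := hw ▸ hne
      have e2 : v * starRingEnd ℂ w = (((‖w‖ ^ 2 : ℝ)) : ℂ) * (v / w) := by
        push_cast
        rw [← conj_mul' w]
        field_simp
      rw [Complex.inner, e2, re_ofReal_mul]
    rw [e]
    have h5 : 0 ≤ ‖w‖ ^ 2 * Real.exp (24 * E * g * x) := by positivity
    nlinarith [mul_nonneg h5 (show 0 ≤ (v / w).re + 12 * E * g by linarith)]
  have h1 : ‖LFunction ψ ((σ₀ : ℂ) + u * I)‖ ≤ 8 * g := by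
    refine (SiegelWalfisz.norm_LFunction_le_div ψ (w := (σ₀ : ℂ) + u * I) (by simp; linarith)
      (by simp; linarith)).trans (le_of_eq ?_)
    rw [show ((σ₀ : ℂ) + u * I).re = σ₀ by simp, hσ₀, add_sub_cancel_left, div_div_eq_mul_div]
    ring
  have h2 := hmono (Set.left_mem_Icc.2 hσσ₀) (Set.right_mem_Icc.2 hσσ₀) hσσ₀
  rw [hG] at h2
  simp only at h2
  have h3 : Real.exp (24 * E * g * σ₀) ≤ Real.exp (24 * E * g * σ) * Real.exp (6 * E) ^ 2 := by
    rw [← Real.exp_nat_mul, ← Real.exp_add, Real.exp_le_exp]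
    have h4 : 24 * E * g * (1 / (2 * g)) = 12 * E := by
      have : g ≠ 0 := by linarith
      field_simp
      ring
    have h5 := mul_le_mul_of_nonneg_left hσ1.le (show 0 ≤ 24 * E * g by positivity)
    rw [hσ₀, mul_add]
    push_cast
    linarith
  refine le_of_pow_le_pow_left₀ two_ne_zero (by positivity) ?_
  refine le_of_mul_le_mul_right (h2.trans ?_) (Real.exp_pos (24 * E * g * σ))
  calc ‖LFunction ψ ((σ₀ : ℂ) + u * I)‖ ^ 2 * Real.exp (24 * E * g * σ₀)
      ≤ (8 * g) ^ 2 * (Real.exp (24 * E * g * σ) * Real.exp (6 * E) ^ 2) :=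
        mul_le_mul (pow_le_pow_left₀ (norm_nonneg _) h1 2) h3 (Real.exp_pos _).le (by positivity)
    _ = _ := by ring

theorem mass_charHom (ψ : DirichletCharacter ℂ q) {L : ℝ} (hL : 0 < L) (u : ℝ) :
    mass (charHom ψ) L u = ‖LFunction ψ (((1 + 1 / L : ℝ) : ℂ) + u * I)‖ / L := by
  rw [mass, LFunction_eq_LSeries ψ (by simpa using one_lt_scale hL)]
  exact congrArg (fun z => ‖z‖ / L) (LSeries_congr (fun {n} hn => charHom_apply ψ hn) _)

theorem gauge_le_rpow (u : ℝ) : Korobov.gauge u ≤ 2 * ell u ^ (17 / 24 : ℝ) := by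
  have hl := Korobov.one_le_log_ell u
  have h0 := ell_pos u
  have h1 : Real.log (ell u) ≤ 8 * ell u ^ (1 / 8 : ℝ) := by
    refine (Real.log_le_rpow_div h0.le (show (0 : ℝ) < 1 / 8 by norm_num)).trans (le_of_eq ?_)
    ring
  calc Korobov.gauge u ≤ ell u ^ (2 / 3 : ℝ) * (8 * ell u ^ (1 / 8 : ℝ)) ^ (1 / 3 : ℝ) :=
        mul_le_mul_of_nonneg_left (Real.rpow_le_rpow (by linarith) h1 (by norm_num))
          (Real.rpow_nonneg h0.le _)
    _ = _ := by
        rw [Real.mul_rpow (by norm_num) (Real.rpow_nonneg h0.le _), ← Real.rpow_mul h0.le,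
          show (8 : ℝ) = 2 ^ (3 : ℕ) by norm_num, ← Real.rpow_natCast, ← Real.rpow_mul two_pos.le,
          mul_comm, mul_assoc, ← Real.rpow_add h0]
        norm_num

theorem eventually_mass_char_le_one (ψ : DirichletCharacter ℂ q) {ε : ℝ} (hε : 0 < ε) :
    ∀ᶠ L : ℝ in atTop, ∀ u : ℝ, |u| ≤ Real.exp (L ^ (4 / 3 : ℝ)) → (ψ ≠ 1 ∨ 16 ≤ |u|) →
      mass (charHom ψ) L u ≤ ε := by
  obtain ⟨C, hC, hb⟩ := exists_lfunction_gauge_le ψ
  obtain ⟨L₀, hL₀⟩ := eventually_atTop.1 eventually_mass_mono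
  obtain ⟨A, hA⟩ : ∃ A, A = max (max 5 L₀) (massConst ^ 2 * C / ε) := ⟨_, rfl⟩
  have hA5 : (5 : ℝ) ≤ A := hA ▸ (le_max_left _ _).trans (le_max_left _ _)
  have hAL : L₀ ≤ A := hA ▸ (le_max_right _ _).trans (le_max_left _ _)
  have hAC : massConst ^ 2 * C / ε ≤ A := hA ▸ le_max_right _ _
  obtain ⟨B, hB⟩ : ∃ B, ∀ σ u : ℝ, 1 ≤ σ → σ ≤ 2 → |u| ≤ Real.exp A → (ψ ≠ 1 ∨ 16 ≤ |u|) →
      ‖LFunction ψ ((σ : ℂ) + u * I)‖ ≤ B := by
    rcases ne_or_eq ψ 1 with hψ | hψ
    · obtain ⟨B, hB⟩ := (IsCompact.reProdIm (isCompact_Icc (a := (1 : ℝ)) (b := 2))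
        (isCompact_Icc (a := -Real.exp A) (b := Real.exp A))).exists_bound_of_continuousOn
        (differentiable_LFunction hψ).continuous.continuousOn
      exact ⟨B, fun σ u h1 h2 h3 _ =>
        hB _ (Complex.mem_reProdIm.2 ⟨by simpa using ⟨h1, h2⟩, by simpa using abs_le.1 h3⟩)⟩
    · obtain ⟨B, hB⟩ := ((IsCompact.reProdIm (isCompact_Icc (a := (1 : ℝ)) (b := 2))
        (isCompact_Icc (a := -Real.exp A) (b := Real.exp A))).inter_right
        (isClosed_le continuous_const (continuous_abs.comp continuous_im) :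
          IsClosed {s : ℂ | (16 : ℝ) ≤ |s.im|})).exists_bound_of_continuousOn
        (f := LFunction ψ) fun s hs => (differentiableAt_LFunction ψ s (Or.inl fun h => by
          have h1 : (16 : ℝ) ≤ |s.im| := hs.2
          rw [h, one_im, abs_zero] at h1
          linarith)).continuousAt.continuousWithinAt
      exact ⟨B, fun σ u h1 h2 h3 h4 => hB _
        ⟨Complex.mem_reProdIm.2 ⟨by simpa using ⟨h1, h2⟩, by simpa using abs_le.1 h3⟩,
          show (16 : ℝ) ≤ |((σ : ℂ) + u * I).im| by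
            simpa using h4.resolve_left (not_ne_iff.2 hψ)⟩⟩
  have hdec : Tendsto (fun L : ℝ => 4 * C * L ^ (-(1 / 18) : ℝ)) atTop (𝓝 0) := by
    simpa using (tendsto_rpow_neg_atTop (show (0 : ℝ) < 1 / 18 by norm_num)).const_mul (4 * C)
  filter_upwards [eventually_ge_atTop (5 : ℝ), eventually_ge_atTop (|B| / ε),
    hdec.eventually (ge_mem_nhds hε), eventually_ge_atTop (Real.exp (A + 1))]
    with L hL5 hLB hLC hLA u hu hψ
  have hL : (4 : ℝ) ≤ L := by linarith
  have hL0 : 0 < L := by linarith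
  have hσ2 : 1 + 1 / L ≤ 2 := by
    linarith [(div_le_one hL0).2 (show 1 ≤ L by linarith)]
  rw [mass_charHom ψ hL0, div_le_iff₀ hL0]
  rcases le_or_gt (ell u) A with hA' | hA'
  · have hu' : |u| ≤ Real.exp A := by
      rw [ell, Real.log_le_iff_le_exp (by positivity)] at hA'
      linarith
    refine ((hB _ u (by linarith [one_lt_scale hL0]) hσ2 hu' hψ).trans (le_abs_self B)).trans ?_
    rwa [div_le_iff₀ hε, mul_comm] at hLB
  have hu16 : 16 ≤ |u| := by
    rw [ell, Real.lt_log_iff_exp_lt (by positivity)] at hA'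
    have h5 : (2.7 : ℝ) ^ 5 ≤ Real.exp A := by
      refine le_trans (pow_le_pow_left₀ (by norm_num) ?_ 5)
        ((Real.exp_one_pow 5).trans_le (Real.exp_le_exp.2 (by exact_mod_cast hA5)))
      linarith [Real.exp_one_gt_d9]
    linarith
  rcases le_total L (ell u ^ 2) with hLe | hLe
  · refine (hb u _ hu16 ?_ hσ2).trans ?_
    · rw [add_sub_cancel_left]
      exact one_div_le_one_div_of_le hL0 hLe
    · have h1 : ell u ≤ 2 * L ^ (4 / 3 : ℝ) := by
        rw [ell]
        have hp : (4 : ℝ) ≤ L ^ (4 / 3 : ℝ) :=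
          le_trans hL (by
            nth_rewrite 1 [← Real.rpow_one L]
            exact Real.rpow_le_rpow_of_exponent_le (by linarith) (by norm_num))
        have h1e : (1 : ℝ) ≤ Real.exp (L ^ (4 / 3 : ℝ)) := Real.one_le_exp (by linarith)
        refine (Real.log_le_log (by positivity) (show |u| + 100 ≤
          Real.exp (L ^ (4 / 3 : ℝ)) * 101 by linarith)).trans ?_
        rw [Real.log_mul (Real.exp_pos _).ne' (by norm_num), Real.log_exp]
        have : Real.log 101 ≤ 5 := by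
          rw [Real.log_le_iff_le_exp (by norm_num), show (5 : ℝ) = ((5 : ℕ) : ℝ) * 1 by norm_num,
            Real.exp_nat_mul]
          exact le_trans (by norm_num) (pow_le_pow_left₀ (by norm_num) Real.exp_one_gt_d9.le 5)
        have h7 := Real.rpow_le_rpow_of_exponent_le (show (1 : ℝ) ≤ L by linarith)
          (show (1 : ℝ) ≤ 4 / 3 by norm_num)
        rw [Real.rpow_one] at h7
        linarith
      calc C * Korobov.gauge u ≤ C * (2 * (2 * L ^ (4 / 3 : ℝ)) ^ (17 / 24 : ℝ)) := by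
            refine mul_le_mul_of_nonneg_left ((gauge_le_rpow u).trans ?_) hC
            gcongr
            exact (ell_pos u).le
        _ ≤ C * (2 * (2 * L ^ (17 / 18 : ℝ))) := by
            rw [Real.mul_rpow two_pos.le (by positivity), ← Real.rpow_mul hL0.le,
              show (4 / 3 : ℝ) * (17 / 24) = 17 / 18 by norm_num]
            gcongr
            exact Real.rpow_le_self_of_one_le one_le_two (by norm_num)
        _ = 4 * C * L ^ (-(1 / 18) : ℝ) * L := by
            have e : L ^ (17 / 18 : ℝ) = L ^ (-(1 / 18) : ℝ) * L := by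
              rw [← Real.rpow_add_one hL0.ne']
              norm_num
            rw [e]
            ring
        _ ≤ ε * L := mul_le_mul_of_nonneg_right hLC hL0.le
  · have hl2 : A ≤ ell u ^ 2 := by nlinarith
    have hle0 : 0 < ell u ^ 2 := by linarith
    have h1 := hL₀ (ell u ^ 2) (hAL.trans hl2) L hLe (charHom ψ) (norm_charHom_le ψ) u
    rw [mass_charHom ψ hL0, mass_charHom ψ hle0, div_le_iff₀ hL0] at h1
    refine h1.trans (mul_le_mul_of_nonneg_right ?_ hL0.le)
    rw [mul_div_assoc', div_le_iff₀ hle0]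
    rw [div_le_iff₀ hε] at hAC
    have h2 := hb u (1 + 1 / ell u ^ 2) hu16 (by linarith)
      (by linarith [(div_le_one hle0).2 (show (1 : ℝ) ≤ ell u ^ 2 by linarith)])
    obtain ⟨-, hgL, -⟩ := Korobov.gauge_bounds u
    calc massConst ^ 2 * ‖LFunction ψ (((1 + 1 / ell u ^ 2 : ℝ) : ℂ) + u * I)‖
        ≤ massConst ^ 2 * (C * ell u) := mul_le_mul_of_nonneg_left
          (h2.trans (mul_le_mul_of_nonneg_left hgL hC)) (by positivity)
      _ = massConst ^ 2 * C * ell u := by ring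
      _ ≤ A * ε * ell u := mul_le_mul_of_nonneg_right hAC (ell_pos u).le
      _ ≤ ε * ell u ^ 2 := by nlinarith [mul_pos hε (ell_pos u)]

/-- **The characters do not pretend to be `n ^ (iu)`**, uniformly in the modulus's characters. -/
theorem eventually_mass_char_le (q : ℕ) [NeZero q] {ε : ℝ} (hε : 0 < ε) :
    ∀ᶠ L : ℝ in atTop, ∀ ψ : DirichletCharacter ℂ q, ∀ u : ℝ,
      |u| ≤ Real.exp (L ^ (4 / 3 : ℝ)) → (ψ ≠ 1 ∨ 16 ≤ |u|) → mass (charHom ψ) L u ≤ ε :=
  eventually_all.2 fun ψ => eventually_mass_char_le_one ψ hε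

end FA.ErdosDisc
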