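import Fermat.Agent.Halasz.Comparison
import Mathlib.Analysis.InnerProductSpace.Basic
import Mathlib.Analysis.SpecialFunctions.Complex.CircleAddChar
import Mathlib.Data.Nat.Factorization.Basic

/-!
# Tao's reduction

If every partial sum of `j ↦ f (j d)` is bounded by `C`, `f` of norm one in a complex inner
product space, then for any finitely many windows some completely multiplicative `g` of modulus
one has weighted mean square at most `4 (C ^ 2 + 1)`: expand `x ↦ f (∏ p ^ x p)` on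
`(ℤ/M)^r`, `p` running over the `r` primes up to `X`, in the characters of that group.
-/

set_option autoImplicit false

noncomputable section

namespace FA.ErdosDisc

open Finset
open scoped ComplexConjugate

/-- The primes up to `X`. -/
abbrev primesTo (X : ℕ) : Finset ℕ := (Icc 1 X).filter Nat.Prime

/-- The group of exponents. -/
abbrev Expo (X M : ℕ) : Type := ↥(primesTo X) → ZMod M

variable {X M : ℕ}

/-- The exponents of `j`, modulo `M`. -/
def expoVec (X M j : ℕ) : Expo X M := fun p => (j.factorization p : ZMod M)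

/-- The natural number of a vector of exponents. -/
def expoNum (x : Expo X M) : ℕ := ∏ p : ↥(primesTo X), (p : ℕ) ^ (x p).val

theorem expoNum_pos (x : Expo X M) : 0 < expoNum x :=
  prod_pos fun p _ => pow_pos (mem_filter.1 p.2).2.pos _

theorem prod_primesTo_pow {j : ℕ} (hj : j ≠ 0) (hjX : j ≤ X) :
    ∏ p : ↥(primesTo X), (p : ℕ) ^ j.factorization p = j := by
  rw [prod_coe_sort (primesTo X) fun p => p ^ j.factorization p]
  conv_rhs => rw [← Nat.prod_factorization_pow_eq_self hj]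
  refine (Finsupp.prod_of_support_subset _ (fun p hp => ?_) _ fun p _ => pow_zero p).symm
  rw [Nat.support_factorization] at hp
  have hp' := Nat.prime_of_mem_primeFactors hp
  exact mem_filter.2 ⟨mem_Icc.2 ⟨hp'.one_le,
    (Nat.le_of_dvd (Nat.pos_of_ne_zero hj) (Nat.dvd_of_mem_primeFactors hp)).trans hjX⟩, hp'⟩

theorem factorization_le {j : ℕ} (hjX : j ≤ X) (p : ℕ) : j.factorization p ≤ X := by
  rcases eq_or_ne j 0 with rfl | hj
  · simp
  · exact (Nat.factorization_lt p hj).le.trans hjX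

/-- Adding the exponents of `j` multiplies by `j`, without wrap. -/
theorem expoNum_add [NeZero M] {x : Expo X M} (hx : ∀ p, (x p).val + X < M) {j : ℕ} (hj : j ≠ 0)
    (hjX : j ≤ X) : expoNum (x + expoVec X M j) = j * expoNum x := by
  rw [expoNum, expoNum]
  nth_rewrite 2 [← prod_primesTo_pow hj hjX]
  rw [← prod_mul_distrib]
  refine prod_congr rfl fun p _ => ?_
  have h1 := hx p
  have h2 := factorization_le hjX (p : ℕ)
  have h3 : ((j.factorization p : ℕ) : ZMod M).val = j.factorization p :=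
    ZMod.val_cast_of_lt (by omega)
  rw [Pi.add_apply, expoVec, ZMod.val_add_of_lt (by rw [h3]; omega), h3, ← pow_add,
    Nat.add_comm]

variable [NeZero M]

theorem stdAddChar_sum {κ : Type*} (s : Finset κ) (f : κ → ZMod M) :
    (ZMod.stdAddChar (∑ i ∈ s, f i) : ℂ) = ∏ i ∈ s, (ZMod.stdAddChar (f i) : ℂ) := by
  induction s using Finset.cons_induction with
  | empty => simp
  | cons i s hi ih => rw [sum_cons, prod_cons, AddChar.map_add_eq_mul, ih]

/-- The characters. -/
def wave (ξ x : Expo X M) : ℂ := ZMod.stdAddChar (∑ p, ξ p * x p)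

theorem norm_wave (ξ x : Expo X M) : ‖wave ξ x‖ = 1 := AddChar.norm_apply _ _

theorem wave_add (ξ x y : Expo X M) : wave ξ (x + y) = wave ξ x * wave ξ y := by
  simp only [wave, Pi.add_apply, mul_add, sum_add_distrib, AddChar.map_add_eq_mul]

theorem wave_neg (ξ x : Expo X M) : wave ξ (-x) = conj (wave ξ x) := by
  simp only [wave, Pi.neg_apply, mul_neg, sum_neg_distrib, AddChar.map_neg_eq_conj]

theorem sum_wave (z : Expo X M) :
    ∑ ξ : Expo X M, wave ξ z = if z = 0 then (Fintype.card (Expo X M) : ℂ) else 0 := by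
  have e : ∀ ξ : Expo X M, wave ξ z = ∏ p, ZMod.stdAddChar (ξ p * z p) := fun ξ => by
    rw [wave]
    exact stdAddChar_sum _ _
  simp only [e]
  rw [← Fintype.prod_sum (fun p (a : ZMod M) => (ZMod.stdAddChar (a * z p) : ℂ))]
  simp only [AddChar.sum_mulShift _ (ZMod.isPrimitive_stdAddChar M)]
  split_ifs with h
  · rw [Fintype.card_pi]
    push_cast
    refine prod_congr rfl fun p _ => ?_
    rw [h, Pi.zero_apply, if_pos rfl]
  · obtain ⟨p, hp⟩ : ∃ p, z p ≠ 0 := by
      by_contra! h'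
      exact h (funext h')
    exact prod_eq_zero (mem_univ p) (by rw [if_neg hp, Nat.cast_zero])

/-- **Parseval.** -/
theorem sum_norm_wave_sq {E : Type*} [NormedAddCommGroup E] [InnerProductSpace ℂ E]
    (y : Expo X M → E) :
    ∑ ξ, ‖∑ x, conj (wave ξ x) • y x‖ ^ 2 = Fintype.card (Expo X M) * ∑ x, ‖y x‖ ^ 2 := by
  refine Complex.ofReal_injective ?_
  push_cast
  simp only [← Complex.coe_algebraMap, ← inner_self_eq_norm_sq_to_K (𝕜 := ℂ), sum_inner, inner_sum,
    inner_smul_left, inner_smul_right, Complex.conj_conj]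
  rw [sum_comm, mul_sum]
  refine sum_congr rfl fun x _ => ?_
  simp only [mul_sum]
  rw [sum_comm]
  have e : ∀ x' ξ, conj (wave ξ x) * (wave ξ x' * inner ℂ (y x') (y x)) =
      wave ξ (x' - x) * inner ℂ (y x') (y x) := fun x' ξ => by
    rw [sub_eq_add_neg, wave_add, wave_neg]
    ring
  rw [sum_congr rfl fun x' _ => sum_congr rfl fun ξ _ => e x' ξ]
  simp only [← sum_mul, sum_wave, sub_eq_zero, ite_mul, zero_mul, sum_ite_eq', mem_univ, if_true]

/-- `g p = e (ξ p / M)`. -/
def waveHom (ξ : Expo X M) : ℕ →*₀ ℂ :=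
  Halasz.cmExt fun n => if h : n ∈ primesTo X then ZMod.stdAddChar (ξ ⟨n, h⟩) else 1

theorem norm_waveHom (ξ : Expo X M) {n : ℕ} (hn : n ≠ 0) : ‖waveHom ξ n‖ = 1 := by
  rw [waveHom, Halasz.cmExt_apply _ hn, Finsupp.prod, norm_prod]
  refine prod_eq_one fun p _ => ?_
  rw [norm_pow]
  split_ifs <;> simp

theorem waveHom_eq (ξ : Expo X M) {j : ℕ} (hj : j ≠ 0) (hjX : j ≤ X) :
    waveHom ξ j = wave ξ (expoVec X M j) := by
  nth_rewrite 1 [← prod_primesTo_pow hj hjX]
  rw [map_prod, wave, stdAddChar_sum]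
  refine prod_congr rfl fun p _ => ?_
  rw [map_pow, expoVec, mul_comm, ← nsmul_eq_mul, AddChar.map_nsmul_eq_pow, waveHom,
    Halasz.cmExt_prime _ (mem_filter.1 p.2).2, dif_pos p.2]

theorem card_val_add_le (X M : ℕ) [NeZero M] :
    ((univ : Finset (ZMod M)).filter fun a => M ≤ a.val + X).card ≤ X := by
  refine (card_le_card_of_injOn ZMod.val (t := Ico (M - X) M) (fun a ha => ?_)
    (ZMod.val_injective M).injOn).trans ?_
  · simp only [mem_coe, mem_filter, mem_univ, true_and] at ha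
    simp only [mem_coe, mem_Ico]
    exact ⟨by omega, a.val_lt⟩
  · rw [Nat.card_Ico]
    omega

/-- The vectors of exponents that can wrap. -/
theorem card_wrap_mul_le (X M : ℕ) [NeZero M] :
    ((univ : Finset (Expo X M)).filter fun x => ∃ p, M ≤ (x p).val + X).card * M ≤
      X * X * Fintype.card (Expo X M) := by
  classical
  have hsub : ((univ : Finset (Expo X M)).filter fun x => ∃ p, M ≤ (x p).val + X) ⊆
      (univ : Finset ↥(primesTo X)).biUnion fun p =>
        (univ : Finset (Expo X M)).filter fun x => M ≤ (x p).val + X := fun x hx => by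
    obtain ⟨p, hp⟩ := (mem_filter.1 hx).2
    exact mem_biUnion.2 ⟨p, mem_univ p, mem_filter.2 ⟨mem_univ x, hp⟩⟩
  refine (Nat.mul_le_mul_right M ((card_le_card hsub).trans card_biUnion_le)).trans ?_
  rw [sum_mul]
  refine (sum_le_card_nsmul _ _ (X * Fintype.card (Expo X M)) fun p _ => ?_).trans ?_
  · have e : (univ : Finset (Expo X M)).filter (fun x => M ≤ (x p).val + X) =
        Fintype.piFinset (Function.update (fun _ => (univ : Finset (ZMod M))) p
          ((univ : Finset (ZMod M)).filter fun a => M ≤ a.val + X)) := by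
      ext x
      simp only [mem_filter, mem_univ, true_and, Fintype.mem_piFinset]
      refine ⟨fun hx q => ?_, fun hx => ?_⟩
      · rcases eq_or_ne q p with rfl | hq
        · rw [Function.update_self]
          exact mem_filter.2 ⟨mem_univ _, hx⟩
        · rw [Function.update_of_ne hq]
          exact mem_univ _
      · have := hx p
        rw [Function.update_self] at this
        exact (mem_filter.1 this).2
    rw [e, Fintype.card_piFinset, Fintype.card_pi]
    rw [← mul_prod_erase univ _ (mem_univ p),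
      ← mul_prod_erase univ (fun _ => Fintype.card (ZMod M)) (mem_univ p), Function.update_self]
    have hrest : ∀ q ∈ (univ : Finset ↥(primesTo X)).erase p,
        (Function.update (fun _ => (univ : Finset (ZMod M))) p
          ((univ : Finset (ZMod M)).filter fun a => M ≤ a.val + X) q).card =
          Fintype.card (ZMod M) := fun q hq => by
      rw [Function.update_of_ne (mem_erase.1 hq).1, card_univ]
    rw [prod_congr rfl hrest, ZMod.card]
    calc _ ≤ X * (∏ _q ∈ (univ : Finset ↥(primesTo X)).erase p, M) * M :=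
          Nat.mul_le_mul_right _ (Nat.mul_le_mul_right _ (card_val_add_le X M))
      _ = _ := by ring
  · rw [card_univ, Fintype.card_coe, smul_eq_mul, mul_assoc]
    exact Nat.mul_le_mul_right _ ((card_filter_le _ _).trans (by simp))

variable {E : Type*} [NormedAddCommGroup E] [InnerProductSpace ℂ E]

/-- **Tao's reduction.** -/
theorem exists_unimodular_windows_le {f : ℕ → E} (hf : ∀ n, n ≠ 0 → ‖f n‖ = 1) {C : ℝ}
    (hC : ∀ d n : ℕ, 1 ≤ d → ‖∑ j ∈ Icc 1 n, f (j * d)‖ ≤ C) {ι : Type*} (s : Finset ι)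
    (u : ι → ℝ) (hu : ∀ i ∈ s, 0 ≤ u i) (a H : ι → ℕ) :
    ∃ g : ℕ →*₀ ℂ, (∀ n, n ≠ 0 → ‖g n‖ = 1) ∧
      ∑ i ∈ s, u i * ‖∑ j ∈ Ioc (a i) (a i + H i), g j‖ ^ 2 ≤
        4 * (C ^ 2 + 1) * ∑ i ∈ s, u i := by
  classical
  obtain ⟨X, hX⟩ : ∃ X, X = s.sup (fun i => a i + H i) + 1 := ⟨_, rfl⟩
  obtain ⟨M, hM⟩ : ∃ M, M = X ^ 4 + X + 1 := ⟨_, rfl⟩
  have : NeZero M := ⟨by omega⟩
  obtain ⟨G, hG⟩ : ∃ G, G = Fintype.card (Expo X M) := ⟨_, rfl⟩
  have hG0 : (0 : ℝ) < G := Nat.cast_pos.2 (hG ▸ Fintype.card_pos)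
  obtain ⟨F, hF⟩ : ∃ F : Expo X M → E, F = fun x => f (expoNum x) := ⟨_, rfl⟩
  have hF1 : ∀ x, ‖F x‖ = 1 := fun x => hF ▸ hf _ (expoNum_pos x).ne'
  obtain ⟨A, hA⟩ : ∃ A : Expo X M → E, A = fun ξ => ∑ x, conj (wave ξ x) • F x := ⟨_, rfl⟩
  have hA2 : ∑ ξ, ‖A ξ‖ ^ 2 = (G : ℝ) * G := by
    simp only [hA]
    rw [sum_norm_wave_sq, ← hG]
    simp [hF1, ← hG]
  have hwin : ∀ i ∈ s,
      ∑ ξ, ‖A ξ‖ ^ 2 * ‖∑ j ∈ Ioc (a i) (a i + H i), waveHom ξ j‖ ^ 2 ≤
        4 * (C ^ 2 + 1) * ((G : ℝ) * G) := fun i hi => by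
    have hiX : a i + H i < X := by
      have := le_sup (f := fun i => a i + H i) hi
      omega
    have hjX : ∀ j ∈ Ioc (a i) (a i + H i), j ≠ 0 ∧ j ≤ X := fun j hj => by
      rw [mem_Ioc] at hj
      omega
    obtain ⟨y, hy⟩ : ∃ y : Expo X M → E,
        y = fun x => ∑ j ∈ Ioc (a i) (a i + H i), F (x + expoVec X M j) := ⟨_, rfl⟩
    have hshift : ∀ ξ, ∑ x, conj (wave ξ x) • y x =
        (∑ j ∈ Ioc (a i) (a i + H i), waveHom ξ j) • A ξ := fun ξ => by
      simp only [hy, hA, smul_sum, sum_smul]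
      rw [sum_comm]
      conv_rhs => rw [sum_comm]
      refine sum_congr rfl fun j hj => Fintype.sum_equiv (Equiv.addRight (expoVec X M j)) _ _
        fun x => ?_
      rw [Equiv.coe_addRight, smul_smul, waveHom_eq ξ (hjX j hj).1 (hjX j hj).2]
      congr 1
      rw [wave_add, map_mul, ← mul_assoc, mul_comm (wave ξ (expoVec X M j)), mul_assoc,
        Complex.mul_conj', norm_wave]
      simp
    have hgood : ∀ x : Expo X M, (∀ p, (x p).val + X < M) → ‖y x‖ ≤ 2 * C := fun x hx => by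
      have e : y x = ∑ j ∈ Ioc (a i) (a i + H i), f (j * expoNum x) := by
        rw [hy, hF]
        exact sum_congr rfl fun j hj => congrArg f (expoNum_add hx (hjX j hj).1 (hjX j hj).2)
      rw [e, ← add_sub_cancel_left (∑ j ∈ Ioc 0 (a i), f (j * expoNum x))
        (∑ j ∈ Ioc (a i) (a i + H i), f (j * expoNum x)),
        sum_Ioc_consecutive _ (Nat.zero_le _) (Nat.le_add_right _ _), two_mul]
      exact (norm_sub_le _ _).trans (add_le_add (hC _ _ (expoNum_pos x)) (hC _ _ (expoNum_pos x)))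
    have hall : ∀ x, ‖y x‖ ^ 2 ≤ 4 * C ^ 2 +
        if ∃ p, M ≤ (x p).val + X then (X : ℝ) ^ 2 else 0 := fun x => by
      split_ifs with hx
      · refine le_add_of_nonneg_of_le (by positivity) (pow_le_pow_left₀ (norm_nonneg _) ?_ 2)
        rw [hy]
        refine (norm_sum_le _ _).trans (le_trans (le_of_eq ?_)
          (Nat.cast_le.2 (show (Ioc (a i) (a i + H i)).card ≤ X by rw [Nat.card_Ioc]; omega)))
        simp [hF1]
      · push Not at hx
        rw [add_zero, show 4 * C ^ 2 = (2 * C) ^ 2 by ring]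
        exact pow_le_pow_left₀ (norm_nonneg _) (hgood x hx) 2
    have hy2 : ∑ x, ‖y x‖ ^ 2 ≤ 4 * (C ^ 2 + 1) * G := by
      refine (sum_le_sum fun x _ => hall x).trans ?_
      rw [sum_add_distrib, sum_const, card_univ, ← hG, nsmul_eq_mul, ← sum_filter, sum_const,
        nsmul_eq_mul]
      have h1 : ((((univ : Finset (Expo X M)).filter fun x => ∃ p, M ≤ (x p).val + X).card : ℝ))
          * X ^ 2 ≤ 4 * G := by
        have h2 := card_wrap_mul_le X M
        rw [← hG] at h2
        have h3 : ((univ : Finset (Expo X M)).filter fun x => ∃ p, M ≤ (x p).val + X).card *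
            X ^ 2 ≤ G := by
          refine Nat.le_of_mul_le_mul_right ?_ (show 0 < M by omega)
          calc _ = ((univ : Finset (Expo X M)).filter fun x => ∃ p, M ≤ (x p).val + X).card * M
                * X ^ 2 := by ring
            _ ≤ X * X * G * X ^ 2 := Nat.mul_le_mul_right _ h2
            _ = G * X ^ 4 := by ring
            _ ≤ G * M := Nat.mul_le_mul_left _ (by omega)
        have h4 : (((univ : Finset (Expo X M)).filter fun x => ∃ p, M ≤ (x p).val + X).card : ℝ) *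
            X ^ 2 ≤ G := by exact_mod_cast h3
        linarith
      linarith
    calc ∑ ξ, ‖A ξ‖ ^ 2 * ‖∑ j ∈ Ioc (a i) (a i + H i), waveHom ξ j‖ ^ 2
        = ∑ ξ, ‖∑ x, conj (wave ξ x) • y x‖ ^ 2 :=
          sum_congr rfl fun ξ _ => by rw [hshift, norm_smul, mul_pow, mul_comm]
      _ = (G : ℝ) * ∑ x, ‖y x‖ ^ 2 := by rw [sum_norm_wave_sq, ← hG]
      _ ≤ (G : ℝ) * (4 * (C ^ 2 + 1) * G) := mul_le_mul_of_nonneg_left hy2 hG0.le
      _ = _ := by ring
  by_contra! hcon
  have hlt : ∀ ξ : Expo X M, 4 * (C ^ 2 + 1) * ∑ i ∈ s, u i <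
      ∑ i ∈ s, u i * ‖∑ j ∈ Ioc (a i) (a i + H i), waveHom ξ j‖ ^ 2 := fun ξ =>
    hcon (waveHom ξ) fun n hn => norm_waveHom ξ hn
  obtain ⟨ξ₀, -, hξ₀⟩ : ∃ ξ₀ ∈ (univ : Finset (Expo X M)), 0 < ‖A ξ₀‖ ^ 2 :=
    exists_lt_of_sum_lt (by rw [sum_const_zero, hA2]; exact mul_pos hG0 hG0)
  have h1 : ∑ ξ, ‖A ξ‖ ^ 2 * (4 * (C ^ 2 + 1) * ∑ i ∈ s, u i) <
      ∑ ξ, ‖A ξ‖ ^ 2 * ∑ i ∈ s, u i * ‖∑ j ∈ Ioc (a i) (a i + H i), waveHom ξ j‖ ^ 2 :=
    sum_lt_sum (fun ξ _ => mul_le_mul_of_nonneg_left (hlt ξ).le (sq_nonneg _))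
      ⟨ξ₀, mem_univ _, mul_lt_mul_of_pos_left (hlt ξ₀) hξ₀⟩
  rw [← sum_mul, hA2] at h1
  simp only [mul_sum] at h1
  rw [sum_comm] at h1
  refine absurd h1 (not_lt.2 ?_)
  refine sum_le_sum fun i hi => ?_
  rw [sum_congr rfl fun ξ _ => mul_left_comm _ (u i) _, ← mul_sum]
  exact (mul_le_mul_of_nonneg_left (hwin i hi) (hu i hi)).trans_eq (by ring)

end FA.ErdosDisc

end
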