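import Fermat.Agent.ErdosDiscrepancy.Elliott
import Fermat.Agent.ErdosDiscrepancy.Endgame
import Fermat.Agent.ErdosDiscrepancy.Reduction

/-!
# Tao's theorem on the discrepancy problem of Erdős

Were all the sums `∑_{j ≤ n} f (j d)` bounded, the reduction gives a completely multiplicative `g`
of modulus one with small windows. The two-point theorem then makes it pretentious at the scales
`L` and `L ^ (4/5)`, so of height at most `exp (L ^ (6/7))`, and such functions have large windows.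
-/

set_option autoImplicit false

noncomputable section

namespace FA.ErdosDisc

open Filter Topology Complex Finset
open FA.LogChowla (logMean logW harm)
open scoped ComplexConjugate

/-- Without correlations the windows have the mean square of independent signs. -/
theorem logMean_window_ge {g : ℕ → ℂ} (hg : ∀ n, ‖g n‖ ≤ 1) (hg1 : ∀ n, n ≠ 0 → ‖g n‖ = 1)
    {N H : ℕ} (hN : 1 ≤ N) {ε : ℝ} (hε : 0 ≤ ε)
    (hcorr : ∀ h, 1 ≤ h → h ≤ H → ‖corrMean g N h‖ ≤ ε) :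
    (H : ℝ) - (H : ℝ) ^ 2 * (ε + 3 * H / harm N) ≤
      logMean N fun n => ‖∑ j ∈ Ioc n (n + H), g j‖ ^ 2 := by
  classical
  have hH3 : 0 ≤ 3 * (H : ℝ) / harm N :=
    div_nonneg (by positivity) (LogChowla.harm_pos hN).le
  have hpair : ∀ j ∈ Icc 1 H, ∀ i ∈ Icc 1 H, (if j = i then (1 : ℝ) else 0) -
      (ε + 3 * H / harm N) ≤ logMean N fun n => (g (n + j) * conj (g (n + i))).re := by
    intro j hj i hi
    rw [mem_Icc] at hj hi
    split_ifs with hji
    · subst hji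
      refine le_of_le_of_eq (show 1 - (ε + 3 * (H : ℝ) / harm N) ≤ 1 by linarith) ?_
      rw [logMean, ← (LogChowla.isWeights_logW hN).sum_eq]
      refine sum_congr rfl fun n _ => ?_
      rw [mul_conj', hg1 _ (by omega)]
      simp
    have key : ∀ a b : ℕ, a < b → b ≤ H →
        |logMean N fun n => (g (n + a) * conj (g (n + b))).re| ≤ ε + 3 * H / harm N := by
      intro a b hab hbH
      obtain ⟨h, hh, rfl⟩ : ∃ h, 1 ≤ h ∧ b = a + h := ⟨b - a, by omega, by omega⟩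
      have h1 := LogChowla.abs_logMean_shift_sub_le N
        (fun n => (g n * conj (g (n + h))).re) (B := 1) (fun n => (abs_re_le_norm _).trans (by
          rw [norm_mul, Complex.norm_conj]
          exact mul_le_one₀ (hg _) (norm_nonneg _) (hg _))) a
      have h2 : |logMean N fun n => (g n * conj (g (n + h))).re| ≤ ε := by
        refine le_of_eq_of_le (congrArg abs ?_) ((abs_re_le_norm _).trans (hcorr h hh (by omega)))
        rw [corrMean, Complex.re_sum, logMean]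
        exact sum_congr rfl fun n _ => (re_ofReal_mul _ _).symm
      have h3 : 3 * (a : ℝ) * 1 / harm N ≤ 3 * H / harm N := by
        refine div_le_div_of_nonneg_right ?_ (LogChowla.harm_pos hN).le
        have : (a : ℝ) ≤ H := Nat.cast_le.2 (by omega)
        linarith
      simp only [← add_assoc]
      rw [abs_le] at h1 h2 ⊢
      constructor <;> linarith
    rcases Ne.lt_or_gt hji with h | h
    · linarith [(abs_le.1 (key j i h hi.2)).1]
    · refine le_of_le_of_eq (b := logMean N fun n => (g (n + i) * conj (g (n + j))).re) ?_ ?_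
      · linarith [(abs_le.1 (key i j h hj.2)).1]
      · refine sum_congr rfl fun n _ => ?_
        simp only [mul_re, conj_re, conj_im]
        ring
  have hexp : (logMean N fun n => ‖∑ j ∈ Ioc n (n + H), g j‖ ^ 2) =
      ∑ j ∈ Icc 1 H, ∑ i ∈ Icc 1 H, logMean N fun n => (g (n + j) * conj (g (n + i))).re := by
    rw [← sum_congr rfl fun j _ => LogChowla.logMean_sum N (Icc 1 H)
      fun i n => (g (n + j) * conj (g (n + i))).re, ← LogChowla.logMean_sum]
    refine LogChowla.logMean_congr fun n _ => ?_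
    rw [sum_window]
    simp only [← Complex.re_sum]
    rw [← sum_mul_sum, ← map_sum, mul_conj', ← ofReal_pow, ofReal_re]
  rw [hexp]
  refine le_trans (le_of_eq ?_) (sum_le_sum fun j hj => sum_le_sum fun i hi => hpair j hj i hi)
  simp only [sum_sub_distrib, sum_ite_eq, sum_const, Nat.card_Icc, nsmul_eq_mul]
  rw [sum_congr rfl (g := fun _ => (1 : ℝ)) fun j hj => if_pos hj, sum_const, Nat.card_Icc,
    Nat.add_sub_cancel, nsmul_eq_mul]
  ring

/-- **Tao's theorem**, for values in the unit sphere of a complex inner product space. -/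
theorem exists_discrepancy_gt {E : Type*} [NormedAddCommGroup E] [InnerProductSpace ℂ E]
    {f : ℕ → E} (hf : ∀ n, n ≠ 0 → ‖f n‖ = 1) (C : ℝ) :
    ∃ d n : ℕ, 1 ≤ d ∧ C < ‖∑ j ∈ Icc 1 n, f (j * d)‖ := by
  classical
  by_contra! hC
  obtain ⟨B, hB⟩ : ∃ B : ℝ, B = 16 * (C ^ 2 + 1) := ⟨_, rfl⟩
  have hB1 : 1 ≤ B := by rw [hB]; nlinarith [sq_nonneg C]
  obtain ⟨H, hH⟩ : ∃ H : ℕ, H = ⌈2 * B⌉₊ + 1 := ⟨_, rfl⟩
  have hH0 : (0 : ℝ) < H := Nat.cast_pos.2 (by omega)
  have hHB : 2 * B < H := (Nat.le_ceil _).trans_lt (Nat.cast_lt.2 (by omega))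
  obtain ⟨δ, W, hδ, hell⟩ := exists_elliott_le H (show 0 < 1 / (4 * (H : ℝ)) by positivity)
  obtain ⟨Cc, hCc, hcomp⟩ := exists_mass_comparable
  obtain ⟨δ₁, hδ₁⟩ : ∃ δ₁ : ℝ, δ₁ = δ / (Cc + 1) := ⟨_, rfl⟩
  have hδ₁0 : 0 < δ₁ := hδ₁ ▸ by positivity
  have hδ₁δ : δ₁ ≤ δ := hδ₁ ▸ div_le_self hδ.le (by linarith)
  have hM := massConst_pos
  obtain ⟨δ₂, hδ₂⟩ : ∃ δ₂ : ℝ, δ₂ = δ₁ / (massConst ^ 2 * Real.exp (2 * W)) := ⟨_, rfl⟩
  have hδ₂0 : 0 < δ₂ := hδ₂ ▸ by positivity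
  have hwin : ∀ q : ℕ, ∃ c : ℝ, 0 < c ∧ (1 ≤ q → ∀ k : ℕ, ∀ᶠ L : ℝ in atTop, ∀ g : ℕ →*₀ ℂ,
      (∀ n, n ≠ 0 → ‖g n‖ = 1) → ∀ χ : DirichletCharacter ℂ q, χ.IsPrimitive → ∀ t : ℝ,
        |t| ≤ Real.exp (L ^ (6 / 7 : ℝ)) → δ₂ ≤ mass (twistHom g χ) L t →
          c * k ≤ windowSq g L (blockLen q k)) := fun q => by
    rcases Nat.eq_zero_or_pos q with rfl | hq
    · exact ⟨1, one_pos, fun h => absurd h (by norm_num)⟩
    · have : NeZero q := ⟨hq.ne'⟩
      obtain ⟨c, hc, h⟩ := exists_windowSq_ge q hδ₂0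
      exact ⟨c, hc, fun _ => h⟩
  choose c hc hcwin using hwin
  obtain ⟨k, hk⟩ := exists_nat_gt (∑ q ∈ Icc 1 W, (B * W + 1) / c q)
  have hck : ∀ q ∈ Icc 1 W, B * W + 1 < c q * k := fun q hq => by
    rw [← div_lt_iff₀' (hc q)]
    exact (single_le_sum (fun i _ => div_nonneg (by positivity) (hc i).le) hq).trans_lt hk
  have hlog : Tendsto (fun N : ℕ => Real.log N) atTop atTop :=
    Real.tendsto_log_atTop.comp tendsto_natCast_atTop_atTop
  have hp : Tendsto (fun N : ℕ => Real.log N ^ (4 / 5 : ℝ)) atTop atTop :=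
    (tendsto_rpow_atTop (by norm_num)).comp hlog
  have hN' : Tendsto (fun N : ℕ => ⌊Real.exp (Real.log N ^ (4 / 5 : ℝ))⌋₊) atTop atTop :=
    tendsto_nat_floor_atTop.comp (Real.tendsto_exp_atTop.comp hp)
  have hblock : ∀ᶠ N : ℕ in atTop, ∀ q ∈ Icc 1 W, ∀ g : ℕ →*₀ ℂ,
      (∀ n, n ≠ 0 → ‖g n‖ = 1) → ∀ χ : DirichletCharacter ℂ q, χ.IsPrimitive → ∀ t : ℝ,
        |t| ≤ Real.exp (Real.log N ^ (6 / 7 : ℝ)) → δ₂ ≤ mass (twistHom g χ) (Real.log N) t →
          c q * k ≤ windowSq g (Real.log N) (blockLen q k) :=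
    (eventually_all_finset _).2 fun q hq => hlog.eventually (hcwin q (mem_Icc.1 hq).1 k)
  have hheight : ∀ᶠ N : ℕ in atTop, ∀ q ∈ Icc 1 W, ∀ q' ∈ Icc 1 W, ∀ g : ℕ →*₀ ℂ,
      (∀ n, n ≠ 0 → ‖g n‖ = 1) →
      ∀ (χ : DirichletCharacter ℂ q) (χ' : DirichletCharacter ℂ q') (t t' : ℝ),
        |t| ≤ Real.exp (3 * Real.log N) → |t'| ≤ Real.exp (3 * Real.log N ^ (4 / 5 : ℝ)) →
          δ₁ ≤ mass (twistHom g χ) (Real.log N) t →
            δ₁ ≤ mass (twistHom g χ') (Real.log N ^ (4 / 5 : ℝ)) t' →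
              |t| ≤ Real.exp (Real.log N ^ (6 / 7 : ℝ)) :=
    (eventually_all_finset _).2 fun q hq => (eventually_all_finset _).2 fun q' hq' => by
      have : NeZero q := ⟨by have := (mem_Icc.1 hq).1; omega⟩
      have : NeZero q' := ⟨by have := (mem_Icc.1 hq').1; omega⟩
      exact hlog.eventually (eventually_height_le q q' hδ₁0 3)
  have hprim : ∀ᶠ N : ℕ in atTop, ∀ q ∈ Icc 1 W, ∀ g : ℕ →*₀ ℂ, (∀ n, ‖g n‖ ≤ 1) →
      ∀ (χ : DirichletCharacter ℂ q) (t : ℝ), mass (twistHom g χ) (Real.log N) t ≤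
        massConst ^ 2 * Real.exp (2 * q) *
          mass (twistHom g χ.primitiveCharacter) (Real.log N) t :=
    (eventually_all_finset _).2 fun q hq => by
      have : NeZero q := ⟨by have := (mem_Icc.1 hq).1; omega⟩
      exact hlog.eventually (eventually_mass_primitive q)
  have herr := LogChowla.eventually_div_harm_le (3 * (H : ℝ))
    (show 0 < 1 / (4 * (H : ℝ)) by positivity)
  obtain ⟨N, hNell, hN'ell, hNerr, hN'err, hNblock, hNheight, hNprim, hNtsum, hNcomp, hN3, hNp⟩ :=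
    (hell.and ((hN'.eventually hell).and (herr.and ((hN'.eventually herr).and (hblock.and
      (hheight.and (hprim.and ((hlog.eventually eventually_tsum_wt_le).and
        ((hp.eventually hcomp).and ((eventually_ge_atTop 3).and
          (hp.eventually_ge_atTop 4))))))))))).exists
  obtain ⟨L, hL⟩ : ∃ L, L = Real.log (N : ℝ) := ⟨_, rfl⟩
  obtain ⟨N', hN'e⟩ : ∃ N', N' = ⌊Real.exp (L ^ (4 / 5 : ℝ))⌋₊ := ⟨_, rfl⟩
  rw [← hL] at hNblock hNheight hNprim hNtsum hNcomp hNp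
  rw [← hL, ← hN'e] at hN'ell hN'err
  have hL0 : 0 < L := hL ▸ Real.log_pos (by exact_mod_cast show 1 < N by omega)
  obtain ⟨P, hP⟩ : ∃ P, P = L ^ (4 / 5 : ℝ) := ⟨_, rfl⟩
  rw [← hP] at hNcomp hNp hN'e
  have hP4 : 5 ≤ Real.exp P := le_trans (by linarith) (Real.add_one_le_exp P)
  have hN'lo : Real.exp P / 2 ≤ (N' : ℝ) := by
    have := Nat.lt_floor_add_one (Real.exp P)
    rw [← hN'e] at this
    linarith
  have hN'hi : (N' : ℝ) ≤ Real.exp P := hN'e ▸ Nat.floor_le (Real.exp_pos P).le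
  have hN'2 : 2 ≤ N' := by
    have : (2 : ℝ) ≤ N' := by linarith
    exact_mod_cast this
  have hlogN' : P / 2 ≤ Real.log N' ∧ Real.log N' ≤ 2 * P := by
    have h1 := Real.log_le_log (by positivity) hN'lo
    have h2 := Real.log_le_log (Nat.cast_pos.2 (show 0 < N' by omega)) hN'hi
    rw [Real.log_div (Real.exp_pos P).ne' two_ne_zero, Real.log_exp] at h1
    rw [Real.log_exp] at h2
    constructor <;> linarith [Real.log_two_lt_d9]
  obtain ⟨N₁, hN₁⟩ : ∃ N₁, ∀ q ∈ Icc 1 W,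
      (∑' n, wt L (n + N₁)) * (blockLen q k : ℝ) ^ 2 ≤ 1 :=
    (((eventually_all_finset _).2 fun q _ => (((tendsto_sum_nat_add (wt L)).mul_const
      ((blockLen q k : ℝ) ^ 2)).eventually_le_const (by rw [zero_mul]; exact one_pos)))).exists
  obtain ⟨g, hg, hgsum⟩ := exists_unimodular_windows_le hf hC
    ((Icc 1 N).disjSum ((Icc 1 N').disjSum (Icc 1 W ×ˢ range N₁)))
    (Sum.elim (logW N) (Sum.elim (logW N') fun z => wt L z.2 / W))
    (fun i _ => by
      rcases i with i | i | z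
      exacts [LogChowla.logW_nonneg _ _, LogChowla.logW_nonneg _ _,
        div_nonneg (wt_nonneg hL0.le _) (Nat.cast_nonneg W)])
    (Sum.elim id (Sum.elim id Prod.snd))
    (Sum.elim (fun _ => H) (Sum.elim (fun _ => H) fun z => blockLen z.1 k))
  simp only [sum_disjSum, Sum.elim_inl, Sum.elim_inr, id, sum_product] at hgsum
  rw [(LogChowla.isWeights_logW (show 1 ≤ N by omega)).sum_eq,
    (LogChowla.isWeights_logW (show 1 ≤ N' by omega)).sum_eq] at hgsum
  have hU : ∑ _q ∈ Icc 1 W, ∑ n ∈ range N₁, wt L n / W ≤ 2 := by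
    rw [sum_const, Nat.card_Icc, Nat.add_sub_cancel, nsmul_eq_mul, ← sum_div]
    rcases Nat.eq_zero_or_pos W with rfl | hW
    · simp
    rw [mul_div_cancel₀ _ (Nat.cast_ne_zero.2 hW.ne')]
    exact ((summable_wt hL0).sum_le_tsum _ fun n _ => wt_nonneg hL0.le n).trans hNtsum
  have hbound : 4 * (C ^ 2 + 1) * (1 + (1 + ∑ _q ∈ Icc 1 W, ∑ n ∈ range N₁, wt L n / W)) ≤ B :=
    le_of_le_of_eq (mul_le_mul_of_nonneg_left (b := 1 + (1 + ∑ _q ∈ Icc 1 W,
      ∑ n ∈ range N₁, wt L n / W)) (c := 4) (by linarith) (by positivity)) (by rw [hB]; ring)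
  have hsum := hgsum.trans hbound
  have hg1 := norm_le_one_of_unimodular hg
  have h1 : (logMean N fun n => ‖∑ j ∈ Ioc n (n + H), g j‖ ^ 2) ≤ B ∧
      (logMean N' fun n => ‖∑ j ∈ Ioc n (n + H), g j‖ ^ 2) ≤ B ∧
      ∀ q ∈ Icc 1 W, ∑ n ∈ range N₁, wt L n / W * ‖∑ j ∈ Ioc n (n + blockLen q k), g j‖ ^ 2 ≤
        B := by
    have p0 : ∀ M, 0 ≤ logMean M fun n => ‖∑ j ∈ Ioc n (n + H), g j‖ ^ 2 := fun M =>
      sum_nonneg fun n _ => mul_nonneg (LogChowla.logW_nonneg _ _) (sq_nonneg _)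
    have p1 : ∀ q ∈ Icc 1 W,
        0 ≤ ∑ n ∈ range N₁, wt L n / W * ‖∑ j ∈ Ioc n (n + blockLen q k), g j‖ ^ 2 := fun q _ =>
      sum_nonneg fun n _ =>
        mul_nonneg (div_nonneg (wt_nonneg hL0.le n) (Nat.cast_nonneg W)) (sq_nonneg _)
    have p2 := sum_nonneg p1
    have a1 := p0 N
    have a2 := p0 N'
    simp only [logMean] at a1 a2 ⊢
    exact ⟨by linarith, by linarith, fun q hq => (single_le_sum p1 hq).trans (by linarith)⟩
  obtain ⟨h1, h1', h2⟩ := h1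
  have hpret : ∀ M : ℕ, 1 ≤ M → 3 * (H : ℝ) / harm M ≤ 1 / (4 * H) →
      (logMean M fun n => ‖∑ j ∈ Ioc n (n + H), g j‖ ^ 2) ≤ B →
      (NonPretentious g δ W M → ∀ h : ℕ, 1 ≤ h → h ≤ H → ‖corrMean g M h‖ ≤ 1 / (4 * H)) →
      ∃ b, b ∈ Icc 1 W ∧ ∃ (χ : DirichletCharacter ℂ b) (u : ℝ), |u| ≤ (M : ℝ) ^ 3 ∧
        δ ≤ mass (twistHom g χ) (Real.log M) u := by
    intro M hM herrM hBM hellM
    by_contra hcon
    have hnp : NonPretentious g δ W M := fun b hb hbW χ u hu =>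
      le_of_not_gt fun h => hcon ⟨b, mem_Icc.2 ⟨hb, hbW⟩, χ, u, hu, h.le⟩
    have h3 := (logMean_window_ge hg1 hg hM (by positivity) (hellM hnp)).trans hBM
    have h4 : (H : ℝ) ^ 2 * (1 / (4 * H) + 3 * H / harm M) ≤ H / 2 := by
      refine (mul_le_mul_of_nonneg_left (add_le_add le_rfl herrM) (sq_nonneg _)).trans
        (le_of_eq ?_)
      field_simp
      ring
    linarith
  obtain ⟨b, hb, χ, t, ht, hm⟩ := hpret N (by omega) hNerr h1 (hNell g hg)
  obtain ⟨b', hb', χ', t', ht', hm'⟩ := hpret N' (by omega) hN'err h1' (hN'ell g hg)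
  rw [← hL] at hm
  have hmP : δ₁ ≤ mass (twistHom g χ') P t' := by
    have h3 := hm'.trans (hNcomp (Real.log N') hlogN'.1 hlogN'.2 _ (norm_twistHom_le hg1 χ') t')
    rw [hδ₁, div_le_iff₀ (by linarith)]
    linarith [mass_nonneg (twistHom g χ') (show 0 ≤ P by linarith) t']
  have hpow : ∀ M : ℕ, 0 < M → (M : ℝ) ^ 3 = Real.exp (3 * Real.log M) := fun M hM => by
    rw [show (3 : ℝ) * Real.log M = ((3 : ℕ) : ℝ) * Real.log M by norm_num, Real.exp_nat_mul,
      Real.exp_log (Nat.cast_pos.2 hM)]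
  have htN : |t| ≤ Real.exp (3 * L) := hL ▸ (hpow N (by omega)) ▸ ht
  have ht'N : |t'| ≤ Real.exp (3 * P) := by
    refine ht'.trans ((pow_le_pow_left₀ (Nat.cast_nonneg _) hN'hi 3).trans (le_of_eq ?_))
    rw [← Real.exp_nat_mul]
    norm_num
  have hsmall := hNheight b hb b' hb' g hg χ χ' t t' htN (hP ▸ ht'N) (hδ₁δ.trans hm) (hP ▸ hmP)
  have hbW := mem_Icc.1 hb
  have : NeZero b := ⟨by omega⟩
  have : NeZero χ.conductor := ⟨DirichletCharacter.conductor_ne_zero χ⟩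
  have hcb : χ.conductor ≤ b := Nat.le_of_dvd (by omega) χ.conductor_dvd_level
  have hqmem : χ.conductor ∈ Icc 1 W :=
    mem_Icc.2 ⟨Nat.pos_of_ne_zero (NeZero.ne _), hcb.trans hbW.2⟩
  have hprim2 : δ₂ ≤ mass (twistHom g χ.primitiveCharacter) L t := by
    rw [hδ₂, div_le_iff₀ (by positivity)]
    refine (hδ₁δ.trans hm).trans ((hNprim b hb g hg1 χ t).trans ?_)
    rw [mul_comm]
    refine mul_le_mul_of_nonneg_left (mul_le_mul_of_nonneg_left
      (Real.exp_le_exp.2 (by exact_mod_cast (Nat.mul_le_mul_left 2 hbW.2))) (sq_nonneg _))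
      (mass_nonneg _ hL0.le t)
  have hge := hNblock χ.conductor hqmem g hg χ.primitiveCharacter
    χ.primitiveCharacter_isPrimitive t hsmall hprim2
  have hW0 : (0 : ℝ) < W := Nat.cast_pos.2 (by omega)
  have hle : windowSq g L (blockLen χ.conductor k) ≤ B * W + 1 := by
    obtain ⟨q, hq⟩ : ∃ q, q = χ.conductor := ⟨_, rfl⟩
    rw [← hq]
    have hqmem' : q ∈ Icc 1 W := hq ▸ hqmem
    obtain ⟨F, hF⟩ : ∃ F : ℕ → ℝ,
        F = fun n => wt L n * ‖∑ j ∈ Ioc n (n + blockLen q k), g j‖ ^ 2 := ⟨_, rfl⟩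
    have hFb : ∀ n, 0 ≤ F n ∧ F n ≤ wt L n * (blockLen q k : ℝ) ^ 2 := fun n => by
      rw [hF]
      exact ⟨mul_nonneg (wt_nonneg hL0.le n) (sq_nonneg _), mul_le_mul_of_nonneg_left
        (pow_le_pow_left₀ (norm_nonneg _) (norm_window_le hg1 n _) 2) (wt_nonneg hL0.le n)⟩
    have hFs : Summable F :=
      ((summable_wt hL0).mul_right _).of_nonneg_of_le (fun n => (hFb n).1) fun n => (hFb n).2
    rw [windowSq, ← hF, ← hFs.sum_add_tsum_nat_add N₁]
    refine add_le_add ?_ ?_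
    · have h3 := h2 q hqmem'
      simp only [div_mul_eq_mul_div] at h3
      rw [← sum_div, div_le_iff₀ hW0] at h3
      rw [hF]
      exact h3
    · refine (((summable_nat_add_iff N₁).2 hFs).tsum_le_tsum (fun n => (hFb _).2)
        (((summable_nat_add_iff N₁).2 (summable_wt hL0)).mul_right _)).trans ?_
      rw [tsum_mul_right]
      exact hN₁ q hqmem'
  linarith [hck χ.conductor hqmem]

/-- **The discrepancy problem of Erdős**: every sequence of signs has unbounded discrepancy on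
homogeneous arithmetic progressions. -/
theorem exists_sign_discrepancy_gt {f : ℕ → ℤ} (hf : ∀ n, n ≠ 0 → f n = 1 ∨ f n = -1) (C : ℤ) :
    ∃ d n : ℕ, 1 ≤ d ∧ C < |∑ j ∈ Icc 1 n, f (j * d)| := by
  obtain ⟨d, n, hd, h⟩ := exists_discrepancy_gt (f := fun n => (f n : ℂ))
    (fun n hn => by rcases hf n hn with e | e <;> simp [e]) C
  refine ⟨d, n, hd, ?_⟩
  rw [← Int.cast_sum, Complex.norm_intCast] at h
  exact_mod_cast h

end FA.ErdosDisc

end
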