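import Fermat.Agent.Halasz.Euler
import Mathlib.NumberTheory.DirichletCharacter.Basic

/-!
# The size of a Dirichlet series just to the right of `1`

For completely multiplicative `a` bounded by `1` put `mass a L t = ‖L (a, 1 + 1/L + it)‖ / L`. It
is, up to constants, `exp (-gap)` with `gap` the distance of `a` to `n ^ (it)` at the scale `L`,
so it is almost decreasing in `L` and obeys a triangle inequality.
-/

set_option autoImplicit false

noncomputable section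

namespace FA.ErdosDisc

open Filter Topology Complex FA.Halasz

/-- `n ↦ χ n` as a homomorphism vanishing at `0`, also for the modulus `1`. -/
def charHom {q : ℕ} (χ : DirichletCharacter ℂ q) : ℕ →*₀ ℂ where
  toFun n := if n = 0 then 0 else χ n
  map_zero' := rfl
  map_one' := by simp
  map_mul' m n := by
    rcases eq_or_ne m 0 with rfl | hm
    · simp
    rcases eq_or_ne n 0 with rfl | hn
    · simp
    simp [hm, hn]

theorem charHom_apply {q : ℕ} (χ : DirichletCharacter ℂ q) {n : ℕ} (hn : n ≠ 0) :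
    charHom χ n = χ n :=
  if_neg hn

theorem norm_charHom_le {q : ℕ} (χ : DirichletCharacter ℂ q) (n : ℕ) : ‖charHom χ n‖ ≤ 1 := by
  rcases eq_or_ne n 0 with rfl | hn
  · simp
  · rw [charHom_apply χ hn]
    exact χ.norm_le_one _

theorem mul_hom_apply (a b : ℕ →*₀ ℂ) (n : ℕ) : (a * b) n = a n * b n :=
  rfl

theorem norm_mul_hom_le {a b : ℕ →*₀ ℂ} (ha : ∀ n, ‖a n‖ ≤ 1) (hb : ∀ n, ‖b n‖ ≤ 1) (n : ℕ) :
    ‖(a * b) n‖ ≤ 1 := by
  rw [mul_hom_apply, norm_mul]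
  exact mul_le_one₀ (ha n) (norm_nonneg _) (hb n)

/-- The conjugate of a homomorphism. -/
def conjHom (a : ℕ →*₀ ℂ) : ℕ →*₀ ℂ :=
  (starRingEnd ℂ).toMonoidWithZeroHom.comp a

theorem conjHom_apply (a : ℕ →*₀ ℂ) (n : ℕ) : conjHom a n = starRingEnd ℂ (a n) :=
  rfl

theorem norm_conjHom_le {a : ℕ →*₀ ℂ} (ha : ∀ n, ‖a n‖ ≤ 1) (n : ℕ) : ‖conjHom a n‖ ≤ 1 := by
  rw [conjHom_apply, Complex.norm_conj]
  exact ha n

/-- `‖L (a, 1 + 1/L + it)‖ / L`. -/
def mass (a : ℕ →*₀ ℂ) (L t : ℝ) : ℝ :=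
  ‖LSeries a (((1 + 1 / L : ℝ) : ℂ) + t * I)‖ / L

/-- The distance of `a` to `n ^ (it)` at the scale `L`. -/
def gap (a : ℕ →*₀ ℂ) (L t : ℝ) : ℝ :=
  ∑' p : Nat.Primes, dev a p (1 + 1 / L) t

theorem mass_nonneg (a : ℕ →*₀ ℂ) {L : ℝ} (hL : 0 ≤ L) (t : ℝ) : 0 ≤ mass a L t :=
  div_nonneg (norm_nonneg _) hL

theorem mass_congr {a b : ℕ →*₀ ℂ} (h : ∀ n, n ≠ 0 → a n = b n) (L t : ℝ) :
    mass a L t = mass b L t := by
  rw [mass, mass, LSeries_congr (fun {n} hn => h n hn)]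

theorem one_lt_scale {L : ℝ} (hL : 0 < L) : (1 : ℝ) < 1 + 1 / L :=
  lt_add_of_pos_right 1 (one_div_pos.2 hL)

theorem gap_nonneg {a : ℕ →*₀ ℂ} (ha : ∀ n, ‖a n‖ ≤ 1) {L : ℝ} (hL : 0 < L) (t : ℝ) :
    0 ≤ gap a L t :=
  tsum_nonneg fun p => dev_nonneg ha p (by linarith [one_lt_scale hL]) t

theorem hasSum_gap {a : ℕ →*₀ ℂ} (ha : ∀ n, ‖a n‖ ≤ 1) {L : ℝ} (hL : 0 < L) (t : ℝ) :
    HasSum (fun p : Nat.Primes => dev a p (1 + 1 / L) t) (gap a L t) :=
  (hasSum_dev ha (one_lt_scale hL) t).summable.hasSum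

/-- `ζ (σ)` is comparable with `1 / (σ - 1)`. -/
theorem eventually_zeta_scale :
    ∀ᶠ L : ℝ in atTop, L / 2 ≤ ‖riemannZeta ((1 + 1 / L : ℝ) : ℂ)‖ ∧
      ‖riemannZeta ((1 + 1 / L : ℝ) : ℂ)‖ ≤ 2 * L := by
  have h0 : Tendsto (fun L : ℝ => 1 + 1 / L) atTop (𝓝[>] 1) := by
    refine tendsto_nhdsWithin_iff.2 ⟨?_, ?_⟩
    · simpa using (tendsto_inv_atTop_zero (𝕜 := ℝ)).const_add 1
    · filter_upwards [eventually_gt_atTop (0 : ℝ)] with L hL
      exact one_lt_scale hL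
  have h1 : Tendsto (fun σ : ℝ => (σ : ℂ)) (𝓝[>] 1) (𝓝[≠] 1) := by
    refine tendsto_nhdsWithin_iff.2 ⟨?_, ?_⟩
    · exact (continuous_ofReal.tendsto' 1 1 ofReal_one).mono_left nhdsWithin_le_nhds
    · filter_upwards [self_mem_nhdsWithin] with σ hσ
      simpa using (ne_of_gt (Set.mem_Ioi.1 hσ))
  have h2 := ((riemannZeta_residue_one.comp h1).comp h0).norm
  filter_upwards [h2.eventually (Icc_mem_nhds (a := (1 / 2 : ℝ)) (b := 2) (by norm_num)
    (by norm_num)), eventually_gt_atTop (0 : ℝ)] with L hL hL0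
  simp only [Function.comp_apply, norm_mul] at hL
  rw [ofReal_add, ofReal_one, add_sub_cancel_left, Complex.norm_real,
    Real.norm_of_nonneg (by positivity), one_div_mul_eq_div] at hL
  rw [ofReal_add, ofReal_one]
  constructor
  · have := hL.1
    rw [le_div_iff₀ hL0] at this
    linarith
  · have := hL.2
    rw [div_le_iff₀ hL0] at this
    linarith

/-- The constant comparing `mass` with `exp (-gap)`. -/
def massConst : ℝ := 2 * Real.exp (2 * sqConst)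

theorem massConst_pos : 0 < massConst := by
  rw [massConst]
  positivity

theorem eventually_mass_gap :
    ∀ᶠ L : ℝ in atTop, ∀ a : ℕ →*₀ ℂ, (∀ n, ‖a n‖ ≤ 1) → ∀ t : ℝ,
      Real.exp (-gap a L t) ≤ massConst * mass a L t ∧
        mass a L t ≤ massConst * Real.exp (-gap a L t) := by
  filter_upwards [eventually_zeta_scale, eventually_gt_atTop (0 : ℝ)] with L hz hL a ha t
  obtain ⟨σ, hσ⟩ : ∃ σ, σ = 1 + 1 / L := ⟨_, rfl⟩
  have hσ1 : 1 < σ := hσ ▸ one_lt_scale hL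
  rw [← hσ] at hz
  obtain ⟨h0, h1⟩ := LSeries_ne_zero_and_log_norm ha (s := σ + t * I) (by simpa using hσ1)
  obtain ⟨g0, g1⟩ := LSeries_ne_zero_and_log_norm norm_one_apply_le (s := σ) (by simpa using hσ1)
  rw [LSeries_one_hom (by simpa using hσ1)] at g0 g1
  have hg : gap a L t = primeSum (1 : ℕ →*₀ ℂ) σ - primeSum a (σ + t * I) := by
    rw [gap, ← hσ]
    exact (hasSum_dev ha hσ1 t).tsum_eq
  have hF : 0 < ‖LSeries a (σ + t * I)‖ := norm_pos_iff.2 h0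
  have hZ : 0 < ‖riemannZeta (σ : ℂ)‖ := norm_pos_iff.2 g0
  rw [mass, ← hσ, massConst]
  constructor
  · have key : ‖riemannZeta (σ : ℂ)‖ * Real.exp (-gap a L t) ≤
        Real.exp (2 * sqConst) * ‖LSeries a (σ + t * I)‖ := by
      rw [← Real.exp_log hF, ← Real.exp_log hZ, ← Real.exp_add, ← Real.exp_add, Real.exp_le_exp]
      linarith [(abs_le.1 h1).1, (abs_le.1 g1).2]
    rw [mul_div_assoc', le_div_iff₀ hL]
    nlinarith [mul_le_mul_of_nonneg_right hz.1 (Real.exp_pos (-gap a L t)).le]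
  · have key : ‖LSeries a (σ + t * I)‖ ≤
        ‖riemannZeta (σ : ℂ)‖ * Real.exp (2 * sqConst) * Real.exp (-gap a L t) := by
      rw [← Real.exp_log hF, ← Real.exp_log hZ, ← Real.exp_add, ← Real.exp_add, Real.exp_le_exp]
      linarith [(abs_le.1 h1).2, (abs_le.1 g1).1]
    rw [div_le_iff₀ hL]
    refine key.trans (le_trans ?_ (le_of_eq (show 2 * L * Real.exp (2 * sqConst) *
      Real.exp (-gap a L t) = _ by ring)))
    gcongr
    exact hz.2

theorem eventually_mass_le : ∀ᶠ L : ℝ in atTop, ∀ a : ℕ →*₀ ℂ, (∀ n, ‖a n‖ ≤ 1) → ∀ t : ℝ,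
    mass a L t ≤ massConst := by
  filter_upwards [eventually_mass_gap, eventually_gt_atTop (0 : ℝ)] with L h hL a ha t
  refine (h a ha t).2.trans (mul_le_of_le_one_right massConst_pos.le ?_)
  exact Real.exp_le_one_iff.2 (neg_nonpos.2 (gap_nonneg ha hL t))

theorem dev_eq (a : ℕ →*₀ ℂ) (p : Nat.Primes) (σ t : ℝ) :
    dev a p σ t = ((p : ℕ) : ℝ) ^ (-σ) * (1 - (a p * ((p : ℕ) : ℂ) ^ (-(t * I))).re) := by
  rw [dev, twist_apply, neg_add, cpow_add _ _ (Nat.cast_ne_zero.2 p.2.ne_zero), ← ofReal_neg,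
    ← ofReal_natCast (p : ℕ), ← ofReal_cpow (Nat.cast_nonneg _), ofReal_natCast,
    ← mul_assoc, mul_right_comm, re_mul_ofReal]
  ring

theorem norm_mul_cpow_le {a : ℕ →*₀ ℂ} (ha : ∀ n, ‖a n‖ ≤ 1) (p : Nat.Primes) (t : ℝ) :
    ‖a p * ((p : ℕ) : ℂ) ^ (-(t * I))‖ ≤ 1 := by
  rw [norm_mul, norm_natCast_cpow_of_pos p.2.pos]
  simpa using ha p

theorem gap_mono {a : ℕ →*₀ ℂ} (ha : ∀ n, ‖a n‖ ≤ 1) {L L' : ℝ} (hL' : 0 < L') (h : L' ≤ L)
    (t : ℝ) : gap a L' t ≤ gap a L t := by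
  refine hasSum_le (fun p => ?_) (hasSum_gap ha hL' t) (hasSum_gap ha (hL'.trans_le h) t)
  rw [dev_eq, dev_eq]
  refine mul_le_mul_of_nonneg_right (Real.rpow_le_rpow_of_exponent_le
    (by exact_mod_cast p.2.one_le) ?_)
    (sub_nonneg.2 ((re_le_norm _).trans (norm_mul_cpow_le ha p t)))
  linarith [one_div_le_one_div_of_le hL' h]

theorem eventually_mass_mono : ∀ᶠ L' : ℝ in atTop, ∀ L, L' ≤ L → ∀ a : ℕ →*₀ ℂ,
    (∀ n, ‖a n‖ ≤ 1) → ∀ t : ℝ, mass a L t ≤ massConst ^ 2 * mass a L' t := by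
  obtain ⟨L₀, hL₀⟩ := eventually_atTop.1 (eventually_mass_gap.and (eventually_gt_atTop (0 : ℝ)))
  filter_upwards [eventually_ge_atTop L₀] with L' hL' L hL a ha t
  obtain ⟨h1, h2⟩ := hL₀ L' hL'
  obtain ⟨h3, -⟩ := hL₀ L (hL'.trans hL)
  have h4 : Real.exp (-gap a L t) ≤ Real.exp (-gap a L' t) :=
    Real.exp_le_exp.2 (neg_le_neg (gap_mono ha h2 hL t))
  calc mass a L t ≤ massConst * Real.exp (-gap a L t) := (h3 a ha t).2
    _ ≤ massConst * (massConst * mass a L' t) :=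
        mul_le_mul_of_nonneg_left (h4.trans (h1 a ha t).1) massConst_pos.le
    _ = _ := by ring

theorem one_sub_re_mul_conj_le {z w : ℂ} (hz : ‖z‖ ≤ 1) (hw : ‖w‖ ≤ 1) :
    1 - (z * starRingEnd ℂ w).re ≤ 2 * (1 - z.re) + 2 * (1 - w.re) := by
  have hz2 : z.re * z.re + z.im * z.im ≤ 1 := by
    rw [← normSq_apply, normSq_eq_norm_sq]
    exact pow_le_one₀ (norm_nonneg _) hz
  have hw2 : w.re * w.re + w.im * w.im ≤ 1 := by
    rw [← normSq_apply, normSq_eq_norm_sq]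
    exact pow_le_one₀ (norm_nonneg _) hw
  simp only [mul_re, conj_re, conj_im]
  nlinarith [sq_nonneg (z.re + w.re - 2), sq_nonneg (z.im + w.im)]

theorem gap_mul_conj_le {a b : ℕ →*₀ ℂ} (ha : ∀ n, ‖a n‖ ≤ 1) (hb : ∀ n, ‖b n‖ ≤ 1) {L : ℝ}
    (hL : 0 < L) (t t' : ℝ) :
    gap (a * conjHom b) L (t - t') ≤ 2 * gap a L t + 2 * gap b L t' := by
  refine hasSum_le (fun p => ?_) (hasSum_gap (norm_mul_hom_le ha (norm_conjHom_le hb)) hL _)
    (((hasSum_gap ha hL t).mul_left 2).add ((hasSum_gap hb hL t').mul_left 2))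
  rw [dev_eq, dev_eq, dev_eq, mul_left_comm, mul_left_comm 2, ← mul_add]
  refine mul_le_mul_of_nonneg_left ?_ (Real.rpow_nonneg (Nat.cast_nonneg _) _)
  refine le_of_eq_of_le ?_ (one_sub_re_mul_conj_le (norm_mul_cpow_le ha p t)
    (norm_mul_cpow_le hb p t'))
  have hc : starRingEnd ℂ (((p : ℕ) : ℂ) ^ (-(t' * I))) = ((p : ℕ) : ℂ) ^ (t' * I) := by
    have h := cpow_conj ((p : ℕ) : ℂ) (-(t' * I)) (by
      rw [natCast_arg]; exact Real.pi_ne_zero.symm)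
    rw [map_natCast] at h
    rw [← h]
    simp
  rw [mul_hom_apply, conjHom_apply, map_mul, hc,
    show (-(((t - t' : ℝ) : ℂ) * I)) = -(t * I) + t' * I by push_cast; ring,
    cpow_add _ _ (Nat.cast_ne_zero.2 p.2.ne_zero)]
  congr 2
  ring

/-- The triangle inequality. -/
theorem eventually_mass_mul_conj : ∀ᶠ L : ℝ in atTop, ∀ a b : ℕ →*₀ ℂ, (∀ n, ‖a n‖ ≤ 1) →
    (∀ n, ‖b n‖ ≤ 1) → ∀ t t' : ℝ,
      mass a L t ^ 2 * mass b L t' ^ 2 ≤ massConst ^ 5 * mass (a * conjHom b) L (t - t') := by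
  filter_upwards [eventually_mass_gap, eventually_gt_atTop (0 : ℝ)] with L h hL a b ha hb t t'
  have hc := norm_mul_hom_le ha (norm_conjHom_le hb)
  have h1 : Real.exp (-gap a L t) ^ 2 * Real.exp (-gap b L t') ^ 2 ≤
      Real.exp (-gap (a * conjHom b) L (t - t')) := by
    rw [← Real.exp_nat_mul, ← Real.exp_nat_mul, ← Real.exp_add]
    refine Real.exp_le_exp.2 ?_
    have := gap_mul_conj_le ha hb hL t t'
    push_cast
    linarith
  calc mass a L t ^ 2 * mass b L t' ^ 2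
      ≤ (massConst * Real.exp (-gap a L t)) ^ 2 * (massConst * Real.exp (-gap b L t')) ^ 2 :=
        mul_le_mul (pow_le_pow_left₀ (mass_nonneg a hL.le t) (h a ha t).2 2)
          (pow_le_pow_left₀ (mass_nonneg b hL.le t') (h b hb t').2 2) (by positivity)
          (by positivity)
    _ = massConst ^ 4 * (Real.exp (-gap a L t) ^ 2 * Real.exp (-gap b L t') ^ 2) := by ring
    _ ≤ massConst ^ 4 * (massConst * mass (a * conjHom b) L (t - t')) :=
        mul_le_mul_of_nonneg_left (h1.trans (h _ hc _).1) (pow_nonneg massConst_pos.le 4)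
    _ = _ := by ring

/-- Homomorphisms that agree at the primes prime to `q` have comparable distances. -/
theorem gap_le_add {a b : ℕ →*₀ ℂ} (ha : ∀ n, ‖a n‖ ≤ 1) (hb : ∀ n, ‖b n‖ ≤ 1) {q : ℕ}
    (hq : q ≠ 0) (h : ∀ p : ℕ, p.Prime → ¬p ∣ q → a p = b p) {L : ℝ} (hL : 0 < L) (t : ℝ) :
    gap a L t ≤ gap b L t + 2 * q := by
  classical
  obtain ⟨S, hS⟩ : ∃ S : Finset Nat.Primes, ∀ p : Nat.Primes, p ∈ S ↔ (p : ℕ) ∣ q :=
    ⟨q.divisors.subtype Nat.Prime, fun p => Finset.mem_subtype.trans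
      ⟨fun h => (Nat.mem_divisors.1 h).1, fun h => Nat.mem_divisors.2 ⟨h, hq⟩⟩⟩
  have hsum : HasSum (fun p : Nat.Primes => if p ∈ S then (1 : ℝ) else 0) (S.card : ℝ) := by
    have h1 := hasSum_sum_of_ne_finset_zero (s := S) (L := SummationFilter.unconditional _)
      (f := fun p : Nat.Primes => if p ∈ S then (1 : ℝ) else 0) fun p hp => if_neg hp
    rwa [Finset.sum_ite_mem, Finset.inter_self, Finset.sum_const, nsmul_eq_mul, mul_one] at h1
  have hcard : (S.card : ℝ) ≤ q := by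
    refine Nat.cast_le.2 (le_trans ?_ (Nat.card_divisors_le_self q))
    rw [← Finset.card_map (Function.Embedding.subtype Nat.Prime) (s := S)]
    refine Finset.card_le_card fun x hx => ?_
    obtain ⟨p, hp, rfl⟩ := Finset.mem_map.1 hx
    exact Nat.mem_divisors.2 ⟨(hS p).1 hp, hq⟩
  refine le_trans (hasSum_le (fun p => ?_) (hasSum_gap ha hL t)
    ((hasSum_gap hb hL t).add (hsum.mul_left 2))) (by linarith)
  rw [dev_eq, dev_eq]
  have hp1 : ((p : ℕ) : ℝ) ^ (-(1 + 1 / L)) ≤ 1 :=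
    Real.rpow_le_one_of_one_le_of_nonpos (by exact_mod_cast p.2.one_le)
      (by linarith [one_lt_scale hL])
  have h0 : (0 : ℝ) ≤ ((p : ℕ) : ℝ) ^ (-(1 + 1 / L)) := by positivity
  obtain ⟨ha1, ha2⟩ := abs_le.1 ((abs_re_le_norm _).trans (norm_mul_cpow_le ha p t))
  obtain ⟨hb1, hb2⟩ := abs_le.1 ((abs_re_le_norm _).trans (norm_mul_cpow_le hb p t))
  split_ifs with hp
  · nlinarith
  · rw [h p p.2 fun hd => hp ((hS p).2 hd), mul_zero, add_zero]

end FA.ErdosDisc
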