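import Fermat.Agent.ErdosDiscrepancy.TwistedMean
import Fermat.Agent.Halasz.Completely
import Fermat.Agent.ShortExpSums.Main

/-!
# Non-pretentious functions have cancelling long sums

The mass changes only by a constant between the scales `L / 2` and `2 L`, so by Halász's theorem
small mass of every `g χ` at heights up to `5 X` gives the cancellation of the long sums of
`g χ n n ^ (-it)`, hence, by the theorem of Matomäki, Radziwiłł and Tao, of the short exponential
sums of `g`.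
-/

set_option autoImplicit false

noncomputable section

namespace FA.ErdosDisc

open Filter Topology Complex FA.Halasz
open FA.ShortLiouville (Twist)
open FA.ShortExpSums (winSum)

theorem hasSum_rpow_prime {σ : ℝ} (hσ : 1 < σ) :
    HasSum (fun p : Nat.Primes => ((p : ℕ) : ℝ) ^ (-σ)) (primeSum (1 : ℕ →*₀ ℂ) σ) := by
  have h1 : Summable fun p : Nat.Primes => twist (1 : ℕ →*₀ ℂ) (σ : ℂ) p :=
    (summable_norm_twist norm_one_apply_le (by simpa using hσ)).of_norm.subtype _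
  refine (hasSum_re h1.hasSum).summable.hasSum.congr_fun fun p => ?_
  rw [twist_apply, one_apply_prime, one_mul, ← ofReal_neg, ← ofReal_natCast,
    ← ofReal_cpow (Nat.cast_nonneg _), ofReal_re]

/-- The distance grows by at most twice the mass of the primes between the scales. -/
theorem gap_le_gap_add {a : ℕ →*₀ ℂ} (ha : ∀ n, ‖a n‖ ≤ 1) {L L' : ℝ} (hL' : 0 < L')
    (h : L' ≤ L) (t : ℝ) :
    gap a L t ≤ gap a L' t + 2 * (primeSum (1 : ℕ →*₀ ℂ) ((1 + 1 / L : ℝ) : ℂ) -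
      primeSum (1 : ℕ →*₀ ℂ) ((1 + 1 / L' : ℝ) : ℂ)) := by
  refine hasSum_le (fun p => ?_) (hasSum_gap ha (hL'.trans_le h) t) ((hasSum_gap ha hL' t).add
    (((hasSum_rpow_prime (one_lt_scale (hL'.trans_le h))).sub
      (hasSum_rpow_prime (one_lt_scale hL'))).mul_left 2))
  rw [dev_eq, dev_eq]
  have h1 : ((p : ℕ) : ℝ) ^ (-(1 + 1 / L')) ≤ ((p : ℕ) : ℝ) ^ (-(1 + 1 / L)) :=
    Real.rpow_le_rpow_of_exponent_le (by exact_mod_cast p.2.one_le)
      (by linarith [one_div_le_one_div_of_le hL' h])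
  obtain ⟨h2, h3⟩ := abs_le.1 ((abs_re_le_norm _).trans (norm_mul_cpow_le ha p t))
  nlinarith

/-- **The mass at two comparable scales.** -/
theorem exists_mass_comparable : ∃ C : ℝ, 0 < C ∧ ∀ᶠ L : ℝ in atTop, ∀ L', L / 2 ≤ L' →
    L' ≤ 2 * L → ∀ a : ℕ →*₀ ℂ, (∀ n, ‖a n‖ ≤ 1) → ∀ t : ℝ,
      mass a L' t ≤ C * mass a L t := by
  obtain ⟨c, hc⟩ : ∃ c, c = 2 * (Real.log 8 + 2 * sqConst) := ⟨_, rfl⟩
  have hc0 : 0 ≤ c := by
    have : 0 ≤ sqConst := tsum_nonneg fun p => by positivity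
    have := Real.log_nonneg (show (1 : ℝ) ≤ 8 by norm_num)
    rw [hc]
    positivity
  refine ⟨massConst ^ 2 * Real.exp c, mul_pos (pow_pos massConst_pos 2) (Real.exp_pos _), ?_⟩
  obtain ⟨L₀, hL₀⟩ := eventually_atTop.1
    (eventually_mass_gap.and (eventually_zeta_scale.and (eventually_gt_atTop (0 : ℝ))))
  filter_upwards [eventually_ge_atTop (max L₀ (2 * L₀))] with L hL L' h1 h2 a ha t
  obtain ⟨hg, hz, hpos⟩ := hL₀ L (le_of_max_le_left hL)
  obtain ⟨hg', hz', hpos'⟩ := hL₀ L' (by linarith [le_of_max_le_right hL])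
  have key : gap a L t ≤ gap a L' t + c := by
    rcases le_total L L' with h | h
    · linarith [gap_mono ha hpos h t]
    refine (gap_le_gap_add ha hpos' h t).trans (add_le_add le_rfl ?_)
    obtain ⟨hn, hl⟩ := LSeries_ne_zero_and_log_norm norm_one_apply_le
      (s := ((1 + 1 / L : ℝ) : ℂ)) (by rw [ofReal_re]; exact one_lt_scale hpos)
    obtain ⟨hn', hl'⟩ := LSeries_ne_zero_and_log_norm norm_one_apply_le
      (s := ((1 + 1 / L' : ℝ) : ℂ)) (by rw [ofReal_re]; exact one_lt_scale hpos')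
    rw [LSeries_one_hom (by rw [ofReal_re]; exact one_lt_scale hpos)] at hl hn
    rw [LSeries_one_hom (by rw [ofReal_re]; exact one_lt_scale hpos')] at hl' hn'
    have h3 := Real.log_le_log (norm_pos_iff.2 hn) hz.2
    have h4 := Real.log_le_log (by positivity) hz'.1
    have h5 : Real.log (2 * L) ≤ Real.log 8 + Real.log (L' / 2) := by
      rw [← Real.log_mul (by norm_num) (by positivity)]
      exact Real.log_le_log (by positivity) (by linarith)
    rw [hc]
    linarith [abs_le.1 hl, abs_le.1 hl']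
  calc mass a L' t ≤ massConst * Real.exp (-gap a L' t) := (hg' a ha t).2
    _ ≤ massConst * (Real.exp c * Real.exp (-gap a L t)) := by
        rw [← Real.exp_add]
        exact mul_le_mul_of_nonneg_left (Real.exp_le_exp.2 (by linarith)) massConst_pos.le
    _ ≤ massConst * (Real.exp c * (massConst * mass a L t)) :=
        mul_le_mul_of_nonneg_left (mul_le_mul_of_nonneg_left (hg a ha t).1 (Real.exp_pos c).le)
          massConst_pos.le
    _ = _ := by ring

/-- A homomorphism bounded by `1` as a twist. -/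
def twistOfHom (g : ℕ →*₀ ℂ) (hg : ∀ n, ‖g n‖ ≤ 1) : Twist :=
  ⟨g, hg, map_mul g⟩

theorem LSeries_twist_I (a : ℕ →*₀ ℂ) (t : ℝ) (s : ℂ) :
    LSeries (twist a (t * I)) s = LSeries a (s + t * I) :=
  tsum_congr fun n => by
    rcases eq_or_ne n 0 with rfl | hn
    · simp
    · rw [LSeries.term_of_ne_zero hn, LSeries.term_of_ne_zero hn, twist_apply, cpow_neg,
        cpow_add _ _ (Nat.cast_ne_zero.2 hn)]
      field_simp

/-- **Halász's theorem as cancellation of the long sums**, uniformly in `g`. -/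
theorem exists_roughAt_of_mass {δ : ℝ} (hδ : 0 < δ) (W : ℕ) :
    ∃ η : ℝ, 0 < η ∧ ∀ᶠ X : ℕ in atTop, ∀ (g : ℕ →*₀ ℂ) (hg : ∀ n, ‖g n‖ ≤ 1),
      (∀ b : ℕ, 1 ≤ b → b ≤ W → ∀ χ : DirichletCharacter ℂ b, ∀ u : ℝ, |u| ≤ 5 * X →
        mass (twistHom g χ) (Real.log X) u ≤ η) → (twistOfHom g hg).RoughAt δ W X := by
  obtain ⟨κ, hκ, T, hT⟩ := exists_norm_partialSum_le hδ
  obtain ⟨C, hC, hcomp⟩ := exists_mass_comparable
  obtain ⟨N₀, hN₀⟩ := eventually_atTop.1 hT
  refine ⟨κ / C, div_pos hκ hC, ?_⟩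
  have hlog : Tendsto (fun X : ℕ => Real.log X) atTop atTop :=
    Real.tendsto_log_atTop.comp tendsto_natCast_atTop_atTop
  filter_upwards [eventually_ge_atTop 20, hlog.eventually hcomp,
    (tendsto_natCast_atTop_atTop (R := ℝ)).eventually_ge_atTop |T|,
    ((tendsto_rpow_atTop (show (0 : ℝ) < 0.95 by norm_num)).comp
      tendsto_natCast_atTop_atTop).eventually_ge_atTop (N₀ : ℝ)]
    with X hX hmass hXT hN g hg hsmall b hb hbW χ Y hY hY20 t ht
  simp only [Function.comp_apply] at hN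
  have hX20 : (20 : ℝ) ≤ X := Nat.ofNat_le_cast.2 hX
  obtain ⟨L, hLdef⟩ : ∃ L, L = Real.log (X : ℝ) := ⟨_, rfl⟩
  have hL0 : 0 < L := hLdef ▸ Real.log_pos (by linarith)
  have hY0 : (0 : ℝ) < Y := (Real.rpow_pos_of_pos (by linarith) _).trans_le hY
  have hY1 : L / 2 ≤ Real.log Y := by
    have := Real.log_le_log (Real.rpow_pos_of_pos (by linarith) _) hY
    rw [Real.log_rpow (by linarith), ← hLdef] at this
    linarith
  have hY2 : Real.log Y ≤ 2 * L := by
    rw [hLdef, show (2 : ℝ) * Real.log X = Real.log ((X : ℝ) * X) by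
      rw [Real.log_mul (by linarith) (by linarith)]; ring]
    refine Real.log_le_log hY0 ?_
    have h1 : (Y : ℝ) ≤ 20 * X := by exact_mod_cast hY20
    nlinarith
  have ha := norm_twistHom_le hg χ
  have hnear : SmallNear (twist (twistHom g χ) (t * I)) κ T Y := fun u hu => by
    rw [LSeries_twist_I, add_assoc, ← add_mul, ← ofReal_add]
    have h1 : mass (twistHom g χ) (Real.log Y) (u + t) ≤ κ := by
      refine (hmass _ (hLdef ▸ hY1) (hLdef ▸ hY2) _ ha _).trans ?_
      refine (mul_le_mul_of_nonneg_left (hsmall b hb hbW χ (u + t) ?_) hC.le).trans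
        (le_of_eq (mul_div_cancel₀ _ hC.ne'))
      linarith [abs_add_le u t, (abs_le.2 hu).trans (le_abs_self T)]
    rwa [mass, div_le_iff₀ (by linarith)] at h1
  have h := hN₀ Y (by exact_mod_cast hN.trans hY) _ (norm_twist_I_le ha t) hnear
  refine le_of_eq_of_le (congrArg norm (Finset.sum_congr rfl fun n hn => ?_)) h
  rw [twist_apply, twistHom_apply g χ (by have := (Finset.mem_Icc.1 hn).1; omega), mul_comm I]
  rfl

/-- **Short exponential sums of non-pretentious functions** (Matomäki, Radziwiłł, Tao). -/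
theorem exists_winSum_le_of_mass {ε : ℝ} (hε : 0 < ε) : ∃ (η : ℝ) (W H₀ X₀ : ℕ), 0 < η ∧
    ∀ g : ℕ →*₀ ℂ, (∀ n, ‖g n‖ ≤ 1) → ∀ (X h : ℕ) (α : ℝ), X₀ ≤ X → H₀ ≤ h → h ≤ X →
      (∀ b : ℕ, 1 ≤ b → b ≤ W → ∀ χ : DirichletCharacter ℂ b, ∀ u : ℝ, |u| ≤ 5 * X →
        mass (twistHom g χ) (Real.log X) u ≤ η) →
      ∑ m ∈ Finset.Ioc X (2 * X), ‖winSum g α h m‖ ^ 2 ≤ ε * X * (h : ℝ) ^ 2 := by
  obtain ⟨δ, W, H₀, X₀, hδ, hwin⟩ := ShortExpSums.exists_winSum_le hε
  obtain ⟨η, hη, hrough⟩ := exists_roughAt_of_mass hδ W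
  obtain ⟨X₁, hX₁⟩ := eventually_atTop.1 hrough
  exact ⟨η, W, H₀, max X₀ X₁, hη, fun g hg X h α hX hh hhX hsmall =>
    hwin (twistOfHom g hg) X h α (le_of_max_le_left hX) hh hhX
      (hX₁ X (le_of_max_le_right hX) g hg hsmall)⟩

end FA.ErdosDisc
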