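import Fermat.Agent.ErdosDiscrepancy.Mass
import Mathlib.NumberTheory.Harmonic.Bounds
import Mathlib.Analysis.Complex.Trigonometric
import Mathlib.Algebra.Order.Chebyshev

/-!
# The weights `n ^ (-1 - 1/L) / L`

They are nearly invariant under translations, so the characters `e (n ξ)` with separated
frequencies are nearly orthogonal, and windows of `g n n ^ (-it)` may be moved to the origin.
-/

set_option autoImplicit false

noncomputable section

namespace FA.ErdosDisc

open Filter Topology Complex Finset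

/-- `n ^ (-1 - 1/L) / L`. -/
def wt (L : ℝ) (n : ℕ) : ℝ := (n : ℝ) ^ (-(1 + 1 / L)) / L

theorem wt_zero {L : ℝ} (hL : 0 < L) : wt L 0 = 0 := by
  rw [wt, Nat.cast_zero, Real.zero_rpow (by linarith [one_lt_scale hL]), zero_div]

theorem wt_nonneg {L : ℝ} (hL : 0 ≤ L) (n : ℕ) : 0 ≤ wt L n :=
  div_nonneg (Real.rpow_nonneg n.cast_nonneg _) hL

theorem summable_wt {L : ℝ} (hL : 0 < L) : Summable (wt L) :=
  (Real.summable_nat_rpow.2 (by linarith [one_lt_scale hL])).div_const L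

theorem wt_succ_le {L : ℝ} (hL : 0 < L) {n : ℕ} (hn : 1 ≤ n) : wt L (n + 1) ≤ wt L n := by
  refine div_le_div_of_nonneg_right ?_ hL.le
  exact Real.rpow_le_rpow_of_nonpos (by exact_mod_cast hn) (by simp)
    (by linarith [one_lt_scale hL])

theorem eventually_tsum_wt_le : ∀ᶠ L : ℝ in atTop, ∑' n, wt L n ≤ 2 := by
  filter_upwards [eventually_zeta_scale, eventually_gt_atTop (0 : ℝ)] with L hz hL
  have hs := one_lt_scale hL
  have e : riemannZeta ((1 + 1 / L : ℝ) : ℂ) =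
      ((∑' n : ℕ, (n : ℝ) ^ (-(1 + 1 / L)) : ℝ) : ℂ) := by
    rw [← LSeries_one_eq_riemannZeta (by simpa using hs), LSeries, ofReal_tsum]
    refine tsum_congr fun n => ?_
    rcases eq_or_ne n 0 with rfl | hn
    · rw [LSeries.term_zero, Nat.cast_zero, Real.zero_rpow (by linarith), ofReal_zero]
    · rw [LSeries.term_of_ne_zero hn, Pi.one_apply, ofReal_cpow n.cast_nonneg, ofReal_natCast,
        ofReal_neg, cpow_neg, one_div]
  have h := hz.2
  rw [e, Complex.norm_real, Real.norm_of_nonneg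
    (tsum_nonneg fun n => Real.rpow_nonneg n.cast_nonneg _)] at h
  simp only [wt]
  rw [tsum_div_const, div_le_iff₀ hL]
  linarith

variable {L : ℝ}

theorem summable_wt_mul (hL : 0 < L) {F : ℕ → ℂ} {B : ℝ} (hF : ∀ n, ‖F n‖ ≤ B) :
    Summable fun n => (wt L n : ℂ) * F n :=
  Summable.of_norm_bounded ((summable_wt hL).mul_right B) fun n => by
    rw [norm_mul, Complex.norm_real, Real.norm_of_nonneg (wt_nonneg hL.le n)]
    exact mul_le_mul_of_nonneg_left (hF n) (wt_nonneg hL.le n)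

theorem norm_tsum_wt_mul_le (hL : 0 < L) {F : ℕ → ℂ} {B : ℝ} (hF : ∀ n, ‖F n‖ ≤ B) :
    ‖∑' n, (wt L n : ℂ) * F n‖ ≤ (∑' n, wt L n) * B :=
  tsum_of_norm_bounded ((summable_wt hL).hasSum.mul_right B) fun n => by
    rw [norm_mul, Complex.norm_real, Real.norm_of_nonneg (wt_nonneg hL.le n)]
    exact mul_le_mul_of_nonneg_left (hF n) (wt_nonneg hL.le n)

/-- **Translation invariance.** -/
theorem norm_shift_one_le (hL : 0 < L) {F : ℕ → ℂ} {B : ℝ} (hF : ∀ n, ‖F n‖ ≤ B) :
    ‖∑' n, (wt L n : ℂ) * F (n + 1) - ∑' n, (wt L n : ℂ) * F n‖ ≤ 2 * B / L := by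
  have hB : 0 ≤ B := (norm_nonneg _).trans (hF 0)
  have hw0 : ∀ n, 0 ≤ wt L n := fun n => wt_nonneg hL.le n
  have hs1 : Summable fun n => wt L (n + 1) := (summable_nat_add_iff 1).2 (summable_wt hL)
  have hd : Summable fun n => |wt L n - wt L (n + 1)| := ((summable_wt hL).sub hs1).abs
  have h1 : ∑' n, |wt L n - wt L (n + 1)| ≤ 2 / L := by
    refine Real.tsum_le_of_sum_range_le (fun n => abs_nonneg _) fun N => ?_
    rcases N with _ | N
    · simp [hL.le, div_nonneg]
    · rw [sum_range_succ', wt_zero hL, zero_sub, abs_neg, abs_of_nonneg (hw0 _),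
        sum_congr rfl fun i _ => abs_of_nonneg (sub_nonneg.2 (wt_succ_le hL (by omega :
          1 ≤ i + 1))), sum_range_sub' (fun i => wt L (i + 1)) N]
      have e : wt L 1 = 1 / L := by simp [wt]
      simp only [zero_add, e]
      have := hw0 (N + 1)
      rw [show (2 : ℝ) / L = 1 / L + 1 / L by ring]
      linarith
  have hG := summable_wt_mul hL (F := fun n => F (n + 1)) fun n => hF _
  have hG0 := summable_wt_mul hL hF
  rw [hG0.tsum_eq_zero_add, wt_zero hL, ofReal_zero, zero_mul, zero_add,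
    ← hG.tsum_sub ((summable_nat_add_iff 1).2 hG0)]
  refine (tsum_of_norm_bounded (hd.hasSum.mul_right B) fun n => ?_).trans ?_
  · rw [← sub_mul, ← ofReal_sub, norm_mul, Complex.norm_real, Real.norm_eq_abs]
    exact mul_le_mul_of_nonneg_left (hF _) (abs_nonneg _)
  · exact (mul_le_mul_of_nonneg_right h1 hB).trans (le_of_eq (by ring))

theorem norm_shift_le (hL : 0 < L) {F : ℕ → ℂ} {B : ℝ} (hF : ∀ n, ‖F n‖ ≤ B) (j : ℕ) :
    ‖∑' n, (wt L n : ℂ) * F (n + j) - ∑' n, (wt L n : ℂ) * F n‖ ≤ j * (2 * B / L) := by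
  induction j with
  | zero => simp
  | succ j ih =>
    have h := norm_shift_one_le hL (F := fun n => F (n + j)) (B := B) fun n => hF _
    rw [Nat.cast_succ, add_one_mul (j : ℝ)]
    refine le_trans ?_ (add_le_add ih h |>.trans_eq rfl)
    simp only [add_right_comm _ 1 j, ← add_assoc]
    rw [add_comm (‖_‖ : ℝ)]
    exact norm_sub_le_norm_sub_add_norm_sub _ _ _

theorem sum_wt_le (hL : 0 < L) (N : ℕ) :
    ∑ n ∈ range (N + 1), wt L n ≤ (1 + Real.log N) / L := by
  rw [sum_range_succ', wt_zero hL, add_zero]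
  refine le_trans (sum_le_sum (g := fun i : ℕ => ((i : ℝ) + 1)⁻¹ / L) fun i _ => ?_) ?_
  · refine div_le_div_of_nonneg_right ?_ hL.le
    rw [Nat.cast_add, Nat.cast_one, ← Real.rpow_neg_one]
    exact Real.rpow_le_rpow_of_exponent_le (by simp) (by linarith [one_lt_scale hL])
  · rw [← sum_div]
    refine div_le_div_of_nonneg_right (le_of_eq_of_le ?_ (harmonic_le_one_add_log N)) hL.le
    simp [harmonic]

/-- `e (ξ n)`. -/
def ef (ξ : ℝ) (n : ℕ) : ℂ := cexp (((2 * Real.pi * ξ * n : ℝ) : ℂ) * I)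

theorem norm_ef (ξ : ℝ) (n : ℕ) : ‖ef ξ n‖ = 1 :=
  norm_exp_ofReal_mul_I _

theorem ef_add (ξ : ℝ) (m n : ℕ) : ef ξ (m + n) = ef ξ m * ef ξ n := by
  rw [ef, ef, ef, ← Complex.exp_add]
  push_cast
  ring_nf

theorem ef_mul_ef (ξ η : ℝ) (n : ℕ) : ef ξ n * ef η n = ef (ξ + η) n := by
  rw [ef, ef, ef, ← Complex.exp_add]
  push_cast
  ring_nf

theorem conj_ef (ξ : ℝ) (n : ℕ) : starRingEnd ℂ (ef ξ n) = ef (-ξ) n := by
  rw [ef, ef, ← exp_conj, map_mul, conj_I, conj_ofReal]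
  push_cast
  ring_nf

theorem ef_zero (ξ : ℝ) : ef ξ 0 = 1 := by simp [ef]

theorem ef_neg_mul (ξ : ℝ) (n : ℕ) : ef (-ξ) n * ef ξ n = 1 := by
  rw [ef_mul_ef, neg_add_cancel]
  simp [ef]

theorem norm_ef_sum_le (hL : 0 < L) (η : ℝ) :
    ‖∑' n, (wt L n : ℂ) * ef η n‖ * ‖ef η 1 - 1‖ ≤ 2 / L := by
  have h := norm_shift_one_le hL (F := ef η) (B := 1) fun n => (norm_ef η n).le
  simp only [ef_add] at h
  rw [← norm_mul, mul_comm, sub_one_mul, ← tsum_mul_left]
  simpa [mul_comm, mul_left_comm, mul_assoc] using h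

/-- **The inequality of Bessel** for nearly orthogonal vectors. -/
theorem bessel (hL : 0 < L) {ι : Type*} [Fintype ι] {X : ℕ → ℂ} {e : ι → ℕ → ℂ} {a : ι → ℂ}
    {B η : ℝ} (hX : ∀ n, ‖X n‖ ≤ B) (he : ∀ i n, ‖e i n‖ ≤ 1)
    (ha : ∀ i, a i = ∑' n, (wt L n : ℂ) * (X n * starRingEnd ℂ (e i n))) (hη : 0 ≤ η)
    (hgram : ∀ i l, i ≠ l → ‖∑' n, (wt L n : ℂ) * (e i n * starRingEnd ℂ (e l n))‖ ≤ η)
    (hW : (∑' n, wt L n) + (Fintype.card ι : ℝ) * η ≤ 4) :
    (∑ i, ‖a i‖ ^ 2) / 4 ≤ ∑' n, wt L n * ‖X n‖ ^ 2 := by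
  classical
  have hB : 0 ≤ B := (norm_nonneg _).trans (hX 0)
  obtain ⟨A, hA⟩ : ∃ A, A = ∑ i, ‖a i‖ ^ 2 := ⟨_, rfl⟩
  obtain ⟨W, hW'⟩ : ∃ W, W = ∑' n, wt L n := ⟨_, rfl⟩
  have hW0 : 0 ≤ W := hW' ▸ tsum_nonneg fun n => wt_nonneg hL.le n
  obtain ⟨Y, hY⟩ : ∃ Y : ℕ → ℂ, Y = fun n => ∑ i, a i * e i n := ⟨_, rfl⟩
  have hYb : ∀ n, ‖Y n‖ ≤ ∑ i, ‖a i‖ := fun n => by
    rw [hY]
    exact (norm_sum_le _ _).trans (sum_le_sum fun i _ => by
      rw [norm_mul]
      exact mul_le_of_le_one_right (norm_nonneg _) (he i n))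
  have hXY : ∑' n, (wt L n : ℂ) * (X n * starRingEnd ℂ (Y n)) = (A : ℂ) := by
    have e1 : ∀ n, (wt L n : ℂ) * (X n * starRingEnd ℂ (Y n)) =
        ∑ i, starRingEnd ℂ (a i) * ((wt L n : ℂ) * (X n * starRingEnd ℂ (e i n))) := fun n => by
      simp only [hY, map_sum, map_mul, mul_sum]
      exact sum_congr rfl fun i _ => by ring
    rw [tsum_congr e1, Summable.tsum_finsetSum fun i _ =>
      (summable_wt_mul hL (B := B) fun n => by
        rw [norm_mul, norm_conj]
        exact (mul_le_of_le_one_right (norm_nonneg _) (he i n)).trans (hX n)).mul_left _, hA,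
      ofReal_sum]
    refine sum_congr rfl fun i _ => ?_
    rw [tsum_mul_left, ← ha, conj_mul', ofReal_pow]
  have hYY : (∑' n, (wt L n : ℂ) * (Y n * starRingEnd ℂ (Y n))).re ≤
      (W + Fintype.card ι * η) * A := by
    have e1 : ∀ n, (wt L n : ℂ) * (Y n * starRingEnd ℂ (Y n)) = ∑ i, ∑ l,
        (a i * starRingEnd ℂ (a l)) * ((wt L n : ℂ) * (e i n * starRingEnd ℂ (e l n))) :=
      fun n => by
        simp only [hY, map_sum, map_mul, mul_sum, sum_mul]
        rw [sum_comm]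
        exact sum_congr rfl fun i _ => sum_congr rfl fun l _ => by ring
    have hs : ∀ i l, Summable fun n => (a i * starRingEnd ℂ (a l)) *
        ((wt L n : ℂ) * (e i n * starRingEnd ℂ (e l n))) := fun i l =>
      (summable_wt_mul hL (B := 1) fun n => by
        rw [norm_mul, norm_conj]
        exact mul_le_one₀ (he i n) (norm_nonneg _) (he l n)).mul_left _
    rw [tsum_congr e1, Summable.tsum_finsetSum fun i _ => summable_sum fun l _ => hs i l]
    refine (re_le_norm _).trans ((norm_sum_le _ _).trans (le_trans (sum_le_sum (g := fun i =>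
      ∑ l, ‖a i‖ * ‖a l‖ * ((if i = l then W else 0) + η)) fun i _ => ?_) ?_))
    · rw [Summable.tsum_finsetSum fun l _ => hs i l]
      refine (norm_sum_le _ _).trans (sum_le_sum fun l _ => ?_)
      rw [tsum_mul_left, norm_mul, norm_mul, norm_conj]
      refine mul_le_mul_of_nonneg_left ?_ (by positivity)
      split_ifs with h
      · refine (norm_tsum_wt_mul_le hL (B := 1) fun n => ?_).trans (by rw [mul_one, hW']; linarith)
        rw [norm_mul, norm_conj]
        exact mul_le_one₀ (he i n) (norm_nonneg _) (he l n)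
      · exact (hgram i l h).trans (by linarith)
    · have hcs : (∑ i, ‖a i‖) ^ 2 ≤ (Fintype.card ι : ℝ) * A := by
        rw [hA, ← card_univ]
        exact sq_sum_le_card_mul_sum_sq
      simp only [mul_add, mul_ite, mul_zero, sum_add_distrib, sum_ite_eq, mem_univ, if_true,
        ← sum_mul, ← mul_sum, ← sq]
      rw [← hA]
      nlinarith [mul_le_mul_of_nonneg_right hcs hη]
  have hsX : Summable fun n => wt L n * ‖X n‖ ^ 2 :=
    ((summable_wt hL).mul_right (B ^ 2)).of_nonneg_of_le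
      (fun n => mul_nonneg (wt_nonneg hL.le n) (sq_nonneg _))
      fun n => mul_le_mul_of_nonneg_left (pow_le_pow_left₀ (norm_nonneg _) (hX n) 2)
        (wt_nonneg hL.le n)
  have hR : ∀ {F : ℕ → ℂ}, Summable F → HasSum (fun n => (F n).re) (∑' n, F n).re :=
    fun h => hasSum_re h.hasSum
  have h1 := hR (summable_wt_mul hL (F := fun n => X n * starRingEnd ℂ (Y n))
    (B := B * ∑ i, ‖a i‖) fun n => by
      rw [norm_mul, norm_conj]
      exact mul_le_mul (hX n) (hYb n) (norm_nonneg _) hB)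
  have h2 := hR (summable_wt_mul hL (F := fun n => Y n * starRingEnd ℂ (Y n))
    (B := (∑ i, ‖a i‖) * ∑ i, ‖a i‖) fun n => by
      rw [norm_mul, norm_conj]
      exact mul_le_mul (hYb n) (hYb n) (norm_nonneg _) (by positivity))
  rw [hXY, ofReal_re] at h1
  have h0 := ((hsX.hasSum.sub (h1.mul_left (1 / 2))).add (h2.mul_left (1 / 16))).nonneg fun n => by
    rw [re_ofReal_mul, re_ofReal_mul, mul_conj', ← ofReal_pow, ofReal_re, mul_re, conj_re, conj_im,
      ← normSq_eq_norm_sq, ← normSq_eq_norm_sq, normSq_apply, normSq_apply]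
    have hw := wt_nonneg hL.le n
    nlinarith [mul_nonneg hw (sq_nonneg ((X n).re - (Y n).re / 4)),
      mul_nonneg hw (sq_nonneg ((X n).im - (Y n).im / 4))]
  have hA0 : 0 ≤ A := hA ▸ sum_nonneg fun i _ => sq_nonneg _
  rw [← hW'] at hW
  rw [← hA]
  nlinarith [mul_le_mul_of_nonneg_right hW hA0]

/-- `n ^ (-it)`. -/
def osc (t : ℝ) (n : ℕ) : ℂ := (n : ℂ) ^ (-((t : ℂ) * I))

theorem norm_osc_le (t : ℝ) (n : ℕ) : ‖osc t n‖ ≤ 1 := by
  rcases Nat.eq_zero_or_pos n with rfl | hn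
  · rcases eq_or_ne t 0 with rfl | ht
    · simp [osc]
    · rw [osc, Nat.cast_zero, zero_cpow (by simp [ht])]
      simp
  · rw [osc, norm_natCast_cpow_of_pos hn]
    simp

theorem norm_osc_sub_le (t : ℝ) {n : ℕ} (hn : 1 ≤ n) (j : ℕ) :
    ‖osc t (n + j) - osc t n‖ ≤ |t| * (j / n) := by
  have hn0 : (0 : ℝ) < n := by exact_mod_cast hn
  obtain ⟨x, hx⟩ : ∃ x, x = -t * (Real.log (n + j : ℕ) - Real.log n) := ⟨_, rfl⟩
  have e : osc t (n + j) = osc t n * cexp (I * x) := by
    rw [osc, osc, cpow_def_of_ne_zero (Nat.cast_ne_zero.2 (by omega)),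
      cpow_def_of_ne_zero (Nat.cast_ne_zero.2 (by omega)), ← natCast_log, ← natCast_log,
      ← Complex.exp_add, hx]
    congr 1
    push_cast
    ring
  rw [e, ← mul_sub_one, norm_mul]
  refine (mul_le_of_le_one_left (norm_nonneg _) (norm_osc_le t n)).trans ?_
  refine Real.norm_exp_I_mul_ofReal_sub_one_le.trans ?_
  rw [Real.norm_eq_abs, hx, abs_mul, abs_neg]
  refine mul_le_mul_of_nonneg_left ?_ (abs_nonneg t)
  rw [← Real.log_div (Nat.cast_ne_zero.2 (by omega)) hn0.ne', abs_of_nonneg (Real.log_nonneg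
    ((one_le_div hn0).2 (by exact_mod_cast Nat.le_add_right n j)))]
  refine (Real.log_le_sub_one_of_pos (by positivity)).trans (le_of_eq ?_)
  push_cast
  field_simp
  ring

theorem sum_window (g : ℕ → ℂ) (n H : ℕ) :
    ∑ j ∈ Ioc n (n + H), g j = ∑ j ∈ Icc 1 H, g (n + j) := by
  rw [show Ioc n (n + H) = (Icc 1 H).map (addLeftEmbedding n) by
    rw [map_add_left_Icc]; ext; simp only [mem_Ioc, mem_Icc]; omega, sum_map]
  rfl

theorem norm_window_le {g : ℕ → ℂ} (hg : ∀ n, ‖g n‖ ≤ 1) (n H : ℕ) :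
    ‖∑ j ∈ Ioc n (n + H), g j‖ ≤ H := by
  refine (norm_sum_le _ _).trans ((sum_le_card_nsmul _ _ 1 fun j _ => hg j).trans ?_)
  simp

/-- **Windows move to the origin.** -/
theorem norm_window_sub_le (hL : 0 < L) {g : ℕ → ℂ} (hg : ∀ n, ‖g n‖ ≤ 1) (t ξ : ℝ) (H N : ℕ)
    (hN : 1 ≤ N) :
    ‖∑' n, (wt L n : ℂ) * ((∑ j ∈ Ioc n (n + H), g j) * osc t n * ef (-ξ) n) -
        (∑ j ∈ Icc 1 H, ef ξ j) * ∑' n, (wt L n : ℂ) * (g n * osc t n * ef (-ξ) n)‖ ≤
      H * (2 * (1 + Real.log N) / L + (∑' n, wt L n) * (|t| * (H / N)) + H * (2 / L)) := by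
  obtain ⟨G, hG⟩ : ∃ G : ℕ → ℂ, G = fun n => g n * osc t n * ef (-ξ) n := ⟨_, rfl⟩
  have hG1 : ∀ n, ‖G n‖ ≤ 1 := fun n => by
    rw [hG, norm_mul, norm_mul, norm_ef, mul_one]
    exact mul_le_one₀ (hg n) (norm_nonneg _) (norm_osc_le t n)
  have hb : ∀ j n, ‖g (n + j) * osc t n * ef (-ξ) n‖ ≤ 1 := fun j n => by
    rw [norm_mul, norm_mul, norm_ef, mul_one]
    exact mul_le_one₀ (hg _) (norm_nonneg _) (norm_osc_le t n)
  simp only [sum_window, sum_mul, mul_sum]
  rw [Summable.tsum_finsetSum fun j _ => summable_wt_mul hL (hb j), ← sum_sub_distrib]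
  refine (norm_sum_le _ _).trans ((sum_le_card_nsmul _ _ _ fun j hj => ?_).trans_eq
    (by rw [Nat.card_Icc, Nat.add_sub_cancel, nsmul_eq_mul]))
  rw [mem_Icc] at hj
  have hjH : (j : ℝ) ≤ H := by exact_mod_cast hj.2
  have hG1' : ∀ n, ‖G (n + j)‖ ≤ 1 := fun n => hG1 _
  refine (norm_sub_le_norm_sub_add_norm_sub _
    (ef ξ j * ∑' n, (wt L n : ℂ) * G (n + j)) _).trans (add_le_add ?_ ?_)
  · rw [← tsum_mul_left, ← (summable_wt_mul hL (hb j)).tsum_sub
      ((summable_wt_mul hL hG1').mul_left _)]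
    obtain ⟨c, hc⟩ : ∃ c : ℕ → ℝ, c = fun n => |t| * ((H : ℝ) / N) * wt L n +
        if n ∈ range (N + 1) then 2 * wt L n else 0 := ⟨_, rfl⟩
    have hsum : HasSum c (|t| * ((H : ℝ) / N) * (∑' n, wt L n) +
        ∑ n ∈ range (N + 1), 2 * wt L n) := by
      rw [hc]
      refine ((summable_wt hL).hasSum.mul_left _).add ?_
      have h := hasSum_sum_of_ne_finset_zero (s := range (N + 1))
        (L := SummationFilter.unconditional _)
        (f := fun n => if n ∈ range (N + 1) then 2 * wt L n else (0 : ℝ)) fun n hn => if_neg hn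
      rwa [sum_ite_mem, inter_self] at h
    refine (tsum_of_norm_bounded hsum fun n => ?_).trans ?_
    · have e : (wt L n : ℂ) * (g (n + j) * osc t n * ef (-ξ) n) -
          ef ξ j * ((wt L n : ℂ) * G (n + j)) =
          (wt L n : ℂ) * ((osc t n - osc t (n + j)) * (g (n + j) * ef (-ξ) n)) := by
        rw [hG]
        simp only
        rw [ef_add]
        linear_combination -((wt L n : ℂ) * g (n + j) * osc t (n + j) * ef (-ξ) n) *
          ef_neg_mul ξ j
      rw [e, norm_mul, Complex.norm_real, Real.norm_of_nonneg (wt_nonneg hL.le n), norm_mul,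
        norm_mul, norm_ef, mul_one, hc]
      have hw := wt_nonneg hL.le n
      have hd : ‖osc t n - osc t (n + j)‖ * ‖g (n + j)‖ ≤ ‖osc t (n + j) - osc t n‖ := by
        rw [norm_sub_rev]
        exact mul_le_of_le_one_right (norm_nonneg _) (hg _)
      refine (mul_le_mul_of_nonneg_left hd hw).trans ?_
      simp only
      split_ifs with hn
      · have h0 : 0 ≤ |t| * ((H : ℝ) / N) * wt L n := by positivity
        have h2 : ‖osc t (n + j) - osc t n‖ ≤ 2 :=
          (norm_sub_le _ _).trans (by linarith [norm_osc_le t (n + j), norm_osc_le t n])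
        nlinarith
      · rw [Finset.mem_range, not_lt] at hn
        rw [add_zero, mul_comm _ (wt L n)]
        refine mul_le_mul_of_nonneg_left ((norm_osc_sub_le t (by omega) j).trans ?_) hw
        refine mul_le_mul_of_nonneg_left (div_le_div₀ (Nat.cast_nonneg _) hjH
          (by exact_mod_cast hN) (by exact_mod_cast (by omega : N ≤ n))) (abs_nonneg t)
    · rw [← mul_sum, add_comm]
      refine add_le_add ?_ (le_of_eq (by ring))
      rw [mul_div_assoc]
      exact mul_le_mul_of_nonneg_left (sum_wt_le hL N) zero_le_two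
  · rw [← tsum_mul_left, tsum_mul_left, ← mul_sub, norm_mul, norm_ef, one_mul]
    refine le_trans ?_ ((norm_shift_le hL hG1 j).trans (mul_le_mul_of_nonneg_right hjH
      (by positivity)) |>.trans_eq (by ring))
    simp only [hG]
    rfl

end FA.ErdosDisc
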