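import Fermat.Agent.ErdosDiscrepancy.LBound
import Fermat.Agent.ErdosDiscrepancy.Weights
import Mathlib.NumberTheory.DirichletCharacter.GaussSum
import Mathlib.NumberTheory.DirichletCharacter.Orthogonality
import Mathlib.Analysis.Fourier.ZMod

/-!
# The mean of `g n n ^ (-it) e (-n / q ^ (i + 1))`

Split by `d = (n, Q)` and expand in characters of modulus `D = Q / d`. If `g` pretends to be
`χ⁻¹ n ^ (it)`, `χ` primitive of modulus `q`, only the character induced by `χ` matters and its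
coefficient is zero unless `D = q`, so one term is left and the mean has size `q ^ (-i)`.
-/

set_option autoImplicit false

noncomputable section

namespace FA.ErdosDisc

open Filter Topology Complex Finset DirichletCharacter

variable {q D : ℕ}

/-- `e (-m / D)` at `m` prime to `D`. -/
def pureFn (D m : ℕ) : ℂ := if m.Coprime D then ef (-(1 / D)) m else 0

theorem norm_pureFn_le (D m : ℕ) : ‖pureFn D m‖ ≤ 1 := by
  rw [pureFn]
  split_ifs
  · exact (norm_ef _ _).le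
  · simp

/-- The coefficient of `ψ` in `e (-m / D)`. -/
def tcoef [NeZero D] (ψ : DirichletCharacter ℂ D) : ℂ :=
  (D.totient : ℂ)⁻¹ * ∑ b : ZMod D, ψ⁻¹ b * ZMod.stdAddChar (-b)

theorem ef_eq_stdAddChar [NeZero D] (m : ℕ) :
    ef (-(1 / D)) m = ZMod.stdAddChar (-(m : ZMod D)) := by
  rw [ef, show -(m : ZMod D) = ((-(m : ℤ) : ℤ) : ZMod D) by push_cast; rfl, ZMod.stdAddChar_coe]
  congr 1
  push_cast
  ring

theorem pureFn_eq_sum [NeZero D] (m : ℕ) :
    pureFn D m = ∑ ψ : DirichletCharacter ℂ D, tcoef ψ * ψ (m : ZMod D) := by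
  have key : ∀ b : ZMod D, ∑ ψ : DirichletCharacter ℂ D, ψ⁻¹ b * ψ (m : ZMod D) =
      if IsUnit b then (if b = (m : ZMod D) then (D.totient : ℂ) else 0) else 0 := by
    intro b
    by_cases hb : IsUnit b
    · rw [if_pos hb, ← sum_char_inv_mul_char_eq ℂ hb (m : ZMod D)]
      refine sum_congr rfl fun ψ _ => ?_
      congr 1
      obtain ⟨v, rfl⟩ := hb
      rw [MulChar.inv_apply, Ring.inverse_unit, ZMod.inv_coe_unit]
    · rw [if_neg hb]
      exact sum_eq_zero fun ψ _ => by rw [MulChar.map_nonunit _ hb, zero_mul]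
  calc pureFn D m = (D.totient : ℂ)⁻¹ * ∑ b : ZMod D, ZMod.stdAddChar (-b) *
        (if IsUnit b then (if b = (m : ZMod D) then (D.totient : ℂ) else 0) else 0) := by
        rw [sum_eq_single (m : ZMod D) (fun b _ hb => by rw [if_neg hb]; simp) (by simp),
          if_pos rfl, pureFn]
        by_cases h : m.Coprime D
        · rw [if_pos h, if_pos ((ZMod.isUnit_iff_coprime m D).2 h), ef_eq_stdAddChar]
          field_simp [(Nat.cast_ne_zero.2 (Nat.totient_pos.2 (NeZero.pos D)).ne' :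
            (D.totient : ℂ) ≠ 0)]
        · rw [if_neg h, if_neg fun hu => h ((ZMod.isUnit_iff_coprime m D).1 hu)]
          ring
    _ = _ := by
        simp only [← key, tcoef, mul_sum, sum_mul]
        rw [sum_comm]
        exact sum_congr rfl fun ψ _ => sum_congr rfl fun b _ => by ring

theorem norm_tcoef_le [NeZero D] (ψ : DirichletCharacter ℂ D) : ‖tcoef ψ‖ ≤ D := by
  rw [tcoef, norm_mul, norm_inv, Complex.norm_natCast]
  refine le_trans (mul_le_of_le_one_left (norm_nonneg _) (inv_le_one_of_one_le₀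
    (by exact_mod_cast Nat.totient_pos.2 (NeZero.pos D)))) ?_
  refine (norm_sum_le _ _).trans ((sum_le_card_nsmul _ _ 1 fun b _ => ?_).trans
    (by simp [ZMod.card]))
  rw [norm_mul]
  exact mul_le_one₀ (ψ⁻¹.norm_le_one _) (norm_nonneg _)
    (le_of_eq (AddChar.norm_apply _ _))

theorem changeLevel_eval [NeZero D] (χ : DirichletCharacter ℂ q) (h : q ∣ D) (n : ℕ) :
    changeLevel h χ (n : ZMod D) = if n.Coprime D then χ (n : ZMod q) else 0 := by
  split_ifs with hn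
  · have := changeLevel_eq_cast_of_dvd χ h (ZMod.unitOfCoprime n hn)
    simpa [ZMod.cast_natCast h] using this
  · exact MulChar.map_nonunit _ fun hu => hn ((ZMod.isUnit_iff_coprime n D).1 hu)

/-- With the same primes in the two moduli `changeLevel` does not change the values. -/
theorem changeLevel_eval_pow [NeZero q] [NeZero D] (χ : DirichletCharacter ℂ q) (h : q ∣ D)
    {k : ℕ} (hD : D ∣ q ^ k) (n : ℕ) : changeLevel h χ (n : ZMod D) = χ (n : ZMod q) := by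
  rw [changeLevel_eval χ h]
  split_ifs with hn
  · rfl
  · exact (MulChar.map_nonunit _ fun hu => hn (((((ZMod.isUnit_iff_coprime n q).1 hu).pow_right
      k).coprime_dvd_right hD))).symm

theorem tcoef_changeLevel_eq_zero [NeZero q] [NeZero D] (χ : DirichletCharacter ℂ q) (h : q ∣ D)
    (hne : q ≠ D) {k : ℕ} (hD : D ∣ q ^ k) : tcoef (changeLevel h χ) = 0 := by
  rw [tcoef, mul_eq_zero]
  right
  obtain ⟨S, hS⟩ : ∃ S, S = ∑ b : ZMod D, (changeLevel h χ)⁻¹ b * ZMod.stdAddChar (-b) :=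
    ⟨_, rfl⟩
  rw [← hS]
  have hper : ∀ b : ZMod D, (changeLevel h χ)⁻¹ (b + q) = (changeLevel h χ)⁻¹ b := by
    intro b
    rw [← map_inv]
    obtain ⟨n, rfl⟩ : ∃ n : ℕ, b = (n : ZMod D) := ⟨b.val, (ZMod.natCast_zmod_val b).symm⟩
    rw [← Nat.cast_add, changeLevel_eval_pow _ h hD, changeLevel_eval_pow _ h hD, Nat.cast_add,
      ZMod.natCast_self, add_zero]
  have hS2 : S = ZMod.stdAddChar (-(q : ZMod D)) * S := by
    conv_lhs => rw [hS, ← Equiv.sum_comp (Equiv.addRight (q : ZMod D))]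
    rw [hS, mul_sum]
    refine sum_congr rfl fun b _ => ?_
    rw [Equiv.coe_addRight, hper, neg_add, AddChar.map_add_eq_mul]
    ring
  have hq : ZMod.stdAddChar (-(q : ZMod D)) ≠ 1 := fun h1 => by
    rw [← AddChar.map_zero_eq_one (ZMod.stdAddChar (N := D))] at h1
    have h2 := ZMod.injective_stdAddChar h1
    rw [neg_eq_zero, ZMod.natCast_eq_zero_iff] at h2
    exact hne (Nat.dvd_antisymm h h2)
  by_contra hS0
  exact hq (mul_right_cancel₀ hS0 (by rw [one_mul]; exact hS2.symm))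

theorem tcoef_ne_zero [NeZero q] {χ : DirichletCharacter ℂ q} (hχ : χ.IsPrimitive) :
    tcoef χ ≠ 0 := by
  have hinv : χ⁻¹.IsPrimitive := by
    refine (isPrimitive_def _).2 (Nat.dvd_antisymm (conductor_dvd_level _) ?_)
    have h := conductor_zpow_dvd χ⁻¹ (-1)
    rwa [zpow_neg_one, inv_inv, (isPrimitive_def _).1 hχ] at h
  intro h
  rw [tcoef, mul_eq_zero, inv_eq_zero, Nat.cast_eq_zero] at h
  have h1 : ∑ b : ZMod q, χ⁻¹ b * ZMod.stdAddChar (-b) = 0 :=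
    h.resolve_left (Nat.totient_pos.2 (NeZero.pos q)).ne'
  have h2 : gaussSum χ⁻¹ (ZMod.stdAddChar.mulShift (-1)) = 0 := by
    rw [← h1, gaussSum]
    exact sum_congr rfl fun b _ => by rw [AddChar.mulShift_apply, neg_one_mul]
  rw [gaussSum_mulShift_of_isPrimitive _ hinv, inv_inv] at h2
  have h3 : gaussSum χ⁻¹ (ZMod.stdAddChar (N := q)) = 0 :=
    (mul_eq_zero.1 h2).resolve_left fun h4 => by
      have h5 : χ (-1) * χ (-1) = 1 := by rw [← map_mul, neg_one_mul, neg_neg, map_one]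
      rw [h4, zero_mul] at h5
      exact zero_ne_one h5
  have h4 : ZMod.dft (⇑χ⁻¹) = 0 := funext fun k => by
    rw [fourierTransform_eq_gaussSum_mulShift, gaussSum_mulShift_of_isPrimitive _ hinv, h3,
      mul_zero, Pi.zero_apply]
  have h5 := congrFun ((LinearEquiv.map_eq_zero_iff _).1 h4) 1
  rw [map_one, Pi.zero_apply] at h5
  exact one_ne_zero h5

/-- `g χ`. -/
def twistHom (g : ℕ →*₀ ℂ) (χ : DirichletCharacter ℂ q) : ℕ →*₀ ℂ := g * charHom χ

theorem twistHom_apply (g : ℕ →*₀ ℂ) (χ : DirichletCharacter ℂ q) {n : ℕ} (hn : n ≠ 0) :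
    twistHom g χ n = g n * χ n := by
  rw [twistHom, mul_hom_apply, charHom_apply χ hn]

theorem norm_twistHom_le {g : ℕ →*₀ ℂ} (hg : ∀ n, ‖g n‖ ≤ 1) (χ : DirichletCharacter ℂ q)
    (n : ℕ) : ‖twistHom g χ n‖ ≤ 1 :=
  norm_mul_hom_le hg (norm_charHom_le χ) n

theorem norm_le_one_of_unimodular {g : ℕ →*₀ ℂ} (hg : ∀ n, n ≠ 0 → ‖g n‖ = 1) (n : ℕ) :
    ‖g n‖ ≤ 1 := by
  rcases eq_or_ne n 0 with rfl | hn
  · simp
  · exact (hg n hn).le

/-- A character that is not induced by the pretentious one has no mass. -/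
theorem eventually_mass_other_le [NeZero q] [NeZero D] {χ : DirichletCharacter ℂ q}
    (hχ : χ.IsPrimitive) {δ η : ℝ} (hδ : 0 < δ) (hη : 0 < η) :
    ∀ᶠ L : ℝ in atTop, ∀ g : ℕ →*₀ ℂ, (∀ n, n ≠ 0 → ‖g n‖ = 1) → ∀ t : ℝ,
      δ ≤ mass (twistHom g χ) L t → ∀ ψ : DirichletCharacter ℂ D,
        (∀ h : q ∣ D, ψ ≠ changeLevel h χ) → mass (twistHom g ψ) L t ≤ η := by
  have : NeZero (q * D) := ⟨mul_ne_zero (NeZero.ne q) (NeZero.ne D)⟩
  have hε : 0 < η ^ 2 * δ ^ 2 / massConst ^ 5 :=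
    div_pos (by positivity) (pow_pos massConst_pos _)
  filter_upwards [eventually_mass_char_le (q * D) hε, eventually_mass_mul_conj,
    eventually_gt_atTop (0 : ℝ)] with L hsmall htri hL g hg t hδt ψ hψ
  obtain ⟨Ψ, hΨ⟩ : ∃ Ψ : DirichletCharacter ℂ (q * D),
      Ψ = changeLevel (dvd_mul_right q D) χ * changeLevel (dvd_mul_left D q) ψ⁻¹ := ⟨_, rfl⟩
  have hne : Ψ ≠ 1 := by
    intro h1
    rw [hΨ, map_inv, mul_inv_eq_one] at h1
    have hc := congrArg conductor h1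
    rw [conductor_changeLevel, conductor_changeLevel, (isPrimitive_def _).1 hχ] at hc
    have hqD : q ∣ D := hc ▸ conductor_dvd_level ψ
    refine hψ hqD (changeLevel_injective (dvd_mul_left D q) ?_)
    rw [← h1, ← changeLevel_trans]
  have heq : mass (twistHom g χ * conjHom (twistHom g ψ)) L (t - t) = mass (charHom Ψ) L 0 := by
    rw [sub_self]
    refine mass_congr (fun n hn => ?_) L 0
    rw [mul_hom_apply, conjHom_apply, twistHom_apply g χ hn, twistHom_apply g ψ hn,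
      charHom_apply Ψ hn, map_mul, hΨ, MulChar.mul_apply, changeLevel_eval, changeLevel_eval,
      show starRingEnd ℂ (ψ (n : ZMod D)) = ψ⁻¹ (n : ZMod D) from MulChar.star_apply' ψ _]
    have h1 : g n * starRingEnd ℂ (g n) = 1 := by
      rw [mul_conj', hg n hn]
      simp
    split_ifs with hc
    · linear_combination (χ (n : ZMod q) * ψ⁻¹ (n : ZMod D)) * h1
    · rw [mul_zero]
      rw [Nat.coprime_mul_iff_right, not_and_or] at hc
      rcases hc with hc | hc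
      · rw [MulChar.map_nonunit χ fun hu => hc ((ZMod.isUnit_iff_coprime n q).1 hu)]
        ring
      · rw [MulChar.map_nonunit ψ⁻¹ fun hu => hc ((ZMod.isUnit_iff_coprime n D).1 hu)]
        ring
  have hg1 := norm_le_one_of_unimodular hg
  have h := htri (twistHom g χ) (twistHom g ψ) (norm_twistHom_le hg1 χ) (norm_twistHom_le hg1 ψ) t t
  rw [heq] at h
  have h2 := hsmall Ψ 0 (by rw [abs_zero]; exact (Real.exp_pos _).le) (Or.inl hne)
  rw [le_div_iff₀ (pow_pos massConst_pos _)] at h2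
  have hm := mass_nonneg (twistHom g ψ) hL.le t
  refine (sq_le_sq₀ hm hη.le).1 (le_of_mul_le_mul_right (a := δ ^ 2) ?_ (by positivity))
  have h3 : mass (twistHom g ψ) L t ^ 2 * δ ^ 2 ≤
      mass (twistHom g χ) L t ^ 2 * mass (twistHom g ψ) L t ^ 2 := by
    rw [mul_comm]
    exact mul_le_mul_of_nonneg_right (pow_le_pow_left₀ hδ.le hδt 2) (sq_nonneg _)
  linarith

/-- `L (g · pureFn D) / L`. -/
def part (g : ℕ → ℂ) (D : ℕ) (L t : ℝ) : ℂ :=
  LSeries (fun m => g m * pureFn D m) (((1 + 1 / L : ℝ) : ℂ) + t * I) / L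

theorem part_eq_sum [NeZero D] {g : ℕ →*₀ ℂ} (hg : ∀ n, ‖g n‖ ≤ 1) {L : ℝ} (hL : 0 < L)
    (t : ℝ) : part g D L t = ∑ ψ : DirichletCharacter ℂ D,
      tcoef ψ * (LSeries (twistHom g ψ) (((1 + 1 / L : ℝ) : ℂ) + t * I) / L) := by
  obtain ⟨s, hs⟩ : ∃ s : ℂ, s = ((1 + 1 / L : ℝ) : ℂ) + t * I := ⟨_, rfl⟩
  have hre : 1 < s.re := by simpa [hs] using one_lt_scale hL
  rw [part, ← hs, LSeries_congr (g := ∑ ψ : DirichletCharacter ℂ D,
    tcoef ψ • ⇑(twistHom g ψ)) (fun {n} hn => ?_) s, LSeries_sum fun ψ _ =>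
      (LSeriesSummable_of_bounded_of_one_lt_re (fun n _ => norm_twistHom_le hg ψ n) hre).smul _,
    sum_div]
  · exact sum_congr rfl fun ψ _ => by rw [LSeries_smul, mul_div_assoc]
  · simp only [Finset.sum_apply, Pi.smul_apply, smul_eq_mul, pureFn_eq_sum, mul_sum,
      twistHom_apply g _ hn]
    exact sum_congr rfl fun ψ _ => by ring

theorem ef_eq_sum_divisors {Q : ℕ} (hQ : Q ≠ 0) (n : ℕ) :
    ef (-(1 / Q)) n = ∑ d ∈ Q.divisors, if d ∣ n then pureFn (Q / d) (n / d) else 0 := by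
  have hg : 0 < n.gcd Q := Nat.gcd_pos_of_pos_right n (Nat.pos_of_ne_zero hQ)
  rw [sum_eq_single (n.gcd Q)]
  · rw [if_pos (Nat.gcd_dvd_left n Q), pureFn, if_pos (Nat.coprime_div_gcd_div_gcd hg), ef, ef,
      Nat.cast_div (Nat.gcd_dvd_right n Q) (Nat.cast_ne_zero.2 hg.ne'),
      Nat.cast_div (Nat.gcd_dvd_left n Q) (Nat.cast_ne_zero.2 hg.ne')]
    congr 3
    have : (Q : ℝ) ≠ 0 := Nat.cast_ne_zero.2 hQ
    have : ((n.gcd Q : ℕ) : ℝ) ≠ 0 := Nat.cast_ne_zero.2 hg.ne'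
    field_simp
  · intro d hd hne
    rw [Nat.mem_divisors] at hd
    split_ifs with h
    · rw [pureFn, if_neg fun hc => hne ?_]
      obtain ⟨a, rfl⟩ := h
      obtain ⟨b, rfl⟩ := hd.1
      have hd0 : 0 < d := Nat.pos_of_ne_zero (left_ne_zero_of_mul hQ)
      rw [Nat.mul_div_cancel_left _ hd0, Nat.mul_div_cancel_left _ hd0] at hc
      rw [Nat.gcd_mul_left, hc.gcd_eq_one, mul_one]
    · rfl
  · intro h
    exact absurd (Nat.mem_divisors.2 ⟨Nat.gcd_dvd_right n Q, hQ⟩) h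

theorem tsum_twisted_eq {g : ℕ →*₀ ℂ} (hg : ∀ n, ‖g n‖ ≤ 1) {L : ℝ} (hL : 0 < L) (t : ℝ)
    {Q : ℕ} (hQ : Q ≠ 0) :
    ∑' n, (wt L n : ℂ) * (g n * osc t n * ef (-(1 / Q)) n) =
      ∑ d ∈ Q.divisors, g d * (d : ℂ) ^ (-(((1 + 1 / L : ℝ) : ℂ) + t * I)) *
        part g (Q / d) L t := by
  obtain ⟨s, hs⟩ : ∃ s : ℂ, s = ((1 + 1 / L : ℝ) : ℂ) + t * I := ⟨_, rfl⟩
  have hre : 1 < s.re := by simpa [hs] using one_lt_scale hL
  rw [← hs]
  have e1 : ∀ n, (wt L n : ℂ) * (g n * osc t n * ef (-(1 / Q)) n) =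
      LSeries.term (fun n => g n * ef (-(1 / Q)) n) s n / (L : ℂ) := by
    intro n
    rcases eq_or_ne n 0 with rfl | hn
    · simp
    · rw [LSeries.term_of_ne_zero hn, wt, osc, hs, ofReal_div, ofReal_cpow n.cast_nonneg,
        ofReal_natCast, ofReal_neg, cpow_neg, cpow_neg, cpow_add _ _ (Nat.cast_ne_zero.2 hn)]
      field_simp
  rw [tsum_congr e1, tsum_div_const]
  change LSeries _ s / _ = _
  obtain ⟨F, hF⟩ : ∃ F : ℕ → ℕ → ℂ, F = fun d n =>
      g n * (if d ∣ n then pureFn (Q / d) (n / d) else 0) := ⟨_, rfl⟩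
  have hFs : ∀ d, LSeriesSummable (F d) s := fun d =>
    LSeriesSummable_of_bounded_of_one_lt_re (m := 1) (fun n _ => by
      rw [hF, norm_mul]
      refine mul_le_one₀ (hg n) (norm_nonneg _) ?_
      split_ifs
      · exact norm_pureFn_le _ _
      · simp) hre
  rw [LSeries_congr (g := ∑ d ∈ Q.divisors, F d) (fun {n} _ => by
    rw [ef_eq_sum_divisors hQ, Finset.sum_apply, mul_sum, hF]) s, LSeries_sum fun d _ => hFs d,
    sum_div]
  refine sum_congr rfl fun d hd => ?_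
  have hd0 : 0 < d := Nat.pos_of_mem_divisors hd
  rw [part, ← hs, ← mul_div_assoc]
  congr 1
  rw [LSeries, LSeries, ← tsum_mul_left]
  refine (Function.Injective.tsum_eq (f := LSeries.term (F d) s) (g := fun m => d * m)
    (fun a b h => Nat.eq_of_mul_eq_mul_left hd0 h) fun n hn => ?_).symm.trans
    (tsum_congr fun m => ?_)
  · rw [Function.mem_support] at hn
    rcases eq_or_ne n 0 with rfl | hn0
    · simp at hn
    rw [LSeries.term_of_ne_zero hn0, hF] at hn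
    by_cases h : d ∣ n
    · obtain ⟨m, rfl⟩ := h
      exact ⟨m, rfl⟩
    · simp [h] at hn
  · rcases eq_or_ne m 0 with rfl | hm
    · simp
    · rw [LSeries.term_of_ne_zero hm, LSeries.term_of_ne_zero (mul_ne_zero hd0.ne' hm), hF]
      simp only [dvd_mul_right, if_true, Nat.mul_div_cancel_left _ hd0, map_mul, Nat.cast_mul,
        natCast_mul_natCast_cpow, cpow_neg]
      field_simp

/-- The parts with `D ≠ q` vanish, the part with `D = q` is that of `g χ`. -/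
theorem eventually_part_bounds [NeZero q] [NeZero D] {χ : DirichletCharacter ℂ q}
    (hχ : χ.IsPrimitive) {k : ℕ} (hD : D ∣ q ^ k) {δ η : ℝ} (hδ : 0 < δ) (hη : 0 < η) :
    ∀ᶠ L : ℝ in atTop, ∀ g : ℕ →*₀ ℂ, (∀ n, n ≠ 0 → ‖g n‖ = 1) → ∀ t : ℝ,
      δ ≤ mass (twistHom g χ) L t →
        (q ≠ D → ‖part g D L t‖ ≤ η) ∧ (q = D → ‖tcoef χ‖ * δ - η ≤ ‖part g D L t‖) := by
  classical
  obtain ⟨K, hK⟩ : ∃ K : ℝ, K = ∑ ψ : DirichletCharacter ℂ D, ‖tcoef ψ‖ + 1 := ⟨_, rfl⟩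
  have hK0 : 0 < K := hK ▸ add_pos_of_nonneg_of_pos (sum_nonneg fun _ _ => norm_nonneg _) one_pos
  filter_upwards [eventually_mass_other_le (D := D) hχ hδ (div_pos hη hK0),
    eventually_gt_atTop (0 : ℝ)] with L hother hL g hg t hδt
  have hg1 := norm_le_one_of_unimodular hg
  obtain ⟨a, ha⟩ : ∃ a : DirichletCharacter ℂ D → ℂ, a = fun ψ => tcoef ψ *
      (LSeries (twistHom g ψ) (((1 + 1 / L : ℝ) : ℂ) + t * I) / L) := ⟨_, rfl⟩
  have hpart : part g D L t = ∑ ψ, a ψ := by rw [part_eq_sum hg1 hL, ha]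
  have hna : ∀ ψ, ‖a ψ‖ = ‖tcoef ψ‖ * mass (twistHom g ψ) L t := fun ψ => by
    rw [ha, norm_mul, norm_div, Complex.norm_real, Real.norm_of_nonneg hL.le]
    rfl
  have hsum : ∀ s : Finset (DirichletCharacter ℂ D),
      (∀ ψ ∈ s, tcoef ψ = 0 ∨ ∀ h : q ∣ D, ψ ≠ changeLevel h χ) → ‖∑ ψ ∈ s, a ψ‖ ≤ η := by
    intro s hs
    refine (norm_sum_le _ _).trans ((sum_le_sum (g := fun ψ => ‖tcoef ψ‖ * (η / K))
      fun ψ hψ => ?_).trans ?_)
    · rw [hna]
      rcases hs ψ hψ with h | h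
      · simp [h]
      · exact mul_le_mul_of_nonneg_left (hother g hg t hδt ψ h) (norm_nonneg _)
    · rw [← sum_mul]
      refine (mul_le_mul_of_nonneg_right ?_ (div_pos hη hK0).le).trans_eq
        (mul_div_cancel₀ η hK0.ne')
      rw [hK]
      exact (sum_le_sum_of_subset_of_nonneg (subset_univ s) fun _ _ _ => norm_nonneg _).trans
        (le_add_of_nonneg_right zero_le_one)
  constructor
  · intro hne
    rw [hpart]
    refine hsum _ fun ψ _ => ?_
    by_cases h : ∃ h : q ∣ D, ψ = changeLevel h χ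
    · obtain ⟨h1, rfl⟩ := h
      exact Or.inl (tcoef_changeLevel_eq_zero χ h1 hne hD)
    · exact Or.inr fun h1 h2 => h ⟨h1, h2⟩
  · intro hqD
    subst hqD
    rw [hpart, ← add_sum_erase _ _ (mem_univ χ)]
    have h1 := hsum (univ.erase χ) fun ψ hψ => Or.inr fun h h2 =>
      ne_of_mem_erase hψ (by rw [h2, changeLevel_self])
    have h2 := norm_sub_norm_le (a χ) (-∑ ψ ∈ univ.erase χ, a ψ)
    rw [sub_neg_eq_add, norm_neg, hna] at h2
    linarith [mul_le_mul_of_nonneg_left hδt (norm_nonneg (tcoef χ))]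

/-- **The mean is of size `q ^ (-i)`.** -/
theorem eventually_twistedMean_ge [NeZero q] {χ : DirichletCharacter ℂ q} (hχ : χ.IsPrimitive)
    {δ : ℝ} (hδ : 0 < δ) (i : ℕ) :
    ∀ᶠ L : ℝ in atTop, ∀ g : ℕ →*₀ ℂ, (∀ n, n ≠ 0 → ‖g n‖ = 1) → ∀ t : ℝ,
      δ ≤ mass (twistHom g χ) L t →
        ‖tcoef χ‖ * δ / 2 / (q : ℝ) ^ i ≤
          ‖∑' n, (wt L n : ℂ) * (g n * osc t n * ef (-(1 / ((q ^ (i + 1) : ℕ) : ℝ))) n)‖ := by
  obtain ⟨Q, hQ⟩ : ∃ Q, Q = q ^ (i + 1) := ⟨_, rfl⟩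
  obtain ⟨c, hc⟩ : ∃ c, c = ‖tcoef χ‖ * δ / (q : ℝ) ^ i := ⟨_, rfl⟩
  have hq0 : 0 < q := NeZero.pos q
  have hQ0 : Q ≠ 0 := hQ ▸ (pow_pos hq0 _).ne'
  have hc0 : 0 < c := hc ▸ div_pos (mul_pos (norm_pos_iff.2 (tcoef_ne_zero hχ)) hδ)
    (by positivity)
  obtain ⟨η, hη⟩ : ∃ η : ℝ, η = c / (4 * (Q.divisors.card + 1)) := ⟨_, rfl⟩
  have hη0 : 0 < η := hη ▸ by positivity
  have hb : ∀ᶠ L : ℝ in atTop, ∀ d ∈ Q.divisors, ∀ g : ℕ →*₀ ℂ, (∀ n, n ≠ 0 → ‖g n‖ = 1) →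
      ∀ t : ℝ, δ ≤ mass (twistHom g χ) L t → (q ≠ Q / d → ‖part g (Q / d) L t‖ ≤ η) ∧
        (q = Q / d → ‖tcoef χ‖ * δ - η ≤ ‖part g (Q / d) L t‖) := by
    refine (eventually_all_finset _).2 fun d hd => ?_
    have hdd := Nat.mem_divisors.1 hd
    have : NeZero (Q / d) := ⟨(Nat.div_pos (Nat.le_of_dvd (Nat.pos_of_ne_zero hQ0) hdd.1)
      (Nat.pos_of_mem_divisors hd)).ne'⟩
    exact eventually_part_bounds hχ (k := i + 1) (hQ ▸ Nat.div_dvd_of_dvd hdd.1) hδ hη0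
  have hlim : Tendsto (fun L : ℝ => ((q : ℝ) ^ i) ^ (-(1 / L))) atTop (𝓝 1) := by
    have h0 : Tendsto (fun L : ℝ => -(1 / L)) atTop (𝓝 0) := by
      simpa using (tendsto_inv_atTop_zero (𝕜 := ℝ)).neg
    simpa using tendsto_const_nhds.rpow h0 (Or.inl (pow_pos (Nat.cast_pos.2 hq0) i).ne')
  filter_upwards [hb, hlim.eventually (Ici_mem_nhds (show (3 / 4 : ℝ) < 1 by norm_num)),
    eventually_gt_atTop (0 : ℝ)] with L hL1 hpow hL g hg t hδt
  have hpow' : (3 / 4 : ℝ) ≤ ((q : ℝ) ^ i) ^ (-(1 / L)) := hpow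
  rw [← hQ, tsum_twisted_eq (norm_le_one_of_unimodular hg) hL t hQ0]
  obtain ⟨T, hT⟩ : ∃ T : ℕ → ℂ, T = fun d => g d *
      (d : ℂ) ^ (-(((1 + 1 / L : ℝ) : ℂ) + t * I)) * part g (Q / d) L t := ⟨_, rfl⟩
  have hnorm : ∀ d ∈ Q.divisors, ‖T d‖ = (d : ℝ) ^ (-(1 + 1 / L)) * ‖part g (Q / d) L t‖ :=
    fun d hd => by
      rw [hT, norm_mul, norm_mul, hg d (Nat.pos_of_mem_divisors hd).ne',
        norm_natCast_cpow_of_pos (Nat.pos_of_mem_divisors hd)]
      simp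
  have hmem : q ^ i ∈ Q.divisors :=
    Nat.mem_divisors.2 ⟨hQ ▸ pow_dvd_pow q (Nat.le_succ i), hQ0⟩
  have hdiv : Q / q ^ i = q := by
    rw [hQ, pow_succ, Nat.mul_div_cancel_left _ (pow_pos hq0 i)]
  have hmain : 3 / 4 * c - η ≤ ‖T (q ^ i)‖ := by
    rw [hnorm _ hmem]
    have h1 := (hL1 _ hmem g hg t hδt).2 hdiv.symm
    have hq1 : (1 : ℝ) ≤ (q : ℝ) ^ i := one_le_pow₀ (by exact_mod_cast hq0)
    have hP : ((q ^ i : ℕ) : ℝ) ^ (-(1 + 1 / L)) =
        ((q : ℝ) ^ i) ^ (-(1 / L)) / (q : ℝ) ^ i := by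
      rw [Nat.cast_pow, neg_add, Real.rpow_add (by linarith), Real.rpow_neg_one]
      ring
    have hP1 : ((q ^ i : ℕ) : ℝ) ^ (-(1 + 1 / L)) ≤ 1 :=
      Real.rpow_le_one_of_one_le_of_nonpos (by push_cast; exact hq1)
        (by linarith [one_lt_scale hL])
    have hP0 : 3 / 4 / (q : ℝ) ^ i ≤ ((q ^ i : ℕ) : ℝ) ^ (-(1 + 1 / L)) := by
      rw [hP]
      exact div_le_div_of_nonneg_right hpow' (by linarith)
    have hP' : 0 ≤ ((q ^ i : ℕ) : ℝ) ^ (-(1 + 1 / L)) := by positivity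
    have e : 3 / 4 * c = 3 / 4 / (q : ℝ) ^ i * (‖tcoef χ‖ * δ) := by
      rw [hc]
      ring
    nlinarith [mul_le_mul_of_nonneg_left h1 hP', mul_le_mul_of_nonneg_right hP1 hη0.le,
      mul_le_mul_of_nonneg_right hP0 (mul_nonneg (norm_nonneg (tcoef χ)) hδ.le)]
  have hrest : ‖∑ d ∈ Q.divisors.erase (q ^ i), T d‖ ≤ Q.divisors.card * η := by
    refine (norm_sum_le _ _).trans ((sum_le_card_nsmul _ _ η fun d hd => ?_).trans ?_)
    · obtain ⟨hne, hd'⟩ := mem_erase.1 hd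
      rw [hnorm d hd']
      refine (mul_le_of_le_one_left (norm_nonneg _) (Real.rpow_le_one_of_one_le_of_nonpos
        (by exact_mod_cast Nat.pos_of_mem_divisors hd') (by linarith [one_lt_scale hL]))).trans
        ((hL1 d hd' g hg t hδt).1 fun hq => hne ?_)
      have h2 := Nat.div_mul_cancel (Nat.dvd_of_mem_divisors hd')
      rw [← hq, hQ, pow_succ'] at h2
      exact Nat.eq_of_mul_eq_mul_left hq0 h2
    · rw [nsmul_eq_mul]
      exact mul_le_mul_of_nonneg_right (by exact_mod_cast card_erase_le) hη0.le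
  have hsplit := norm_sub_norm_le (T (q ^ i)) (-∑ d ∈ Q.divisors.erase (q ^ i), T d)
  rw [sub_neg_eq_add, norm_neg, add_sum_erase _ _ hmem, hT] at hsplit
  rw [hT] at hmain hrest
  have hηc : (Q.divisors.card + 1 : ℝ) * η = c / 4 := by
    rw [hη]
    field_simp
  calc ‖tcoef χ‖ * δ / 2 / (q : ℝ) ^ i = c / 2 := by rw [hc]; ring
    _ ≤ _ := by linarith

end FA.ErdosDisc
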